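import Fermat.Agent.Mazur.Moduli.Place
import Fermat.Agent.ModFun.AtkinLehner

/-!
# The second degeneracy map on meromorphic functions

`β x (τ) = x (ℓ τ)`: the embedding of the function field of level `N ℓ` into the meromorphic
functions on `ℍ` carries `β` to `f ↦ f ∘ (ℓ ·)`, so the place at `z` of level `N ℓ` lies over the
places at `z` and at `ℓ z` of level `N` along `α` and `β`.
-/

set_option autoImplicit false

noncomputable section

open UpperHalfPlane hiding I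
open Function Filter Complex CongruenceSubgroup ModularCurve AlgebraicCurve
open scoped Manifold MatrixGroups Topology WithZero

namespace Fermat.Agent.RT.Lift.LowerPGen

open Fermat.Agent.ModFun Fermat.Agent.Mazur.Moduli

local notation "Qb" => AlgebraicClosure ℚ

theorem scaleH_surjective_pos (ℓ : ℕ) [NeZero ℓ] : Function.Surjective (scaleH ℓ) := fun τ =>
  ⟨affine 1 0 ℓ τ, UpperHalfPlane.ext (by
    rw [coe_scaleH, coe_affine]
    have : (ℓ : ℂ) ≠ 0 := Nat.cast_ne_zero.mpr (NeZero.ne ℓ)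
    field_simp
    simp)⟩

/-- `f ↦ f (ℓ τ)` on holomorphic functions. -/
def scaleUpHol (ℓ : ℕ) [NeZero ℓ] : HolH →ₐ[ℂ] HolH where
  toFun f := ⟨fun τ => (f : ℍ → ℂ) (scaleH ℓ τ), mdifferentiable_comp_affine ℓ 0 1 f.2⟩
  map_one' := rfl
  map_mul' _ _ := rfl
  map_zero' := rfl
  map_add' _ _ := rfl
  commutes' _ := rfl

theorem coe_scaleUpHol (ℓ : ℕ) [NeZero ℓ] (f : HolH) (τ : ℍ) :
    (scaleUpHol ℓ f : ℍ → ℂ) τ = (f : ℍ → ℂ) (scaleH ℓ τ) := rfl

theorem scaleUpHol_injective (ℓ : ℕ) [NeZero ℓ] : Function.Injective (scaleUpHol ℓ) := fun f g h =>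
  Subtype.ext (funext fun τ => by
    obtain ⟨z, rfl⟩ := scaleH_surjective_pos ℓ τ
    exact congrFun (congrArg Subtype.val h) z)

theorem scaleUpHol_toMerH_injective (ℓ : ℕ) [NeZero ℓ] :
    Function.Injective ((IsScalarTower.toAlgHom ℂ HolH MerH).comp (scaleUpHol ℓ)) :=
  fun _ _ h => scaleUpHol_injective ℓ (IsFractionRing.injective HolH MerH h)

/-- `f ↦ f (ℓ τ)` on meromorphic functions. -/
def scaleUpMer (ℓ : ℕ) [NeZero ℓ] : MerH →ₐ[ℂ] MerH :=
  IsFractionRing.liftAlgHom (A := HolH)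
    (g := (IsScalarTower.toAlgHom ℂ HolH MerH).comp (scaleUpHol ℓ))
    (scaleUpHol_toMerH_injective ℓ)

@[simp]
theorem scaleUpMer_algebraMap (ℓ : ℕ) [NeZero ℓ] (f : HolH) :
    scaleUpMer ℓ (algebraMap HolH MerH f) = algebraMap HolH MerH (scaleUpHol ℓ f) := by
  rw [scaleUpMer, IsFractionRing.liftAlgHom_apply]
  exact IsFractionRing.lift_algebraMap _ f

theorem ordHol_scaleUpHol (ℓ : ℕ) [NeZero ℓ] (f : HolH) (z : ℍ) :
    ordHol z (scaleUpHol ℓ f) = ordHol (scaleH ℓ z) f := by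
  have hm : AnalyticAt ℂ (fun w : ℂ => (ℓ : ℂ) * w) (z : ℂ) := by fun_prop
  have hd : deriv (fun w : ℂ => (ℓ : ℂ) * w) (z : ℂ) ≠ 0 := by
    rw [deriv_const_mul_field, deriv_id'', mul_one]
    exact Nat.cast_ne_zero.mpr (NeZero.ne ℓ)
  have h2 := analyticOrderAt_comp_of_deriv_ne_zero (f := (f : ℍ → ℂ) ∘ ofComplex) hm hd
  have hev : (((scaleUpHol ℓ f : HolH) : ℍ → ℂ) ∘ ofComplex) =ᶠ[𝓝 (z : ℂ)]
      ((f : ℍ → ℂ) ∘ ofComplex) ∘ fun w : ℂ => (ℓ : ℂ) * w := by
    filter_upwards [isOpen_upperHalfPlaneSet.mem_nhds z.im_pos] with w hw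
    have e : (((scaleH ℓ ⟨w, hw⟩ : ℍ)) : ℂ) = (ℓ : ℂ) * w := coe_scaleH ℓ ⟨w, hw⟩
    simp only [comp_apply, coe_scaleUpHol]
    rw [← e, ofComplex_apply, ofComplex_apply_of_im_pos hw]
  rw [ordHol, ordHol, analyticOrderNatAt, analyticOrderNatAt, analyticOrderAt_congr hev, h2,
    coe_scaleH]

theorem valAt_scaleUpMer (ℓ : ℕ) [NeZero ℓ] (x : MerH) (z : ℍ) :
    valAt z (scaleUpMer ℓ x) = valAt (scaleH ℓ z) x := by
  obtain ⟨a, b, -, rfl⟩ := IsFractionRing.div_surjective (A := HolH) x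
  have key : ∀ f : HolH, valHol z (scaleUpHol ℓ f) = valHol (scaleH ℓ z) f := by
    intro f
    rcases eq_or_ne f 0 with rfl | hf
    · simp
    · rw [valHol_apply hf, valHol_apply fun h => hf (scaleUpHol_injective ℓ (h.trans (map_zero _).symm)),
        ordHol_scaleUpHol]
  simp only [map_div₀, scaleUpMer_algebraMap, valAt_algebraMap, key]

variable (N ℓ : ℕ) [NeZero N] [NeZero ℓ]

theorem barC_generator {d : ℕ} [NeZero d] (hd : d ∣ N) {x : modularFunctionFieldBar N}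
    (hx : (x : LaurentSeries Qb) = qExpand Qb d (jqModC Qb)) :
    barC N x = toFC N (jd hd) :=
  Subtype.ext (by rw [coe_barC, hx, coe_toFC_jd, coeffMap_qExpand, coeffMap_jqModC])

theorem emb_one_jd {d : ℕ} [NeZero d] (hd : d ∣ N) :
    emb N ((1 : SL(2, ℤ)) : Coset N) (toFC N (jd hd)) =
      algebraMap HolH MerH ⟨jdC d, (jdC d).2.1⟩ := by
  rw [emb_toFC, toMerH_apply]
  exact congrArg _ (Subtype.ext (funext fun τ => tr_one (jd hd) τ))

/-- The first degeneracy map does not change the function on `ℍ`. -/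
theorem emb_barC_alpha (x : modularFunctionFieldBar N) :
    emb (N * ℓ) ((1 : SL(2, ℤ)) : Coset (N * ℓ)) (barC (N * ℓ) (heckeAlphaBar Qb N ℓ x)) =
      emb N ((1 : SL(2, ℤ)) : Coset N) (barC N x) := by
  refine RingHom.congr_fun (f := ((emb (N * ℓ) _).toRingHom.comp (barC (N * ℓ))).comp
    (heckeAlphaBar Qb N ℓ).toRingHom) (g := (emb N _).toRingHom.comp (barC N))
    (ringHom_ext_level _ _ (fun a => ?_) fun y hy => ?_) x
  · show emb (N * ℓ) _ (barC (N * ℓ) (heckeAlphaBar Qb N ℓ (algebraMap Qb _ a))) =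
      emb N _ (barC N (algebraMap Qb _ a))
    rw [AlgHom.commutes, barC_algebraMap, barC_algebraMap, AlgHom.commutes, AlgHom.commutes]
  · obtain ⟨d, hd, hdN, hyd⟩ := hy
    have := hd
    show emb (N * ℓ) _ (barC (N * ℓ) (heckeAlphaBar Qb N ℓ y)) = emb N _ (barC N y)
    rw [barC_generator (N * ℓ) (hdN.trans (dvd_mul_right N ℓ))
        (show (heckeAlphaBar Qb N ℓ y : LaurentSeries Qb) = _ by rw [coe_heckeAlphaBar, hyd]),
      barC_generator N hdN hyd, emb_one_jd, emb_one_jd]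

/-- **The second degeneracy map is composition with `τ ↦ ℓ τ`.** -/
theorem emb_barC_beta (x : modularFunctionFieldBar N) :
    emb (N * ℓ) ((1 : SL(2, ℤ)) : Coset (N * ℓ)) (barC (N * ℓ) (heckeBetaBar Qb N ℓ x)) =
      scaleUpMer ℓ (emb N ((1 : SL(2, ℤ)) : Coset N) (barC N x)) := by
  refine RingHom.congr_fun (f := ((emb (N * ℓ) _).toRingHom.comp (barC (N * ℓ))).comp
    (heckeBetaBar Qb N ℓ).toRingHom)
    (g := ((scaleUpMer ℓ).comp (emb N _)).toRingHom.comp (barC N))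
    (ringHom_ext_level _ _ (fun a => ?_) fun y hy => ?_) x
  · show emb (N * ℓ) _ (barC (N * ℓ) (heckeBetaBar Qb N ℓ (algebraMap Qb _ a))) =
      scaleUpMer ℓ (emb N _ (barC N (algebraMap Qb _ a)))
    rw [AlgHom.commutes, barC_algebraMap, barC_algebraMap, AlgHom.commutes, AlgHom.commutes,
      AlgHom.commutes]
  · obtain ⟨d, hd, hdN, hyd⟩ := hy
    have := hd
    have hy' : (heckeBetaBar Qb N ℓ y : LaurentSeries Qb) = qExpand Qb (d * ℓ) (jqModC Qb) := by
      rw [coe_heckeBetaBar, hyd, qExpand_qExpand]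
      congr! 2
      rw [mul_comm]
    have e1 := barC_generator (N * ℓ) (d := d * ℓ) (mul_dvd_mul_right hdN ℓ) hy'
    have e2 := barC_generator N hdN hyd
    show emb (N * ℓ) ((1 : SL(2, ℤ)) : Coset (N * ℓ)) (barC (N * ℓ) (heckeBetaBar Qb N ℓ y)) =
      scaleUpMer ℓ (emb N ((1 : SL(2, ℤ)) : Coset N) (barC N y))
    rw [e1, e2, emb_one_jd, emb_one_jd, scaleUpMer_algebraMap]
    refine congrArg _ (Subtype.ext (funext fun τ => ?_))
    show (jdC (d * ℓ) : ℍ → ℂ) τ = (jdC d : ℍ → ℂ) (scaleH ℓ τ)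
    rw [jdC_apply, jdC_apply, scaleH_mul]

/-- The place at `z` lies over the place at `z` along the first degeneracy map. -/
theorem mem_placeAt_alpha (z : ℍ) (x : modularFunctionFieldBar N) :
    barC (N * ℓ) (heckeAlphaBar Qb N ℓ x) ∈ (placeAt (N * ℓ) z).toValuationSubring ↔
      barC N x ∈ (placeAt N z).toValuationSubring := by
  rw [mem_placeAt_iff, mem_placeAt_iff, emb_barC_alpha]

/-- The place at `z` lies over the place at `ℓ z` along the second degeneracy map. -/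
theorem mem_placeAt_beta (z : ℍ) (x : modularFunctionFieldBar N) :
    barC (N * ℓ) (heckeBetaBar Qb N ℓ x) ∈ (placeAt (N * ℓ) z).toValuationSubring ↔
      barC N x ∈ (placeAt N (scaleH ℓ z)).toValuationSubring := by
  rw [mem_placeAt_iff, mem_placeAt_iff, emb_barC_beta, valAt_scaleUpMer]

end Fermat.Agent.RT.Lift.LowerPGen

end
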