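import Fermat.Agent.RT.Lift.LowerPGen.RegDiv

/-!
# The reduced divisor of `dj` at the cusps

One pole of `j` reduces to each cusp, and the other places reducing to a cusp are unramified, so
`regDiv` is `ord j - 1` at a cusp; its degree is at most `2 g - 2`.
-/

set_option autoImplicit false
set_option linter.unusedSectionVars false

noncomputable section

open AlgebraicCurve
open scoped IntermediateField Classical

namespace Fermat.Agent.RT.Lift.LowerPGen

open Fermat.Agent.Semistable Fermat.Agent.RT.MazurP
open FiniteFlat (redDiv redPlace goodRed)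
open Arith (QBar)

attribute [local instance] finiteDimensional_jM isSeparable_jM
-- the search through this instance fails slowly on `FB N`
attribute [-instance] IntermediateField.algebra'

variable {A : ValuationSubring QBar} {N : ℕ} [NeZero N]
  [FF.IsFunctionField (Res A) (KM A N)] [IsAlgClosed (Res A)] (hN : (N : Res A) ≠ 0)

variable (N) in
/-- The sum of the poles of `j` in characteristic zero. -/
def poleSupp : Divisor QBar (FB N) :=
  ∑ P ∈ (FF.finite_poles (K := QBar) (jM N)).toFinset, Finsupp.single P 1

theorem poleSupp_apply (P : Place QBar (FB N)) :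
    poleSupp N P = if P.ord (jM N) < 0 then 1 else 0 := by
  rw [poleSupp, Finsupp.finsetSum_apply]
  simp only [Finsupp.single_apply, Finset.sum_ite_eq', Set.Finite.mem_toFinset, Set.mem_ofPred_eq]

theorem degree_poleSupp :
    Divisor.degree (poleSupp N) = (ModularCurve.cuspCount N : ℤ) := by
  rw [poleSupp, RedTorsion.degree_sum_single, ← Genus.card_zeros_inv N]
  have hjB : Genus.jB N = jM N := Subtype.ext ((ModFun.coe_jBase N _).trans (coe_jM N).symm)
  congr 2
  ext P
  rw [Set.Finite.mem_toFinset, Genus.mem_zerosFin, hjB, P.ord_inv]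
  show P.ord (jM N) < 0 ↔ _
  omega

variable [FiniteDimensional (Res A)⟮jK A N⟯ (KM A N)]
  [Algebra.IsSeparable (Res A)⟮jK A N⟯ (KM A N)]

include hN

/-- Exactly one pole reduces to each cusp. -/
theorem redDiv_poleSupp (Q : Place (Res A) (KM A N)) :
    redDiv (goodRed hN :) (poleSupp N) Q = if Q.ord (jK A N) < 0 then 1 else 0 := by
  set s := (FF.finite_poles (K := Res A) (jK A N)).toFinset
  set T : Divisor (Res A) (KM A N) := ∑ Q ∈ s, Finsupp.single Q 1 with hT
  have hTv : ∀ v, T v = if v.ord (jK A N) < 0 then 1 else 0 := fun v => by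
    rw [hT, Finsupp.finsetSum_apply]
    simp only [s, Finsupp.single_apply, Finset.sum_ite_eq', Set.Finite.mem_toFinset,
      Set.mem_ofPred_eq]
  have hle : T ≤ redDiv (goodRed hN :) (poleSupp N) := fun v => by
    rw [hTv]
    have hnn : ∀ P, redPlace (goodRed hN :) P = v → 0 ≤ poleSupp N P := fun P _ => by
      rw [poleSupp_apply]; split_ifs <;> norm_num
    split_ifs with hv
    · obtain ⟨P, hP, hPp⟩ : ∃ P, redPlace (goodRed hN :) P = v ∧ P.ord (jM N) < 0 := by
        by_contra! h
        have h1 : redDiv (goodRed hN :) (FF.poles QBar (jM N)) v ≤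
            redDiv (goodRed hN :) 0 v := redDiv_apply_mono hN fun P hP => by
          rw [FF.poles_apply, max_eq_left (by have := h P hP; omega)]
          simp
        rw [redDiv_poles_jM hN, map_zero, Finsupp.zero_apply, FF.poles_apply] at h1
        omega
      subst hP
      refine le_trans (le_of_eq ?_) (le_redDiv_apply hN hnn)
      rw [poleSupp_apply, if_pos hPp]
    · exact redDiv_apply_nonneg hN hnn
  have hd : Divisor.degree (redDiv (goodRed hN :) (poleSupp N)) ≤ Divisor.degree T := by
    rw [FiniteFlat.degree_redDiv, degree_poleSupp, hT, RedTorsion.degree_sum_single,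
      ← Nat.subtype_card (p := fun Q => Q.ord (jK A N) < 0) s fun Q =>
        (FF.finite_poles (K := Res A) (jK A N)).mem_toFinset]
    exact_mod_cast (RedTorsion.natCard_poles_residue (A := A) (N := N) hN).ge
  rw [← FiniteFlat.eq_of_le_of_degree_le hle hd, hTv]

/-- A finite place reducing to a cusp has `j` outside `A`, so is unramified. -/
theorem jDiv_eq_zero_of_red_pole {P : Place QBar (FB N)}
    (hQ : (redPlace (goodRed hN :) P).ord (jK A N) < 0) (hP : 0 ≤ P.ord (jM N)) :
    jDiv N P = 0 := by
  have hJ : Transcendental QBar (jM N) := transcendental_jM N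
  obtain ⟨c, hc⟩ := FF.exists_ord_sub_pos P hJ hP
  have hcA : c ∉ A := by
    intro hcA
    have hm : algebraMap QBar (FB N) c ∈ loc2 A (iota1 N) := algebraMap_mem_loc2 (iota1 N) hcA
    set y : loc2 A (iota1 N) := ⟨jM N, jM_mem N⟩ - ⟨_, hm⟩
    set a : Res A := IsLocalRing.residue A ⟨c, hcA⟩
    have hred : red1 A N y = ((jK A N - algebraMap (Res A) (KM A N) a : KM A N) :
        LaurentSeries (Res A)) := by
      have e : red1 A N ⟨_, hm⟩ = algebraMap (Res A) (LaurentSeries (Res A)) a := by
        rw [red1_eq]
        exact (redL_congr _ (algebraMap_mem_locS hcA) rfl).trans (redL_algebraMap hcA)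
      rw [map_sub, red1_jM, e]
      rfl
    have hr0 : jK A N - algebraMap (Res A) (KM A N) a ≠ 0 := fun h => jK_transcendental A N (by
      rw [sub_eq_zero.mp h]; exact isAlgebraic_algebraMap a)
    have hpol : ∀ v : Place QBar (FB N),
        0 ≤ v.ord (jM N - algebraMap QBar (FB N) c) + FF.poles QBar (jM N) v := fun v => by
      rw [FF.poles_apply]
      rcases lt_or_ge (v.ord (jM N)) 0 with hv | hv
      · rw [max_eq_right (by omega), sub_eq_add_neg,
          (FF.ord_add_eq_left v (f := jM N) (g := -algebraMap QBar (FB N) c)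
            (fun h => by simp [h] at hv)
            (Or.inr (by rw [FF.ord_neg, FF.ord_algebraMap]; exact hv))).2]
        omega
      · rw [max_eq_left (by omega), add_zero]
        exact FF.ord_nonneg v (sub_mem ((FF.mem_iff v).mpr (Or.inr hv)) (v.algebraMap_mem' c))
    have h := le_redDiv_apply hN (P := P) (D := FF.div QBar (y : FB N) + FF.poles QBar (jM N))
      fun P' _ => by rw [Finsupp.add_apply, FF.div_apply]; exact hpol P'
    rw [map_add, redDiv_div_loc hN hr0 hred, redDiv_poles_jM hN, Finsupp.add_apply,
      Finsupp.add_apply, FF.div_apply, FF.div_apply, FF.poles_apply, FF.poles_apply,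
      max_eq_left (show -P.ord (jM N) ≤ 0 by omega), max_eq_right (by omega), sub_eq_add_neg,
      (FF.ord_add_eq_left (redPlace (goodRed hN :) P) (f := jK A N)
        (g := -algebraMap (Res A) (KM A N) a)
        (fun h => by simp [h] at hQ)
        (Or.inr (by rw [FF.ord_neg, FF.ord_algebraMap]; exact hQ))).2] at h
    have : P.ord (y : FB N) = P.ord (jM N - algebraMap QBar (FB N) c) := rfl
    omega
  have hne : ∀ n : ℕ, c ≠ n := fun n h => hcA (h ▸ natCast_mem A n)
  have hle : P.ord (jM N - algebraMap QBar (FB N) c) ≤ 1 := by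
    have h := Genus.ord_jB_sub_le_one N c (by simpa using hne 0) (by simpa using hne 1728) P
    rwa [show Genus.jB N = jM N from Subtype.ext ((ModFun.coe_jBase N _).trans (coe_jM N).symm)] at h
  have he : (P.ramificationIndex QBar⟮jM N⟯ : ℤ) = P.ord (jM N - algebraMap QBar (FB N) c) :=
    RedTorsion.ram_of_zero hJ P (a := c) (FF.mem_ordGe_of_le P hc)
  rw [jDiv_of_finite hP]
  omega

/-- The value of `regDiv` at a cusp. -/
theorem regDiv_of_pole {Q : Place (Res A) (KM A N)} (hQ : Q.ord (jK A N) < 0) :
    regDiv hN Q = Q.ord (jK A N) - 1 := by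
  have h : redDiv (goodRed hN :) (jDiv N) Q =
      redDiv (goodRed hN :) (-FF.poles QBar (jM N) - poleSupp N) Q :=
    redDiv_apply_congr hN fun P hP => by
      rw [Finsupp.sub_apply, Finsupp.neg_apply, poleSupp_apply, FF.poles_apply]
      rcases lt_or_ge (P.ord (jM N)) 0 with hp | hp
      · rw [jDiv_of_pole hp, if_pos hp, max_eq_right (by omega)]; ring
      · rw [jDiv_eq_zero_of_red_pole hN (hP.symm ▸ hQ) hp, if_neg (by omega),
          max_eq_left (by omega)]
        ring
  rw [regDiv, h, map_sub, map_neg, Finsupp.sub_apply, Finsupp.neg_apply, redDiv_poles_jM hN,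
    redDiv_poleSupp hN, if_pos hQ, FF.poles_apply, max_eq_right (by omega)]
  ring

/-- The degree of `regDiv` is at most `2 g - 2`. -/
theorem degree_regDiv :
    Divisor.degree (regDiv hN) ≤ 2 * (genusFF (Res A) (KM A N) : ℤ) - 2 := by
  rw [regDiv, FiniteFlat.degree_redDiv]
  have h := degree_djDiv (transcendental_jM N)
  have hg : genusFF (Res A) (KM A N) = genusFF QBar (FB N) :=
    FiniteFlat.genusFF_residue_eq hN
  rw [hg]
  exact h

end Fermat.Agent.RT.Lift.LowerPGen

end
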