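import Fermat.Agent.RT.Lift.LowerPGen.RegDiv
import Fermat.Agent.RT.MazurP.Dlog

/-!
# Derivatives over the residue field, bounded by the reduced divisor of `dj`

At every finite place some uniformiser has derivative of order exactly `- regDiv`, and derivatives
of units obey this bound everywhere.
-/

set_option autoImplicit false
set_option synthInstance.maxHeartbeats 400000
set_option maxHeartbeats 1000000
set_option linter.unusedSectionVars false

noncomputable section

open AlgebraicCurve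
open scoped IntermediateField Classical

namespace Fermat.Agent.RT.Lift.LowerPGen

open Fermat.Agent.Semistable Fermat.Agent.RT.MazurP
open FiniteFlat (redDiv redPlace goodRed)
open Arith (QBar)

attribute [local instance] finiteDimensional_jM isSeparable_jM

/-- In a space of large degree some function has the smallest order allowed at a given place. -/
theorem exists_ord_eq {K F : Type*} [Field K] [IsAlgClosed K] [Field F] [Algebra K F]
    [FF.IsFunctionField K F] (v : Place K F) :
    ∃ c : ℤ, ∀ D : Divisor K F, c ≤ Divisor.degree D →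
      ∃ b ∈ riemannRochSpace D, b ≠ 0 ∧ v.ord b = -D v := by
  obtain ⟨c, hc⟩ := FF.exists_ell_eq (K := K) (F := F)
  refine ⟨c + 1, fun D hdeg => ?_⟩
  obtain ⟨b, hb, hbv⟩ : ∃ b ∈ riemannRochSpace D,
      b ∉ riemannRochSpace (D - Finsupp.single v 1) := by
    by_contra hall
    push Not at hall
    have hle : riemannRochSpace D ≤ riemannRochSpace (D - Finsupp.single v 1) := hall
    have h1 := hc D (by omega)
    have hd' : Divisor.degree (D - Finsupp.single v 1) = Divisor.degree D - 1 := by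
      rw [map_sub, Divisor.degree_single, FF.deg_eq_one v]; simp
    have h2 := hc (D - Finsupp.single v 1) (by omega)
    have h3 := Submodule.finrank_mono hle
    unfold FF.ell at h1 h2
    omega
  have hb0 : b ≠ 0 := fun h => hbv (h ▸ zero_mem _)
  have h1 := FF.le_ord_of_mem_ordGe v hb0 (FF.mem_riemannRochSpace'.mp hb v)
  refine ⟨b, hb, hb0, le_antisymm ?_ h1⟩
  by_contra hlt
  refine hbv (FF.mem_riemannRochSpace'.mpr fun u => ?_)
  rcases eq_or_ne u v with rfl | huv
  · refine FF.mem_ordGe_of_le u ?_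
    rw [Finsupp.sub_apply, Finsupp.single_eq_same]
    omega
  · rw [Finsupp.sub_apply, Finsupp.single_eq_of_ne huv, sub_zero]
    exact FF.mem_riemannRochSpace'.mp hb u

/-- Constants reduce to constants. -/
theorem red1_const {A : ValuationSubring QBar} {N : ℕ} [NeZero N] {a : QBar} (ha : a ∈ A) :
    ∃ hm : algebraMap QBar (FB N) a ∈ loc2 A (iota1 N),
      red1 A N ⟨_, hm⟩ = ((algebraMap (Res A) (KM A N) (IsLocalRing.residue A ⟨a, ha⟩) : KM A N) :
        LaurentSeries (Res A)) := by
  refine ⟨algebraMap_mem_loc2 (iota1 N) ha, ?_⟩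
  rw [red1_eq]
  exact (redL_congr _ (algebraMap_mem_locS ha) rfl).trans (redL_algebraMap ha)

section Residue

variable {A : ValuationSubring QBar} {N : ℕ} [NeZero N]
  [FF.IsFunctionField (Res A) (KM A N)] [IsAlgClosed (Res A)]
  [FiniteDimensional (Res A)⟮jK A N⟯ (KM A N)] [Algebra.IsSeparable (Res A)⟮jK A N⟯ (KM A N)]
  (p : ℕ) [Fact p.Prime] [CharP (Res A) p] (hA : A.LiesOverPrime p) (hN : (N : Res A) ≠ 0)

include hA hN

theorem exists_lift : ∃ n₀ : ℕ, ∀ n, n₀ ≤ n → ∀ r ∈ Semistable.Hk A N n,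
    ∃ x : loc2 A (iota1 N), (x : FB N) ∈ HM N n ∧
      red1 A N x = ((r : KM A N) : LaurentSeries (Res A)) := by
  obtain ⟨n₀, hn₀⟩ := exists_red1_surjective p hA hN (RT.Mazur.goodM_of_ne_zero hN)
  exact ⟨n₀, fun n hn r hr => hn₀ n hn _ ((mem_HkS A N).mpr ⟨r.2, hr⟩)⟩

omit hA hN in
theorem mem_of_mem_HM {n : ℕ} {x : FB N} (hx : x ∈ HM N n) {P : Place QBar (FB N)}
    (hP : 0 ≤ P.ord (jM N)) : x ∈ P.toValuationSubring := by
  have h := RedTorsion.mem_polesSpace.mp hx P
  rw [FF.poles_apply, max_eq_left (by omega), mul_zero, neg_zero] at h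
  exact (FF.mem_ordGe_zero P).mp h

/-- Derivatives of `L (n ∞)` at finite places. -/
theorem dd_Hk_mem : ∃ n₀ : ℕ, ∀ n, n₀ ≤ n → ∀ r ∈ Semistable.Hk A N n,
    ∀ Q : Place (Res A) (KM A N), 0 ≤ Q.ord (jK A N) →
      dd (K := Res A) (jK A N) r ∈ FF.ordGe Q (-regDiv hN Q) := by
  obtain ⟨n₀, hn₀⟩ := exists_lift p hA hN
  refine ⟨n₀, fun n hn r hr Q hQ => ?_⟩
  rcases eq_or_ne (dd (K := Res A) (jK A N) r) 0 with h0 | h0
  · rw [h0]; exact zero_mem _
  obtain ⟨x, hx, hxr⟩ := hn₀ n hn r hr
  obtain ⟨d, hd, hdr⟩ := exists_red_dd hxr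
  have hd0 : (d : FB N) ≠ 0 := fun h => h0 (Subtype.ext (by
    rw [← hdr, show d = 0 from Subtype.ext h, map_zero, ZeroMemClass.coe_zero]))
  refine FF.mem_ordGe_of_le Q ?_
  rw [regDiv, ← Finsupp.neg_apply, ← map_neg]
  refine le_ord_red hN h0 hdr fun P hP => ?_
  subst hP
  have hPj := finite_of_redPlace hN hQ
  rw [Finsupp.neg_apply]
  refine FF.le_ord_of_mem_ordGe P hd0 ?_
  rw [hd]
  exact (ord_dd_of_finite P hPj).1 (mem_of_mem_HM hx hPj)

/-- A uniformiser at a finite place with derivative of order exactly `- regDiv`. -/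
theorem exists_uniformiser_dd {Q : Place (Res A) (KM A N)} (hQ : 0 ≤ Q.ord (jK A N)) :
    ∃ u : KM A N, Q.ord u = 1 ∧ dd (K := Res A) (jK A N) u ≠ 0 ∧
      Q.ord (dd (K := Res A) (jK A N) u) = -regDiv hN Q := by
  have hJ : Transcendental (Res A) (jK A N) := jK_transcendental A N
  obtain ⟨n₀, hn₀⟩ := exists_lift p hA hN
  obtain ⟨c₀, hc₀⟩ := exists_ord_eq Q
  set P₀ := FF.poles (Res A) (jK A N) with hP₀
  have hdegP : 0 < Divisor.degree P₀ := by
    rw [hP₀, FF.degree_poles hJ]; exact_mod_cast Module.finrank_pos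
  set n : ℕ := n₀ + (c₀ + 1).toNat
  have hdeg : c₀ ≤ Divisor.degree (n • P₀ - Finsupp.single Q 1) := by
    rw [map_sub, map_nsmul, nsmul_eq_mul, Divisor.degree_single, FF.deg_eq_one Q]
    have h1 : c₀ + 1 ≤ (n : ℤ) := by push_cast [n]; omega
    have h2 := mul_le_mul_of_nonneg_left (show (1 : ℤ) ≤ Divisor.degree P₀ by omega)
      (Int.natCast_nonneg n)
    push_cast
    linarith
  obtain ⟨u, hu, hu0, huQ⟩ := hc₀ _ hdeg
  have hu1 : Q.ord u = 1 := by
    rw [huQ, Finsupp.sub_apply, Finsupp.single_eq_same, RedTorsion.nsmul_poles_apply,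
      FF.poles_apply, max_eq_left (by omega)]
    ring
  have hun : u ∈ Semistable.Hk A N n := by
    refine FF.mem_riemannRochSpace'.mpr fun w => ?_
    refine FF.ordGe_anti w ?_ (FF.mem_riemannRochSpace'.mp hu w)
    rw [Finsupp.sub_apply, show FF.poles (Res A) (jK A N) = P₀ from rfl]
    have : 0 ≤ Finsupp.single Q (1 : ℤ) w := by
      rcases eq_or_ne w Q with rfl | hw <;> simp [*]
    omega
  obtain ⟨x, hx, hxr⟩ := hn₀ n (Nat.le_add_right _ _) u hun
  -- every place above is a simple zero of `x` minus its value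
  have key : ∀ P, redPlace (goodRed hN) P = Q →
      (dd (K := QBar) (jM N) (x : FB N) ≠ 0 ∧
        P.ord (dd (K := QBar) (jM N) (x : FB N)) = -jDiv N P) := by
    intro P hP
    have hfin : ∀ P', redPlace (goodRed hN) P' = Q → 0 ≤ P'.ord (jM N) := fun P' h =>
      finite_of_redPlace hN (h ▸ hQ)
    obtain ⟨c, hc⟩ := FF.exists_sub_mem_ordGe_one P (mem_of_mem_HM hx (hfin P hP))
    have hnn : ∀ y : FB N, y ∈ HM N n → ∀ P', redPlace (goodRed hN) P' = Q →
        0 ≤ FF.div QBar y P' := fun y hy P' h => by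
      rw [FF.div_apply]
      exact FF.ord_nonneg P' (mem_of_mem_HM hy (hfin P' h))
    have hconst : ∀ a : QBar, algebraMap QBar (FB N) a ∈ HM N n := fun a =>
      RedTorsion.mem_polesSpace.mpr fun v => FF.ordGe_anti v
        (by rw [neg_nonpos, FF.poles_apply]; positivity)
        ((FF.mem_ordGe_zero v).mpr (v.algebraMap_mem' a))
    have hy0 : ∀ y : FB N, y ∈ HM N n → y ∈ FF.ordGe P 1 → y ≠ 0 → ∀ r : KM A N, r ≠ 0 →
        ∀ hm : y ∈ loc2 A (iota1 N), red1 A N ⟨y, hm⟩ = (r : LaurentSeries (Res A)) →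
        P.ord y ≤ Q.ord r ∧ 1 ≤ P.ord y := by
      intro y hy hy1 hy0 r hr0 hm hred
      refine ⟨?_, FF.le_ord_of_mem_ordGe P hy0 hy1⟩
      rw [← FF.div_apply (K := Res A) r Q, ← redDiv_div_loc hN hr0 hred, ← hP,
        ← FF.div_apply (K := QBar) y P]
      exact le_redDiv_apply hN fun P' h => hnn _ hy P' (h.trans hP)
    -- the value is integral
    have hcA : c ∈ A := by
      by_contra hcA
      have hci : c⁻¹ ∈ A.nonunits := A.inv_mem_nonunits_iff.mpr (Or.inr hcA)
      have hc0 : c ≠ 0 := fun h => hcA (h ▸ zero_mem A)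
      obtain ⟨hcs, hcr⟩ := red1_const (N := N) (A.nonunits_subset hci)
      rw [(residue_eq_zero_iff (A.nonunits_subset hci)).mpr hci, map_zero,
        ZeroMemClass.coe_zero] at hcr
      set y : loc2 A (iota1 N) := ⟨_, hcs⟩ * x - 1 with hy
      have hred : red1 A N y = ((-1 : KM A N) : LaurentSeries (Res A)) := by
        rw [hy, map_sub, map_mul, map_one, hcr, zero_mul, zero_sub]
        rfl
      have hyv : (y : FB N) =
          algebraMap QBar (FB N) c⁻¹ * ((x : FB N) - algebraMap QBar (FB N) c) := by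
        show algebraMap QBar (FB N) c⁻¹ * (x : FB N) - 1 = _
        rw [mul_sub, ← map_mul, inv_mul_cancel₀ hc0, map_one]
      have hy1 : (y : FB N) ∈ FF.ordGe P 1 := by
        rw [hyv]
        have := FF.mul_mem_ordGe P ((FF.mem_ordGe_zero P).mpr (P.algebraMap_mem' c⁻¹)) hc
        rwa [zero_add] at this
      have hyn : (y : FB N) ∈ HM N n := by
        rw [hyv, ← Algebra.smul_def]
        exact Submodule.smul_mem _ _ (sub_mem hx (hconst c))
      have hyne : (y : FB N) ≠ 0 := fun h => by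
        rw [show y = 0 from Subtype.ext h, map_zero] at hred
        exact one_ne_zero (α := KM A N) (neg_eq_zero.mp (Subtype.ext hred.symm))
      obtain ⟨h1, h2⟩ := hy0 _ hyn hy1 hyne (-1) (neg_ne_zero.mpr one_ne_zero) y.2 hred
      rw [FF.ord_neg, ← map_one (algebraMap (Res A) (KM A N)), FF.ord_algebraMap] at h1
      omega
    set a : Res A := IsLocalRing.residue A ⟨c, hcA⟩
    obtain ⟨hcm, hcr⟩ := red1_const (N := N) hcA
    set y : loc2 A (iota1 N) := x - ⟨_, hcm⟩ with hy
    have hred : red1 A N y = ((u - algebraMap (Res A) (KM A N) a : KM A N) :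
        LaurentSeries (Res A)) := by
      rw [hy, map_sub, hxr, hcr]
      rfl
    have hr0 : u - algebraMap (Res A) (KM A N) a ≠ 0 := fun h => by
      rw [sub_eq_zero.mp h, FF.ord_algebraMap] at hu1
      exact zero_ne_one hu1
    have hyne : (y : FB N) ≠ 0 := fun h => by
      rw [show y = 0 from Subtype.ext h, map_zero] at hred
      exact hr0 (Subtype.ext hred.symm)
    obtain ⟨h1, h2⟩ := hy0 _ (sub_mem hx (hconst c)) hc hyne _ hr0 y.2 hred
    have hy1 : P.ord (y : FB N) = 1 := by
      show P.ord ((x : FB N) - algebraMap QBar (FB N) c) = 1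
      rcases eq_or_ne a 0 with ha | ha
      · rw [ha, map_zero, sub_zero, hu1] at h1
        omega
      · have h := (FF.ord_add_eq_left Q (f := -algebraMap (Res A) (KM A N) a) (g := u)
          (neg_ne_zero.mpr ((map_ne_zero _).mpr ha)) (Or.inr (by
            rw [FF.ord_neg, FF.ord_algebraMap, hu1]; exact zero_lt_one))).2
        rw [FF.ord_neg, FF.ord_algebraMap, neg_add_eq_sub] at h
        omega
    have hdd : dd (K := QBar) (jM N) (y : FB N) = dd (K := QBar) (jM N) (x : FB N) := by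
      show dd (K := QBar) (jM N) ((x : FB N) - algebraMap QBar (FB N) c) = _
      rw [sub_eq_add_neg, ← map_neg, dd_add (transcendental_jM N),
        dd_algebraMap (transcendental_jM N), add_zero]
    obtain ⟨h0, h⟩ := (ord_dd_of_finite P (hfin P hP)).2 hy1
    rw [hdd] at h0 h
    exact ⟨h0, h⟩
  obtain ⟨d, hd, hdr⟩ := exists_red_dd hxr
  have hdu : dd (K := Res A) (jK A N) u ≠ 0 := by
    intro h0
    have hdlog : dlog (u : LaurentSeries (Res A)) = 0 := by
      show theta (Res A) (u : LaurentSeries (Res A)) / (u : LaurentSeries (Res A)) = 0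
      rw [coe_dd_mul_theta, h0, ZeroMemClass.coe_zero, zero_mul, zero_div]
    obtain ⟨y, hy⟩ := exists_pow_eq_of_dlog_eq_zero p N hN u.2 hdlog
    have hy' : y ^ p = u := Subtype.ext hy
    have h := congrArg Q.ord hy'
    rw [FF.ord_pow, hu1] at h
    have hdvd : (p : ℤ) ∣ 1 := ⟨Q.ord y, h.symm⟩
    exact (Fact.out : p.Prime).one_lt.ne' (Nat.dvd_one.mp (Int.natCast_dvd_natCast.mp hdvd))
  refine ⟨u, hu1, hdu, ?_⟩
  rw [← FF.div_apply (K := Res A) (dd (K := Res A) (jK A N) u) Q, ← redDiv_div_loc hN hdu hdr,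
    regDiv, ← Finsupp.neg_apply, ← map_neg]
  refine redDiv_apply_congr hN fun P hP => ?_
  rw [hd, FF.div_apply, (key P hP).2, Finsupp.neg_apply]

/-- The derivative of a unit at a finite place has order at least `- regDiv`. -/
theorem dd_unit_mem {v : Place (Res A) (KM A N)} (hv : 0 ≤ v.ord (jK A N)) {w : KM A N}
    (hw : w ≠ 0) (hvw : v.ord w = 0) :
    dd (K := Res A) (jK A N) w ∈ FF.ordGe v (-regDiv hN v) := by
  set J := jK A N with hJdef
  have hJ : Transcendental (Res A) J := jK_transcendental A N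
  obtain ⟨n₁, hn₁⟩ := dd_Hk_mem p hA hN
  obtain ⟨c, hc⟩ := exists_ord_eq v
  set P := FF.poles (Res A) J with hPdef
  set E := FF.poles (Res A) w with hEdef
  have hdegP : 0 < Divisor.degree P := by
    rw [hPdef, FF.degree_poles hJ]; exact_mod_cast Module.finrank_pos
  set n : ℕ := n₁ + (c + Divisor.degree E).toNat
  set D := n • P - E with hDdef
  have hdeg : c ≤ Divisor.degree D := by
    rw [hDdef, map_sub, map_nsmul, nsmul_eq_mul]
    have h1 : c + Divisor.degree E ≤ (n : ℤ) := by push_cast [n]; omega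
    have h2 := mul_le_mul_of_nonneg_left (show (1 : ℤ) ≤ Divisor.degree P by omega)
      (Int.natCast_nonneg n)
    linarith
  obtain ⟨b, hb, hb0, hbv⟩ := hc D hdeg
  have hbord : v.ord b = 0 := by
    rw [hbv, hDdef, Finsupp.sub_apply, RedTorsion.nsmul_poles_apply, hEdef, FF.poles_apply,
      FF.poles_apply, hvw, max_eq_left (by omega)]
    simp
  have hbn : b ∈ Semistable.Hk A N n := by
    refine FF.mem_riemannRochSpace'.mpr fun u => ?_
    refine FF.ordGe_anti u ?_ (FF.mem_riemannRochSpace'.mp hb u)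
    rw [hDdef, Finsupp.sub_apply, hEdef, FF.poles_apply,
      show FF.poles (Res A) (jK A N) = P from rfl]
    have := le_max_left (0 : ℤ) (-u.ord w)
    omega
  have han : w * b ∈ Semistable.Hk A N n := by
    refine FF.mem_riemannRochSpace'.mpr fun u => ?_
    refine FF.ordGe_anti u ?_ (FF.mul_mem_ordGe u (FF.mem_ordGe_of_le u (le_refl (u.ord w)))
      (FF.mem_riemannRochSpace'.mp hb u))
    rw [hDdef, Finsupp.sub_apply, hEdef, FF.poles_apply,
      show FF.poles (Res A) (jK A N) = P from rfl]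
    have := le_max_right (0 : ℤ) (-u.ord w)
    omega
  have ew : w = w * b / b := by field_simp
  rw [ew, dd_div hJ]
  have hzero : ∀ {y : KM A N}, y ≠ 0 → v.ord y = 0 → y ∈ FF.ordGe v 0 :=
    fun _ h => FF.mem_ordGe_of_le v h.ge
  have hbi : b⁻¹ ^ 2 ∈ FF.ordGe v 0 :=
    hzero (pow_ne_zero 2 (inv_ne_zero hb0)) (by rw [FF.ord_pow, v.ord_inv, hbord]; simp)
  have := FF.mul_mem_ordGe v hbi (sub_mem
    (FF.mul_mem_ordGe v (hzero hb0 hbord) (hn₁ n (Nat.le_add_right _ _) _ han v hv))
    (FF.mul_mem_ordGe v (hzero (mul_ne_zero hw hb0) (by rw [v.ord_mul hw hb0, hvw, hbord]; simp))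
      (hn₁ n (Nat.le_add_right _ _) _ hbn v hv)))
  simpa using this

end Residue

end Fermat.Agent.RT.Lift.LowerPGen

end
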