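import Fermat.Agent.RT.MazurP.Units
import Fermat.Agent.RT.MazurP.Level

/-!
# The vertical unit in characteristic three

Modulo `3` the invariant `j` is the inverse of `Δ`, so `Δ(τ) / Δ(3 τ)` reduces to `j ^ 2`.
-/

set_option autoImplicit false
set_option synthInstance.maxHeartbeats 400000
set_option maxHeartbeats 1000000
set_option linter.unusedSectionVars false

noncomputable section

namespace Fermat.Agent.RT.Lift.LowerPGen

open ModularCurve AlgebraicCurve Fermat.Agent.Semistable Fermat.Agent.Arith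
open Fermat.Agent.RT.Mazur Fermat.Agent.RT.MazurP

theorem jqModC_three (K : Type*) [Field K] [CharP K 3] : jqModC K = Igusa.deltaInvSer K := by
  have h : eisenstein4.map (Int.castRingHom K) = 1 := by
    ext n
    rw [PowerSeries.coeff_map, eisenstein4, PowerSeries.coeff_mk, PowerSeries.coeff_one]
    split_ifs with hn
    · simp
    · rw [map_mul, show Int.castRingHom K 240 = ((240 : ℕ) : K) from by simp,
        (CharP.cast_eq_zero_iff K 3 240).mpr (by norm_num), zero_mul]
  rw [jqModC, Igusa.deltaInvSer, jNum, map_mul, map_pow, h, one_pow, one_mul]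

/-- Modulo `3` the reduced unit is `j ^ 2`. -/
theorem rhoSer_three (K : Type*) [Field K] [CharP K 3] [Fact (Nat.Prime 3)] :
    rhoSer 3 K = jqModC K ^ 2 := by
  have hfix : ∀ n, (Igusa.deltaInvSer K).coeff n ^ 3 = (Igusa.deltaInvSer K).coeff n := fun n => by
    rw [← Igusa.coeffMap_deltaInvSer (Int.castRingHom K), coeffMap_coeff, eq_intCast,
      ← frobenius_def (p := 3), map_intCast]
  rw [rhoSer, ← pow_char_eq_qExpand_of_fixed 3 hfix, pow_succ' _ 2, ← mul_assoc,
    Igusa.deltaSer_mul_inv, one_mul, jqModC_three]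

variable {A : ValuationSubring QBar} {p M : ℕ} [Fact p.Prime] [NeZero M] [CharP (Res A) p]

/-- For `p = 3` there is a vertical unit reducing to `j ^ 2`. -/
theorem exists_vUnit_three [FF.IsFunctionField (Res A) (KM A M)] (h3 : p = 3) (hpM : ¬ p ∣ M) :
    ∃ V : VUnit A hpM, V.ub = jK A M ^ 2 := by
  subst h3
  set U := unitU 3 M hpM with hU
  have h0 : iota2 M 3 hpM 0 U ∈ locS A := intS_le_locS (unitU_mem_intS 3 M hpM A)
  have hred : redL A ⟨_, h0⟩ = rhoSer 3 (Res A) := redL_unitU 3 M hpM A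
  obtain ⟨hinv, hinvr⟩ := inv_mem_locS h0 (by rw [hred]; exact (order_rhoSer (Res A) 3).1)
  have hw1 : algebraMap QBar LSer (((3 : ℕ) : QBar) ^ 12)⁻¹ * iota2 M 3 hpM 1 U =
      (iota2 M 3 hpM 0 U)⁻¹ := by
    show _ * (wEquiv 3 M hpM U : LSer) = _
    have e : wEquiv 3 M hpM U =
        algebraMap QBar (FB (3 * M)) (((3 : ℕ) : QBar) ^ 12) * U⁻¹ := by
      rw [← wEquiv_unitU_mul 3 M hpM, mul_inv_cancel_right₀ (unitU_ne_zero 3 M hpM)]
    rw [e, IntermediateField.coe_mul, IntermediateField.coe_inv, ← mul_assoc]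
    show algebraMap QBar LSer _ * algebraMap QBar LSer _ * _ = _
    rw [← map_mul, inv_mul_cancel₀ (pow_ne_zero _ (Nat.cast_ne_zero.mpr (by norm_num))), map_one,
      one_mul]
    rfl
  have hubc : ((jK A M ^ 2 : KM A M) : LaurentSeries (Res A)) = rhoSer 3 (Res A) := by
    rw [rhoSer_three]; rfl
  refine ⟨⟨U, unitU_ne_zero 3 M hpM, fun σ => Subtype.ext ?_, (isIntegral_unitU hpM).1,
    (isIntegral_unitU hpM).2, jK A M ^ 2, fun h => (order_rhoSer (Res A) 3).1 (by
      rw [← hubc, h]; rfl), h0, by rw [hred, hubc], by rw [hw1]; exact hinv, ?_, ?_, ?_⟩, rfl⟩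
  · rw [coe_arithmeticRingAut]; exact coeffMap_unitU 3 M hpM _
  · rw [redL_congr _ hinv hw1, hinvr, hred, hubc]
  · intro Q hQ
    rw [FF.ord_pow]
    positivity
  · intro Q _
    rw [FF.ord_pow]
    norm_num

variable [FF.IsFunctionField (Res A) (KM A M)]

/-- For `p = 3` and `4 ∣ M`, the order of `j` at a zero is `6`. -/
theorem ord_jK_eq_six (hA : A.LiesOverPrime p) (h3 : p = 3) (hpM : ¬ p ∣ M) (h4 : 4 ∣ M)
    {P : Place (Res A) (KM A M)} (hP : 0 < P.ord (jK A M)) : P.ord (jK A M) = 6 := by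
  have hM : (M : Res A) ≠ 0 := fun h => hpM ((CharP.cast_eq_zero_iff (Res A) p M).mp h)
  obtain ⟨V, hV⟩ := exists_vUnit_three (A := A) h3 hpM
  have h := (V.simple hA hM h4).val P
  rw [VUnit.oW, if_pos hP.le, hV, FF.ord_pow] at h
  omega

end Fermat.Agent.RT.Lift.LowerPGen

end
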