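import Fermat.Agent.RT.Lift.LowerPGen.Inputs
import Fermat.Agent.RT.Lift.LowerPGen.VUnitThree

/-!
# Descent of divisibility of orders from level `4 N` to level `N`

At level `4 N` the derivative of a unit obeys the bound of the regular differentials. So `p` does
not divide the order of `j - a` at a zero, nor that of `j` at a cusp, except for `p = 3`, `a = 0`,
where that order is `6`. Hence some place over a given place of level `N` has ramification prime
to `p`, except over the zeros of `j` of order prime to `3` when `p = 3`.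
-/

set_option autoImplicit false
set_option synthInstance.maxHeartbeats 400000
set_option maxHeartbeats 1000000
set_option linter.unusedSectionVars false

noncomputable section

open AlgebraicCurve
open scoped IntermediateField

namespace Fermat.Agent.RT.Lift.LowerPGen

open Fermat.Agent.Semistable Fermat.Agent.RT.MazurP
open Arith (QBar)

section Local

variable {A : ValuationSubring QBar} {N : ℕ} [NeZero N]
  [FF.IsFunctionField (Res A) (KM A N)] [IsAlgClosed (Res A)]
  [FiniteDimensional (Res A)⟮jK A N⟯ (KM A N)] [Algebra.IsSeparable (Res A)⟮jK A N⟯ (KM A N)]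
  (p : ℕ) [Fact p.Prime] [CharP (Res A) p]

/-- An element of derivative one with order divisible by `p` gives a unit whose derivative has the
opposite order. -/
theorem exists_unit_ord_dd {v : Place (Res A) (KM A N)} {y : KM A N} (hy : y ≠ 0)
    (hd : dd (K := Res A) (jK A N) y = 1) (hp : (p : ℤ) ∣ v.ord y) :
    ∃ w : KM A N, w ≠ 0 ∧ v.ord w = 0 ∧ dd (K := Res A) (jK A N) w ≠ 0 ∧
      v.ord (dd (K := Res A) (jK A N) w) = -v.ord y := by
  have hJ : Transcendental (Res A) (jK A N) := jK_transcendental A N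
  obtain ⟨t, ht0, ht⟩ := FF.exists_uniformizer (v := v)
  have htE : t ^ v.ord y ≠ 0 := zpow_ne_zero _ ht0
  obtain ⟨k, hk⟩ := hp
  have hcast : ((v.ord y : ℤ) : KM A N) = 0 := by
    rw [hk, Int.cast_mul, Int.cast_natCast, ← map_natCast (algebraMap (Res A) (KM A N)),
      CharP.cast_eq_zero, map_zero, zero_mul]
  set w := y / t ^ v.ord y with hw
  have hyw : y = t ^ v.ord y * w := by rw [hw, mul_div_cancel₀ _ htE]
  have h1 : (1 : KM A N) = t ^ v.ord y * dd (K := Res A) (jK A N) w := by
    conv_lhs => rw [← hd, hyw, dd_mul hJ, dd_zpow hJ, hcast, zero_mul, zero_mul, mul_zero, add_zero]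
  have hdw : dd (K := Res A) (jK A N) w ≠ 0 := fun h => one_ne_zero (h1.trans (by rw [h, mul_zero]))
  refine ⟨w, div_ne_zero hy htE, ?_, hdw, ?_⟩
  · rw [hw, div_eq_mul_inv, v.ord_mul hy (inv_ne_zero htE), v.ord_inv, v.ord_zpow, ht]; ring
  · have h := congrArg v.ord h1
    rw [v.ord_one, v.ord_mul htE hdw, v.ord_zpow, ht] at h
    linarith

/-- At a cusp `p` does not divide the order of `j`. -/
theorem not_dvd_ord_jK_of_pole (hN : (N : Res A) ≠ 0) {v : Place (Res A) (KM A N)}
    (hv : v.ord (jK A N) < 0) : ¬ (p : ℤ) ∣ v.ord (jK A N) := fun hp => by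
  have hJ : Transcendental (Res A) (jK A N) := jK_transcendental A N
  obtain ⟨w, hw, hvw, hdw, hord⟩ := exists_unit_ord_dd p LowerP.jK_ne_zero (dd_self hJ) hp
  obtain ⟨V, π, hgood⟩ := RedTorsion.exists_goodRed (N := N) (A := A) hN
  have hcard : Fintype.card (ModFun.Coset N) =
      Module.finrank (Res A)⟮jK A N⟯ (KM A N) := by
    rw [← Nat.card_eq_fintype_card]
    exact (RedTorsion.finrank_jF (K := Res A) (N := N) (F := KM A N) rfl hN).symm
  have h := one_le_ord_dd_mul hJ hN (RedTorsion.cuspFamily (F := KM A N) rfl hgood) hcard v hv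
    hw hvw hdw
  rw [v.ord_mul hdw LowerP.jK_ne_zero, hord] at h
  omega

/-- Away from the cusps `p` does not divide the order of `j - a` at a zero, unless `p = 3`, `a = 0`. -/
theorem not_dvd_ord_jK_sub (hA : A.LiesOverPrime p) (hp2 : p ≠ 2) (h4 : 4 ∣ N)
    (hN : (N : Res A) ≠ 0) {v : Place (Res A) (KM A N)} (hv : 0 ≤ v.ord (jK A N)) {a : Res A}
    (ha : 0 < v.ord (jK A N - algebraMap (Res A) (KM A N) a)) (hex : ¬ (p = 3 ∧ a = 0)) :
    ¬ (p : ℤ) ∣ v.ord (jK A N - algebraMap (Res A) (KM A N) a) := fun hp => by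
  have hJ : Transcendental (Res A) (jK A N) := jK_transcendental A N
  set y := jK A N - algebraMap (Res A) (KM A N) a with hy
  have hy0 : y ≠ 0 := fun h => hJ (by rw [sub_eq_zero.mp h]; exact isAlgebraic_algebraMap a)
  have hdy : dd (K := Res A) (jK A N) y = 1 := by
    rw [hy, sub_eq_add_neg, ← map_neg, dd_add hJ, dd_self hJ, dd_algebraMap hJ, add_zero]
  obtain ⟨w, hw, hvw, hdw, hord⟩ := exists_unit_ord_dd p hy0 hdy hp
  have h := FF.le_ord_of_mem_ordGe v hdw (LowerP.dd_mem_ordGe6 p hA h4 hN hv hw hvw)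
  rw [hord, LowerP.formDiv_of_finite hv] at h
  -- the orders of `j` and `j - 1728`
  have key : ∀ b : Res A, b ≠ a → v.ord (jK A N - algebraMap (Res A) (KM A N) b) = 0 := fun b hb => by
    have e : jK A N - algebraMap (Res A) (KM A N) b =
        algebraMap (Res A) (KM A N) (a - b) + y := by rw [hy, map_sub]; ring
    rw [e]
    refine (FF.ord_add_eq_left v ((map_ne_zero _).mpr (sub_ne_zero.mpr (Ne.symm hb))) (Or.inr ?_)).2.trans
      (FF.ord_algebraMap v _)
    rw [FF.ord_algebraMap]; exact ha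
  have hJ0 : a ≠ 0 → v.ord (jK A N) = 0 := fun h0 => by
    simpa using key 0 (Ne.symm h0)
  rcases eq_or_ne a 0 with rfl | h0
  · have h1728 : (1728 : Res A) ≠ 0 := fun e => by
      have e' : ((1728 : ℕ) : Res A) = 0 := by exact_mod_cast e
      rw [CharP.cast_eq_zero_iff (Res A) p, show (1728 : ℕ) = 2 ^ 6 * 3 ^ 3 by norm_num] at e'
      have hpp : p.Prime := Fact.out
      rcases hpp.dvd_mul.mp e' with h | h
      · exact hp2 ((Nat.prime_dvd_prime_iff_eq hpp Nat.prime_two).mp (hpp.dvd_of_dvd_pow h))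
      · exact hex ⟨(Nat.prime_dvd_prime_iff_eq hpp Nat.prime_three).mp (hpp.dvd_of_dvd_pow h), rfl⟩
    have e1 : v.ord (LowerP.jK' A N) = 0 := key 1728 h1728
    have e2 : v.ord y = v.ord (jK A N) := by rw [hy, map_zero, sub_zero]
    rw [e1] at h
    omega
  · rw [hJ0 h0] at h
    rcases eq_or_ne a 1728 with e | e
    · have e2 : v.ord (LowerP.jK' A N) = v.ord y := by rw [hy, e]; rfl
      rw [e2] at h
      omega
    · have e1 : v.ord (LowerP.jK' A N) = 0 := key 1728 (Ne.symm e)
      rw [e1] at h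
      omega

end Local

variable {A : ValuationSubring QBar} {p N : ℕ} [Fact p.Prime] [NeZero N]

/-- **Descent of the orders.** -/
theorem descentInput (hA : A.LiesOverPrime p) (hp2 : p ≠ 2) (hpN : ¬ p ∣ N) :
    DescentInput A p N := by
  intro z hz hz' hz0 hord Q
  have hp : p.Prime := Fact.out
  have : CharP (Res A) p := Arith.residueField_charP hA hp
  have := Arith.residueField_isAlgClosed A
  have hpN4 : ¬ p ∣ 4 * N := fun h => (hp.dvd_mul.mp h).elim
    (fun h => hp2 ((Nat.prime_dvd_prime_iff_eq hp Nat.prime_two).mp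
      (hp.dvd_of_dvd_pow (show p ∣ 2 ^ 2 from h)))) hpN
  have hN : (N : Res A) ≠ 0 := fun h => hpN ((CharP.cast_eq_zero_iff (Res A) p N).mp h)
  have hN4 : ((4 * N : ℕ) : Res A) ≠ 0 := fun h =>
    hpN4 ((CharP.cast_eq_zero_iff (Res A) p _).mp h)
  have := isFunctionField_KM (A := A) hN
  have := isFunctionField_KM (A := A) hN4
  have : FiniteDimensional (Res A)⟮jK A (4 * N)⟯ (KM A (4 * N)) :=
    RedTorsion.finiteDimensional_jF (K := Res A) (N := 4 * N) (F := KM A (4 * N)) rfl hN4
  have : Algebra.IsSeparable (Res A)⟮jK A (4 * N)⟯ (KM A (4 * N)) :=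
    RedTorsion.isSeparable_jF (K := Res A) (N := 4 * N) (F := KM A (4 * N)) rfl hN4
  have : FiniteDimensional (Res A)⟮jK A N⟯ (KM A N) :=
    RedTorsion.finiteDimensional_jF (K := Res A) (N := N) (F := KM A N) rfl hN
  have : Algebra.IsSeparable (Res A)⟮jK A N⟯ (KM A N) :=
    RedTorsion.isSeparable_jF (K := Res A) (N := N) (F := KM A N) rfl hN
  let φ : KM A N →ₐ[Res A] KM A (4 * N) :=
    IntermediateField.inclusion (ModularCurve.full_degeneracyC_le (Res A) (dvd_mul_left N 4))
  have hφ : φ.toRingHom.IsIntegral := FF.isIntegralAlong φ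
  have hφJ : φ (jK A N) = jK A (4 * N) := Subtype.ext rfl
  obtain ⟨R, hR⟩ := FF.exists_restrictAlong_eq φ hφ Q
  set e : ℤ := (Place.ramificationIndexAlong φ R : ℤ) with he
  have hR' : ∀ x : KM A N, R.ord (φ x) = e * Q.ord x := fun x => by
    rw [Place.ord_restrictAlong φ hφ R x, hR]
  have hpp : Prime (p : ℤ) := Nat.prime_iff_prime_int.mp hp
  have descend : ¬ (p : ℤ) ∣ e → (p : ℤ) ∣ Q.ord ⟨z, hz⟩ := fun hne => by
    refine (hpp.dvd_or_dvd ?_).resolve_left hne
    rw [← hR' ⟨z, hz⟩, show φ ⟨z, hz⟩ = ⟨z, hz'⟩ from Subtype.ext rfl]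
    exact hord R
  have he0 : 0 < e := by
    let _ := algebraAlong φ
    have := isScalarTower_along φ
    have : Module.Finite (KM A N) (KM A (4 * N)) := FF.finiteAlong φ
    exact Int.natCast_pos.mpr (R.ramificationIndex_pos (F := KM A N))
  rcases lt_or_ge (Q.ord (jK A N)) 0 with hpole | hfin
  · refine Or.inl (descend fun h => ?_)
    have hlt : R.ord (jK A (4 * N)) < 0 := by
      rw [← hφJ, hR']
      exact mul_neg_of_pos_of_neg he0 hpole
    refine not_dvd_ord_jK_of_pole p hN4 hlt ?_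
    rw [← hφJ, hR']
    exact dvd_mul_of_dvd_left h _
  obtain ⟨a, ha⟩ := RedTorsion.exists_value (x := jK A N) Q hfin
  have hne : jK A N - algebraMap (Res A) (KM A N) a ≠ 0 := fun h => jK_transcendental A N (by
    rw [sub_eq_zero.mp h]; exact isAlgebraic_algebraMap a)
  have hpos : 0 < Q.ord (jK A N - algebraMap (Res A) (KM A N) a) := by
    have := FF.le_ord_of_mem_ordGe Q hne ha
    omega
  have hRa : R.ord (jK A (4 * N) - algebraMap (Res A) (KM A (4 * N)) a) =
      e * Q.ord (jK A N - algebraMap (Res A) (KM A N) a) := by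
    rw [← hR', map_sub, hφJ, AlgHom.commutes]
  by_cases hex : p = 3 ∧ a = 0
  · obtain ⟨h3, rfl⟩ := hex
    rw [map_zero, sub_zero] at hpos
    rw [map_zero, sub_zero, map_zero, sub_zero] at hRa
    by_cases hd : (p : ℤ) ∣ Q.ord (jK A N)
    · refine Or.inl (descend fun h => ?_)
      have h6 := ord_jK_eq_six hA h3 hpN4 (dvd_mul_right 4 N)
        (P := R) (by rw [hRa]; exact mul_pos he0 hpos)
      rw [hRa] at h6
      have h9 := mul_dvd_mul h hd
      rw [h6, h3] at h9
      norm_num at h9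
    · exact Or.inr ⟨h3, hpos, hd⟩
  · refine Or.inl (descend fun h => ?_)
    refine not_dvd_ord_jK_sub p hA hp2 (dvd_mul_right 4 N) hN4 (v := R) ?_ ?_ hex ?_
    · rw [← hφJ, hR']; exact mul_nonneg he0.le hfin
    · rw [hRa]; exact mul_pos he0 hpos
    · rw [hRa]; exact dvd_mul_of_dvd_left h _

end Fermat.Agent.RT.Lift.LowerPGen

end
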