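import Fermat.Agent.RT.Lift.LowerP.Main
import Fermat.Agent.EichlerShimura.Congruence

/-!
# Lowering at `p` to exactly the level `N`: the inputs and their assembly

For `W` residually modular of level `p N`, `p ∤ N` odd, with no condition on `N`. The supersingular
case works at level `N` itself. In the ordinary case the flat half works at level `4 N`, where the
orders of the reductions are divisible by `p`; they descend to level `N`, except at the places over
`j = 0` of ramification `3 = p`, where the eigen relation takes care of them.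
-/

set_option autoImplicit false
set_option synthInstance.maxHeartbeats 400000
set_option maxHeartbeats 1000000

noncomputable section

namespace Fermat.Agent.RT.Lift.LowerPGen

open ModularCurve AlgebraicCurve Fermat.Agent.Semistable WeierstrassCurve
open Fermat.Agent.RT.MazurP
open Fermat.Agent.RT.Lift.LowerP (Δ_ne_zero_of_good exists_goodFrame good_wildKer_eq_tameKer_or_exists_wild)
open Fermat.Agent.EC.Reduction Fermat.Agent.EC.Rep
open Fermat.Agent.EC.AtP (PointQBar)
open Arith (QBar)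

/-- The supersingular case, at any level prime to `p`. -/
def SupersingularInput (p N : ℕ) [Fact p.Prime] [NeZero N] : Prop :=
  ∀ (W : WeierstrassCurve ℤ) (A : ValuationSubring QBar), A.LiesOverPrime p →
    W.IsGoodPrimeFor p → W.ModRepIsIrreducible p → W.IsResiduallyModularOfLevel p (p * N) →
    (∀ x : PointQBar W, (p : ℤ) • x = 0 → InE1 A x) → W.IsResiduallyModularOfLevel p N

/-- An eigen function whose reductions have orders divisible by `p` at level `4 N` reduces to
`p`-th powers there, or a form of level `N` carries the eigenvalues. -/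
def DichotomyInput (A : ValuationSubring QBar) (p N : ℕ) [Fact p.Prime] [NeZero N]
    (hpN : ¬ p ∣ N) : Prop :=
  ∀ {f : FB (p * N)} (G : ℕ → Prop) (a : ℕ → ℤ), (∀ l, l.Prime → G l → ¬ l ∣ p * N) →
    (∃ l, l.Prime ∧ G l ∧ ¬ (p : ℤ) ∣ a l - (1 + l)) → EigenFun p N G a f →
    (∀ (s : Fin 2) (z : LaurentSeries (Res A)), IsRed A (iota2 N p hpN s f) z →
      ∀ (hz : z ∈ KM A (4 * N)) (P : Place (Res A) (KM A (4 * N))), (p : ℤ) ∣ P.ord ⟨z, hz⟩) →
    (∀ (s : Fin 2) (z : LaurentSeries (Res A)), IsRed A (iota2 N p hpN s f) z →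
        ∃ h : KM A (4 * N), (h : LaurentSeries (Res A)) ^ p = z) ∨ CongrForm N p G a

/-- The ordinary case given the dichotomy: a fixed or wild eigen class gives a congruent form. -/
def OrdinaryInput (p N : ℕ) [Fact p.Prime] [NeZero N] (hpN : ¬ p ∣ N) : Prop :=
  ∀ (W : WeierstrassCurve ℤ) (A : ValuationSubring QBar), A.LiesOverPrime p → W.Δ ≠ 0 →
    W.ModRepIsIrreducible p → DichotomyInput A p N hpN → FixedOrWild W p (p * N) A →
    CongrForm N p (eigenPrimes W p (p * N)) W.apOfModel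

/-- Logarithmic derivatives of functions with orders divisible by `p` are regular. -/
def DlogRegularInput (A : ValuationSubring QBar) (p N : ℕ) [NeZero N] : Prop :=
  ∀ {z : LaurentSeries (Res A)} (hz : z ∈ KM A N), z ≠ 0 →
    (∀ P : Place (Res A) (KM A N), (p : ℤ) ∣ P.ord ⟨z, hz⟩) → dlog z ∈ redLattice A N

/-- Conversely, a regular logarithmic derivative comes from orders divisible by `p`. -/
def DlogExactInput (A : ValuationSubring QBar) (p N : ℕ) [NeZero N] : Prop :=
  ∀ {z : LaurentSeries (Res A)} (hz : z ∈ KM A N), z ≠ 0 → dlog z ∈ redLattice A N →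
    ∀ P : Place (Res A) (KM A N), (p : ℤ) ∣ P.ord ⟨z, hz⟩

/-- Orders divisible by `p` at level `4 N` descend to level `N`, except possibly, for `p = 3`, at
the places over `j = 0` where the order of `j` is prime to `p`. -/
def DescentInput (A : ValuationSubring QBar) (p N : ℕ) [NeZero N] : Prop :=
  ∀ {z : LaurentSeries (Res A)} (hz : z ∈ KM A N) (hz' : z ∈ KM A (4 * N)), z ≠ 0 →
    (∀ P : Place (Res A) (KM A (4 * N)), (p : ℤ) ∣ P.ord ⟨z, hz'⟩) →
    ∀ Q : Place (Res A) (KM A N), (p : ℤ) ∣ Q.ord ⟨z, hz⟩ ∨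
      (p = 3 ∧ 0 < Q.ord (jK A N) ∧ ¬ (p : ℤ) ∣ Q.ord (jK A N))

/-- At an unramified point over `j = 0` in characteristic zero, `T_l` is `1 + l` modulo `3`. -/
def EllipticCorrInput (N : ℕ) [NeZero N] : Prop :=
  ∀ (l : ℕ) [NeZero l], l.Prime → ¬ l ∣ N →
    ∀ P : Place QBar (FB N), P.ord (jM N) = 1 →
      ∃ D : Divisor QBar (FB N),
        Divisor.correspondence (heckeBetaBar QBar N l) (heckeAlphaBar QBar N l)
            (FF.isIntegralAlong _) (FF.isIntegralAlong _) (Finsupp.single P 1) =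
          Finsupp.single P ((l : ℤ) + 1) + (3 : ℕ) • D

/-- For `p = 3`, one eigenvalue other than `1 + l` kills the residues at the remaining places. -/
def WildInput (A : ValuationSubring QBar) (p N : ℕ) [Fact p.Prime] [NeZero N]
    (hpN : ¬ p ∣ N) : Prop :=
  p = 3 → ∀ {f : FB (p * N)} (l : ℕ) [NeZero l] (a : ℤ), l.Prime → ¬ l ∣ p * N →
    ¬ (p : ℤ) ∣ a - (1 + l) →
    (∃ h : FB (p * N), h ≠ 0 ∧ heckeNorm (p * N) l f = f ^ a * h ^ p) →
    ∀ (s : Fin 2) {z : LaurentSeries (Res A)} (hz : z ∈ KM A N),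
      IsRed A (iota2 N p hpN s f) z →
      (∀ P : Place (Res A) (KM A N), (p : ℤ) ∣ P.ord ⟨z, hz⟩ ∨
        (0 < P.ord (jK A N) ∧ ¬ (p : ℤ) ∣ P.ord (jK A N))) →
      ∀ P : Place (Res A) (KM A N), (p : ℤ) ∣ P.ord ⟨z, hz⟩

variable {p N : ℕ} [Fact p.Prime] [NeZero N]

/-- The dichotomy from regularity, descent and the wild places. -/
theorem dichotomyInput_of_inputs {A : ValuationSubring QBar} (hA : A.LiesOverPrime p) (hp2 : p ≠ 2)
    (hpN : ¬ p ∣ N) (hReg : DlogRegularInput A p N) (hDesc : DescentInput A p N)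
    (hWild : WildInput A p N hpN) : DichotomyInput A p N hpN := by
  intro f G a hG hne hEig hord
  have hp : p.Prime := Fact.out
  have : CharP (Res A) p := Arith.residueField_charP hA hp
  have := Arith.residueField_isAlgClosed A
  have hN : (N : Res A) ≠ 0 := fun h => hpN ((CharP.cast_eq_zero_iff (Res A) p N).mp h)
  have hN4 : ((4 * N : ℕ) : Res A) ≠ 0 := fun h => by
    rcases hp.dvd_mul.mp ((CharP.cast_eq_zero_iff (Res A) p _).mp h) with h | h
    · exact hp2 ((Nat.prime_dvd_prime_iff_eq hp Nat.prime_two).mp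
        (hp.dvd_of_dvd_pow (show p ∣ 2 ^ 2 from h)))
    · exact hpN h
  by_cases hall : ∀ (s : Fin 2) (z : LaurentSeries (Res A)),
      IsRed A (iota2 N p hpN s f) z → dlog z = 0
  · exact Or.inl fun s z hz => exists_pow_eq_of_dlog_eq_zero p (4 * N) hN4
      (km_mem_four_mul (isRed_mem_KM p N hpN hA hN hz)) (hall s z hz)
  push Not at hall
  obtain ⟨s, z, hz, hne'⟩ := hall
  have hzN := isRed_mem_KM p N hpN hA hN hz
  have hdown : ∀ Q : Place (Res A) (KM A N), (p : ℤ) ∣ Q.ord ⟨z, hzN⟩ := by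
    have h := hDesc hzN (km_mem_four_mul hzN) hz.1 (hord s z hz _)
    by_cases h3 : p = 3
    · obtain ⟨l, hl, hGl, ha⟩ := hne
      have : NeZero l := ⟨hl.ne_zero⟩
      exact hWild h3 l (a l) hl (hG l hl hGl) ha (hEig l hl hGl) s hzN hz
        fun Q => (h Q).imp_right And.right
    · exact fun Q => (h Q).resolve_right fun e => h3 e.1
  refine Or.inr (exists_eigenform_of_redLattice p (hReg hzN hz.1 hdown) hne' G
    (fun l hl hGl h => hG l hl hGl (dvd_mul_of_dvd_right h p)) a fun l hl hGl n => ?_)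
  have : NeZero l := ⟨hl.ne_zero⟩
  have hlp : ¬ p ∣ l := fun h =>
    hG l hl hGl ((Nat.prime_dvd_prime_iff_eq hp hl).mp h ▸ dvd_mul_right p N)
  obtain ⟨X, hX, himg⟩ := exists_isRed_heckeImage hA hp hlp
    (iota2_fracS N p hpN s (heckeNorm (p * N) l f))
    (fun ζ hζ => qExpand_iota2_heckeNorm p N l hpN hl (hG l hl hGl) s hζ f) hz
  obtain ⟨h, hh, heq⟩ := hEig l hl hGl
  obtain ⟨w, hw⟩ :=
    IsRed.exists_of_ne_zero hA hp (iota2_fracS N p hpN s h) ((map_ne_zero _).mpr hh)
  rw [heq, map_mul, map_zpow₀, map_pow] at hX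
  obtain ⟨u, hu, hXu⟩ := IsRed.unique ((hz.zpow (a l)).mul (hw.pow p)) hX
  obtain ⟨ζ, hζ⟩ := exists_primitive (N := p * N) hl (hG l hl hGl)
  have hl0 : (l : Res A) ≠ 0 := fun h => hlp ((CharP.cast_eq_zero_iff (Res A) p l).mp h)
  rw [← himg.coeff_dlog hl0 (resRoot_primitive hA hp hlp hζ) hz.1 n, hXu,
    dlog_mul ((map_ne_zero _).mpr hu) (mul_ne_zero (zpow_ne_zero _ hz.1) (pow_ne_zero _ hw.1)),
    algebraMap_eq_C, dlog_C, zero_add, dlog_mul (zpow_ne_zero _ hz.1) (pow_ne_zero _ hw.1),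
    dlog_zpow hz.1, dlog_pow, natCast_laurent_eq_zero p, zero_mul, add_zero,
    ← map_intCast (HahnSeries.C : Res A →+* LaurentSeries (Res A)), coeff_C_mul]

variable {W : WeierstrassCurve ℤ}

/-- Lowering at a good `p`, from the inputs. -/
theorem isResiduallyModular_lower_good_of_inputs (hp2 : p ≠ 2) (hpN : ¬ p ∣ N)
    (hSS : SupersingularInput p N) (hOrd : OrdinaryInput p N hpN)
    (hDic : ∀ A : ValuationSubring QBar, A.LiesOverPrime p → DichotomyInput A p N hpN)
    (hgood : W.IsGoodPrimeFor p) (hirr : W.ModRepIsIrreducible p)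
    (hmod : W.IsResiduallyModularOfLevel p (p * N)) : W.IsResiduallyModularOfLevel p N := by
  obtain ⟨A, hA⟩ := Arith.exists_liesOverPrime (Fact.out : p.Prime)
  have hΔ := Δ_ne_zero_of_good hgood
  by_cases hall : ∀ x : PointQBar W, (p : ℤ) • x = 0 → InE1 A x
  · exact hSS W A hA hgood hirr hmod hall
  simp only [not_forall] at hall
  obtain ⟨x, hx, hx1⟩ := hall
  have hord : ∃ x : PointQBar W, (p : ℤ) • x = 0 ∧ ¬ InE1 A x := ⟨x, hx, hx1⟩
  obtain ⟨⟨F⟩, -⟩ := exists_goodFrame hA hp2 hgood hord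
  refine LowerP.isResiduallyModular_of_congrForm (hOrd W A hA hΔ hirr (hDic A hA)
    (fixedOrWild_of_basis hA hΔ hp2 hirr hmod
      F.R F.S F.hR F.hS F.R_ne (fun a e => F.S_not ?_) F.span F.smul_R F.smul_S
      ((good_wildKer_eq_tameKer_or_exists_wild hA hp2 hgood hord).imp_right
        fun ⟨Wd, hC, hC₁, hmove, _⟩ => ⟨Wd, hC, hC₁, hmove⟩)))
  have hred := reducesTo_int W A
  show F.S ∈ hred.E1
  rw [e]
  exact zsmul_mem (show F.R ∈ hred.E1 from F.R_inE1) a

/-- Lowering at a multiplicative `p` of peu ramifiée type, from the inputs. -/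
theorem isResiduallyModular_lower_mult_of_inputs (hp2 : p ≠ 2) (hpN : ¬ p ∣ N)
    (hOrd : OrdinaryInput p N hpN)
    (hDic : ∀ A : ValuationSubring QBar, A.LiesOverPrime p → DichotomyInput A p N hpN)
    (hΔ0 : W.Δ ≠ 0) (hΔ : (p : ℤ) ∣ W.Δ) (hc₄ : ¬ (p : ℤ) ∣ W.c₄)
    (hfin : (W.map (Int.castRingHom ℚ)).IsPeuRamifieeAt p p) (hirr : W.ModRepIsIrreducible p)
    (hmod : W.IsResiduallyModularOfLevel p (p * N)) : W.IsResiduallyModularOfLevel p N := by
  obtain ⟨A, hA⟩ := Arith.exists_liesOverPrime (Fact.out : p.Prime)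
  refine LowerP.isResiduallyModular_of_congrForm (hOrd W A hA hΔ0 hirr (hDic A hA)
    (fixedOrWild_of_multiplicative hA hp2 hΔ0 hΔ hc₄ ?_ hirr hmod))
  have h : (p : ℤ) ∣ padicValRat p (W.Δ : ℚ) := by
    have h := hfin
    rwa [IsPeuRamifieeAt, WeierstrassCurve.map_Δ, eq_intCast] at h
  rw [padicValRat.of_int] at h
  exact_mod_cast h

end Fermat.Agent.RT.Lift.LowerPGen

end
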