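import Fermat.Agent.RT.Lift.LowerPGen.BetaPlace
import Fermat.Agent.RT.Lift.LowerPGen.Inputs
import Fermat.Agent.Mazur.Eisenstein.CuspFibre
import Fermat.Agent.ModFun.AtkinLehner
import Fermat.Agent.ModFun.HeckeRoots
import Fermat.Agent.EichlerShimura.RamBounds

/-!
# Elliptic points of order three under the Hecke correspondence

A place `P` of level `N` where `j` has a simple zero is an elliptic point of order three.  For a
prime `l ∤ N` its image under the correspondence is `(1 + l) P` modulo three: a place above it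
either has ramification index three, or is itself elliptic, and then has the same image under
both degeneracy maps.
-/

set_option autoImplicit false

noncomputable section

open UpperHalfPlane hiding I
open AlgebraicCurve ModularCurve CongruenceSubgroup
open scoped MatrixGroups

namespace Fermat.Agent.RT.Lift.LowerPGen

open Fermat.Agent.ModFun Fermat.Agent.Mazur.Moduli
open Fermat.Agent.Genus (Fbar jB)

local notation "Qb" => AlgebraicClosure ℚ

theorem ST_smul : Gamma0.ST • UpperHalfPlane.ρ = UpperHalfPlane.ρ := Genus.ST_smul_ρ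

theorem eq_of_mul_coe_add {a b a' b' : ℤ} {τ : ℍ}
    (h : (a : ℂ) * τ + b = (a' : ℂ) * τ + b') : a = a' ∧ b = b' := by
  have him := congrArg Complex.im h
  simp at him
  have ha : a = a' := by
    rcases him with h1 | h1
    · exact_mod_cast h1
    · exact absurd h1 τ.im_pos.ne'
  subst ha
  exact ⟨rfl, by exact_mod_cast add_left_cancel h⟩

theorem coe_smul_mul_denom (g : SL(2, ℤ)) (τ : ℍ) :
    ((g • τ : ℍ) : ℂ) * denom g τ = (g 0 0 : ℂ) * τ + g 0 1 := by
  rw [UpperHalfPlane.specialLinearGroup_apply, ModularGroup.denom_apply]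
  have hden : ((g 1 0 : ℂ) * τ + g 1 1) ≠ 0 := by
    rw [← ModularGroup.denom_apply]; exact UpperHalfPlane.denom_ne_zero _ τ
  simp only [algebraMap_int_eq, eq_intCast, Complex.ofReal_intCast]
  exact div_mul_cancel₀ _ hden

/-- An element fixing a point of `ℍ` is determined by its denominator there. -/
theorem eq_of_fixed_of_denom {g h : SL(2, ℤ)} {τ : ℍ} (hg : g • τ = τ) (hh : h • τ = τ)
    (hd : denom g τ = denom h τ) : g = h := by
  have h1 := coe_smul_mul_denom g τ
  have h2 := coe_smul_mul_denom h τ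
  rw [hg, hd] at h1
  rw [hh] at h2
  rw [ModularGroup.denom_apply, ModularGroup.denom_apply] at hd
  obtain ⟨e10, e11⟩ := eq_of_mul_coe_add hd
  obtain ⟨e00, e01⟩ := eq_of_mul_coe_add (h2.symm.trans h1)
  ext i j
  fin_cases i <;> fin_cases j
  exacts [e00.symm, e01.symm, e10, e11]

open ModularForm EisensteinSeries in
/-- A point fixed with the denominator of `ST` at `ρ` is a zero of `j`. -/
theorem jH_eq_zero_of_fixed {ε : SL(2, ℤ)} {τ : ℍ} (h : ε • τ = τ)
    (hd : denom ε τ = denom Gamma0.ST UpperHalfPlane.ρ) : ModFun.jH τ = 0 := by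
  have h1 : E₄ (ε • τ) = denom ε τ ^ (4 : ℤ) * E₄ τ :=
    SlashInvariantForm.slash_action_eqn'' E₄ (γ := Matrix.SpecialLinearGroup.mapGL ℝ ε) (by exact ⟨ε, rfl⟩) τ
  have hST : denom Gamma0.ST UpperHalfPlane.ρ = (UpperHalfPlane.ρ : ℂ) + 1 := by
    rw [ModularGroup.denom_apply, Gamma0.coe_ST]
    simp
  rw [h, hd, hST] at h1
  have hρ := UpperHalfPlane.ρ_sq
  have h2 : ((UpperHalfPlane.ρ : ℂ) + 2) * E₄ τ = 0 := by
    rw [zpow_ofNat] at h1
    linear_combination h1 + (((UpperHalfPlane.ρ : ℂ) ^ 2 + 3 * UpperHalfPlane.ρ + 2) * E₄ τ) * hρ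
  have hne : (UpperHalfPlane.ρ : ℂ) + 2 ≠ 0 := fun h0 => by
    have := congrArg Complex.im h0
    simp at this
    exact UpperHalfPlane.ρ.im_pos.ne' this
  rw [ModFun.jH, (mul_eq_zero.mp h2).resolve_left hne]
  simp

theorem col_congr {N : ℕ} {g ε : SL(2, ℤ)} (h : g * ε = Gamma0.ST * g) (hε : (ε 1 0 : ZMod N) = 0) :
    (g 0 0 : ZMod N) = (g 1 0 : ZMod N) * ((ε 0 0 : ZMod N) - 1) := by
  have h1 := congrArg (fun m : SL(2, ℤ) => (m 1 0 : ZMod N)) h
  simp [Gamma0.coe_ST, Matrix.mul_apply, Fin.sum_univ_two, hε] at h1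
  linear_combination -h1

/-- At a point with `ST` in its stabilizer at level `N l`, scaling by `l` stays in the orbit of
`Γ₀(N)`. -/
theorem exists_gamma0_scaleH (N l : ℕ) [NeZero N] [NeZero l] {g : SL(2, ℤ)}
    (hg : Gamma0.ST • (g : ModFun.Coset (N * l)) = g) :
    ∃ h ∈ Gamma0 N, h • (g⁻¹ • UpperHalfPlane.ρ) = scaleH l (g⁻¹ • UpperHalfPlane.ρ) := by
  set z := g⁻¹ • UpperHalfPlane.ρ
  set ε := g⁻¹ * Gamma0.ST * g with hεdef
  have hε : ε ∈ Gamma0 (N * l) := by
    rw [MulAction.Quotient.smul_coe, smul_eq_mul, QuotientGroup.eq] at hg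
    have := inv_mem hg
    rwa [mul_inv_rev, inv_inv, ← mul_assoc] at this
  have hfix : ε • z = z := by
    rw [hεdef, mul_smul, mul_smul, smul_inv_smul, ST_smul]
  have hden : denom ε z = denom Gamma0.ST UpperHalfPlane.ρ := by
    have := denom_conj_fixed (g := g⁻¹) (ST_smul)
    rwa [inv_inv] at this
  rw [Gamma0_mem, ZMod.intCast_zmod_eq_zero_iff_dvd] at hε
  obtain ⟨c₀, hc₀⟩ := hε
  push_cast at hc₀
  let ε' : SL(2, ℤ) := ⟨!![ε 0 0, (l : ℤ) * ε 0 1; (N : ℤ) * c₀, ε 1 1], by
    have hdet := Gamma0.det_eq ε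
    rw [hc₀] at hdet
    rw [Matrix.det_fin_two_of]
    linear_combination hdet⟩
  have hden' : denom ε' (scaleH l z) = denom ε z := by
    rw [ModularGroup.denom_apply, ModularGroup.denom_apply, coe_scaleH, hc₀]
    simp [ε']
    ring
  have hfix' : ε' • scaleH l z = scaleH l z := by
    refine UpperHalfPlane.ext (mul_right_cancel₀ (UpperHalfPlane.denom_ne_zero ε' (scaleH l z)) ?_)
    rw [coe_smul_mul_denom, hden', coe_scaleH]
    have h1 := coe_smul_mul_denom ε z
    rw [hfix] at h1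
    simp [ε']
    linear_combination -(l : ℂ) * h1
  obtain ⟨g', hg'⟩ := Poincare.exists_smul_eq_of_jH_eq (τ₀ := UpperHalfPlane.ρ)
    (τ₁ := scaleH l z) (by
      rw [genusJ_eq, jH_eq_zero_of_fixed hfix' (hden'.trans hden), ← genusJ_eq, Genus.jH_ρ])
  have hρ : g'⁻¹ • scaleH l z = UpperHalfPlane.ρ := by rw [← hg', inv_smul_smul]
  have hk : g'⁻¹ * ε' * g' = Gamma0.ST := by
    refine eq_of_fixed_of_denom (τ := UpperHalfPlane.ρ) ?_ ST_smul ?_
    · rw [mul_smul, mul_smul, hg', hfix', hρ]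
    · have := denom_conj_fixed (g := g'⁻¹) hfix'
      rwa [inv_inv, hρ, hden', hden] at this
  have e1 := col_congr (N := N) (g := g) (ε := ε) (by rw [hεdef]; group) (by
    rw [hc₀]; simp)
  have e2 := col_congr (N := N) (g := g'⁻¹) (ε := ε')
    (by rw [← hk]; group) (by simp [ε'])
  have hcos : ((g'⁻¹ : SL(2, ℤ)) : ModFun.Coset N) = g := by
    rw [Gamma0.mk_eq_mk_iff]
    have he : (ε' 0 0 : ℤ) = ε 0 0 := rfl
    rw [he] at e2
    push_cast
    rw [e1, e2]
    ring
  refine ⟨g' * g, ?_, ?_⟩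
  · have := QuotientGroup.eq.mp hcos
    rwa [inv_inv] at this
  · rw [mul_smul, smul_inv_smul, hg']

/-- A simple zero of `j` is a point with `ST` in its stabilizer. -/
theorem exists_of_ord_jF {M : ℕ} [NeZero M] (v : Place ℂ (FC M)) (hv : v.ord (jF M) = 1) :
    ∃ g : SL(2, ℤ), Gamma0.ST • (g : ModFun.Coset M) = g ∧
      v = placeAt M (g⁻¹ • UpperHalfPlane.ρ) := by
  obtain ⟨s, -, h1, h2, h3⟩ := places_over_point (N := M) UpperHalfPlane.ρ
  have e : jF M - algebraMap ℂ (FC M) (ModFun.jH UpperHalfPlane.ρ) = jF M := by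
    rw [← genusJ_eq, Genus.jH_ρ, map_zero, sub_zero]
  obtain ⟨c, hc⟩ := (h1 v).mp (by rw [e]; omega)
  have h4 := h3 c
  rw [e, ← hc, hv] at h4
  have hfix : s • c = c :=
    Function.minimalPeriod_eq_one_iff_isFixedPt.mp (by exact_mod_cast h4.symm)
  have hrot : placeAt M (((Gamma0.ST * c.out : SL(2, ℤ)) : ModFun.Coset M).out⁻¹ • UpperHalfPlane.ρ)
      = placeAt M (c.out⁻¹ • UpperHalfPlane.ρ) := by
    rw [placeAt_inv_out_smul, mul_inv_rev, mul_smul,
      show Gamma0.ST⁻¹ • UpperHalfPlane.ρ = UpperHalfPlane.ρ by rw [inv_smul_eq_iff, ST_smul]]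
  obtain ⟨k, hk⟩ := h2 _ c hrot
  refine ⟨c.out, ?_, hc⟩
  rw [MulAction.Quotient.smul_coe, smul_eq_mul, ← hk, QuotientGroup.out_eq']
  exact zpow_mem (show s ∈ MulAction.stabilizer SL(2, ℤ) c from hfix) k

theorem mem_iff_of_ord_eq {K K' F F' : Type*} [Field K] [Field K'] [Field F] [Field F']
    [Algebra K F] [Algebra K' F'] {w : Place K F} {v : Place K' F'} {φ : F →+* F'}
    (h : ∀ f, v.ord (φ f) = w.ord f) (f : F) :
    φ f ∈ v.toValuationSubring ↔ f ∈ w.toValuationSubring := by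
  rw [← FF.mem_ordGe_zero, ← FF.mem_ordGe_zero, FF.mem_ordGe, FF.mem_ordGe, h,
    map_eq_zero_iff φ φ.injective]

theorem mem_restrictAlong {K F F' : Type*} [Field K] [Field F] [Field F'] [Algebra K F]
    [Algebra K F'] (φ : F →ₐ[K] F') (hφ : φ.toRingHom.IsIntegral) (w : Place K F') (x : F) :
    x ∈ (w.restrictAlong φ hφ).toValuationSubring ↔ φ x ∈ w.toValuationSubring :=
  Iff.rfl

theorem restrictAlong_eq_of_mem {K F F' : Type*} [Field K] [Field F] [Field F'] [Algebra K F]
    [Algebra K F'] (φ ψ : F →ₐ[K] F') (hφ : φ.toRingHom.IsIntegral) (hψ : ψ.toRingHom.IsIntegral)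
    (w : Place K F') (h : ∀ x, φ x ∈ w.toValuationSubring ↔ ψ x ∈ w.toValuationSubring) :
    w.restrictAlong φ hφ = w.restrictAlong ψ hψ :=
  Place.ext (SetLike.ext fun x => (mem_restrictAlong φ hφ w x).trans
    ((h x).trans (mem_restrictAlong ψ hψ w x).symm))

theorem mem_iff_of_restrictAlong_eq {K F F' : Type*} [Field K] [Field F] [Field F'] [Algebra K F]
    [Algebra K F'] {φ ψ : F →ₐ[K] F'} {hφ : φ.toRingHom.IsIntegral}
    {hψ : ψ.toRingHom.IsIntegral} (W : F' ≃ₐ[K] F') (hW : W.toAlgHom.toRingHom.IsIntegral)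
    {w : Place K F'}
    (h : (w.restrictAlong W.toAlgHom hW).restrictAlong φ hφ =
      (w.restrictAlong W.toAlgHom hW).restrictAlong ψ hψ) (x : F) :
    W (φ x) ∈ w.toValuationSubring ↔ W (ψ x) ∈ w.toValuationSubring :=
  (congrArg (fun q : Place K F => x ∈ q.toValuationSubring) h).to_iff

theorem ord_algEquiv {K F F' : Type*} [Field K] [Field F] [Field F'] [Algebra K F] [Algebra K F']
    (W : F ≃ₐ[K] F') (hW : W.toAlgHom.toRingHom.IsIntegral) (w : Place K F') (x : F) :
    w.ord (W x) = (w.restrictAlong W.toAlgHom hW).ord x := by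
  obtain ⟨t, -, ht⟩ := FF.exists_uniformizer w
  have h1 := Place.ord_restrictAlong W.toAlgHom hW w (W.symm t)
  simp only [AlgEquiv.coe_toAlgHom, AlgEquiv.apply_symm_apply, ht] at h1
  rcases Int.eq_one_or_neg_one_of_mul_eq_one' h1.symm with ⟨he, -⟩ | ⟨he, -⟩
  · exact (Place.ord_restrictAlong W.toAlgHom hW w x).trans (by rw [he, one_mul])
  · omega

variable {N l : ℕ} [NeZero N] [NeZero l]
variable (hα : HeckeAlphaBarIntegral Qb N l) (hβ : HeckeBetaBarIntegral Qb N l)

theorem heckeAlphaBar_jB : heckeAlphaBar Qb N l (jB N) = jB (N * l) :=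
  Subtype.ext (by rw [coe_heckeAlphaBar, coe_jBase, coe_jBase])

/-- An elliptic place of level `N l` has the same image under both degeneracy maps. -/
theorem restrictAlong_eq_of_elliptic (w : Place Qb (Fbar (N * l)))
    (hw : w.ord (jB (N * l)) = 1) :
    w.restrictAlong (heckeAlphaBar Qb N l) hα = w.restrictAlong (heckeBetaBar Qb N l) hβ := by
  obtain ⟨v, hv⟩ := exists_above w
  have hvj : v.ord (jF (N * l)) = 1 := by
    rw [← barC_jBar, hv]; exact hw
  obtain ⟨g, hg, rfl⟩ := exists_of_ord_jF v hvj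
  obtain ⟨h, hh, hz⟩ := exists_gamma0_scaleH N l hg
  refine restrictAlong_eq_of_mem _ _ hα hβ w fun x => ?_
  rw [← mem_iff_of_ord_eq hv, ← mem_iff_of_ord_eq hv, mem_placeAt_alpha, mem_placeAt_beta, ← hz,
    placeAt_smul hh]

include hα in
/-- Above a simple zero of `j`, the ramification along `β` is `1` or `3`, and in the first case
both degeneracy maps agree. -/
theorem ramification_beta (hl : l.Prime) (hN : ¬ l ∣ N) {P : Place Qb (Fbar N)}
    (hP : P.ord (jB N) = 1) (w : Place Qb (Fbar (N * l)))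
    (hw : w.restrictAlong (heckeBetaBar Qb N l) hβ = P) :
    (w.ramificationIndexAlong (heckeBetaBar Qb N l) = 1 ∧
        w.restrictAlong (heckeAlphaBar Qb N l) hα = P) ∨
      w.ramificationIndexAlong (heckeBetaBar Qb N l) = 3 := by
  obtain ⟨W, hWa, hWb, -⟩ := ModFun.exists_alEquiv N l hl hN
  have hWi : W.toAlgHom.toRingHom.IsIntegral := RingHom.IsIntegral.of_finite
    (RingHom.Finite.of_surjective _ W.surjective)
  set u := w.restrictAlong W.toAlgHom hWi
  have hord : u.ord (jB (N * l)) = w.ramificationIndexAlong (heckeBetaBar Qb N l) := by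
    rw [← heckeAlphaBar_jB, ← ord_algEquiv W hWi, hWa,
      Place.ord_restrictAlong _ hβ, hw, hP, mul_one]
  have hpos : 0 < w.ramificationIndexAlong (heckeBetaBar Qb N l) :=
    Mazur.Eisenstein.ramificationIndexAlong_pos _ w
  have hdvd := EichlerShimura.ord_jB_dvd_three (N * l) u (by rw [hord]; exact_mod_cast hpos)
  rw [hord] at hdvd
  rcases (Nat.dvd_prime Nat.prime_three).mp (Int.natCast_dvd_natCast.mp hdvd) with h | h
  · refine Or.inl ⟨h, ?_⟩
    have key := restrictAlong_eq_of_elliptic hα hβ u (by rw [hord, h]; rfl)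
    rw [← hw]
    refine restrictAlong_eq_of_mem _ _ hα hβ w fun x => ?_
    have hk := mem_iff_of_restrictAlong_eq W hWi key x
    rw [hWa, hWb] at hk
    exact hk.symm
  · exact Or.inr h

/-- The correspondence at `l` sends a simple zero of `j` to `1 + l` times itself modulo three. -/
theorem exists_correspondence_single [HasPrincipalDivisors Qb (Fbar (N * l))]
    (hl : l.Prime) (hN : ¬ l ∣ N) (P : Place Qb (Fbar N)) (hP : P.ord (jB N) = 1) :
    ∃ E : Divisor Qb (Fbar N),
      heckeDivBar hα hβ (Finsupp.single P 1) = Finsupp.single P (1 + (l : ℤ)) + (3 : ℤ) • E := by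
  classical
  refine ⟨∑ w ∈ Place.fiberAlong (heckeBetaBar Qb N l) hβ P,
    if w.ramificationIndexAlong (heckeBetaBar Qb N l) = 3 then
      Finsupp.single (w.restrictAlong (heckeAlphaBar Qb N l) hα) 1 - Finsupp.single P 1 else 0,
    ?_⟩
  have hsum := Mazur.Eisenstein.sum_ramification_eq (heckeBetaBar Qb N l) hβ P
  rw [ModFun.finrankAlong_beta_bar hl hN] at hsum
  have e : (1 + (l : ℤ)) = ((l + 1 : ℕ) : ℤ) := by push_cast; ring
  rw [e, ← hsum, Finsupp.single_finsetSum, Finset.smul_sum, ← Finset.sum_add_distrib]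
  refine (Mazur.Eisenstein.correspondence_single (heckeBetaBar Qb N l) hβ (heckeAlphaBar Qb N l) hα
    P).trans ?_
  refine Finset.sum_congr rfl fun w hw => ?_
  rcases ramification_beta hα hβ hl hN hP w (Place.mem_fiberAlong.mp hw) with ⟨h1, h2⟩ | h3
  · rw [h1, h2, if_neg (by norm_num), smul_zero, add_zero]
  · rw [h3, if_pos rfl, smul_sub, Finsupp.smul_single, Finsupp.smul_single, smul_eq_mul, mul_one]
    push_cast
    abel

omit [NeZero l] in
/-- The input on elliptic points. -/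
theorem ellipticCorrInput (N : ℕ) [NeZero N] : EllipticCorrInput N := by
  intro l _ hl hN P hP
  have : NeZero (N * l) := ⟨Nat.mul_ne_zero (NeZero.ne N) (NeZero.ne l)⟩
  have := FF.hasPrincipalDivisors (K := Qb) (F := Fbar (N * l))
  have hj : jB N = Semistable.jM N := Subtype.ext (by rw [coe_jBase, Semistable.coe_jM])
  obtain ⟨E, hE⟩ := exists_correspondence_single (FF.isIntegralAlong (heckeAlphaBar Qb N l))
    (FF.isIntegralAlong (heckeBetaBar Qb N l)) hl hN P (hj ▸ hP)
  refine ⟨E, hE.trans ?_⟩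
  rw [add_comm (1 : ℤ), ← natCast_zsmul E 3]
  rfl

end Fermat.Agent.RT.Lift.LowerPGen
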