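import Fermat.Agent.RT.Lift.LowerPGen.Deriv
import Fermat.Agent.RT.Lift.LowerPGen.Cusp
import Fermat.Agent.RT.Lift.LowerPGen.Inputs

/-!
# Exactness of logarithmic derivatives in the reduced space of differentials

`dz / (z dj)` lies in `L (regDiv)` exactly when all orders of `z` are divisible by `p`.
-/

set_option autoImplicit false
set_option synthInstance.maxHeartbeats 400000
set_option maxHeartbeats 1000000
set_option linter.unusedSectionVars false

noncomputable section

open AlgebraicCurve
open ModularCurve (jqModC)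
open scoped IntermediateField Classical

namespace Fermat.Agent.RT.Lift.LowerPGen

open Fermat.Agent.Semistable Fermat.Agent.RT.MazurP
open Arith (QBar)

section Residue

variable {A : ValuationSubring QBar} {N : ℕ} [NeZero N]
  [FF.IsFunctionField (Res A) (KM A N)] [IsAlgClosed (Res A)]
  [FiniteDimensional (Res A)⟮jK A N⟯ (KM A N)] [Algebra.IsSeparable (Res A)⟮jK A N⟯ (KM A N)]
  (p : ℕ) [Fact p.Prime] [CharP (Res A) p] (hA : A.LiesOverPrime p) (hN : (N : Res A) ≠ 0)

include hA hN

/-- The logarithmic derivative of a unit obeys the bound of `regDiv`. -/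
theorem dd_div_unit_mem {v : Place (Res A) (KM A N)} {w : KM A N} (hw : w ≠ 0)
    (hvw : v.ord w = 0) :
    dd (K := Res A) (jK A N) w / w ∈ FF.ordGe v (-regDiv hN v) := by
  have hwi : w⁻¹ ∈ FF.ordGe v 0 := FF.mem_ordGe_of_le v (by rw [v.ord_inv, hvw, neg_zero])
  have key : dd (K := Res A) (jK A N) w ∈ FF.ordGe v (-regDiv hN v) := by
    rcases lt_or_ge (v.ord (jK A N)) 0 with hpole | hfin
    · rcases eq_or_ne (dd (K := Res A) (jK A N) w) 0 with h0 | h0
      · rw [h0]; exact zero_mem _
      obtain ⟨V, π, hgood⟩ := RedTorsion.exists_goodRed (N := N) (A := A) hN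
      have hcard : Fintype.card (ModFun.Coset N) =
          Module.finrank (Res A)⟮jK A N⟯ (KM A N) := by
        rw [← Nat.card_eq_fintype_card]
        exact (RedTorsion.finrank_jF (K := Res A) (N := N) (F := KM A N) rfl hN).symm
      have h := one_le_ord_dd_mul (jK_transcendental A N) hN
        (RedTorsion.cuspFamily (F := KM A N) rfl hgood) hcard v hpole hw hvw h0
      rw [v.ord_mul h0 (fun h => by simp [h] at hpole)] at h
      refine FF.mem_ordGe_of_le v ?_
      rw [regDiv_of_pole hN hpole]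
      omega
    · exact dd_unit_mem p hA hN hfin hw hvw
  simpa [div_eq_mul_inv] using FF.mul_mem_ordGe v key hwi

theorem intCast_eq_zero_of_dvd {k : ℤ} (h : (p : ℤ) ∣ k) : (k : KM A N) = 0 := by
  rw [← map_intCast (algebraMap (Res A) (KM A N)), (CharP.intCast_eq_zero_iff (Res A) p k).mpr h,
    map_zero]

/-- Orders divisible by `p` give a logarithmic derivative in `L (regDiv)`. -/
theorem dlog_mem_regDiv {z : KM A N} (hz : z ≠ 0)
    (hord : ∀ P : Place (Res A) (KM A N), (p : ℤ) ∣ P.ord z) :
    dd (K := Res A) (jK A N) z / z ∈ riemannRochSpace (regDiv hN) := by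
  have hJ : Transcendental (Res A) (jK A N) := jK_transcendental A N
  refine FF.mem_riemannRochSpace'.mpr fun v => ?_
  obtain ⟨t, ht0, ht⟩ := FF.exists_uniformizer (v := v)
  set w := z / t ^ v.ord z with hwdef
  have hw : w ≠ 0 := div_ne_zero hz (zpow_ne_zero _ ht0)
  have hvw : v.ord w = 0 := by
    rw [hwdef, div_eq_mul_inv, v.ord_mul hz (inv_ne_zero (zpow_ne_zero _ ht0)), v.ord_inv,
      v.ord_zpow, ht]
    ring
  have hzw : z = t ^ v.ord z * w := by
    rw [hwdef, mul_div_cancel₀ _ (zpow_ne_zero _ ht0)]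
  have hq : dd (K := Res A) (jK A N) z / z = dd (K := Res A) (jK A N) w / w := by
    conv_lhs => rw [hzw, dd_mul hJ, dd_zpow hJ,
      intCast_eq_zero_of_dvd p hA hN (hord v), zero_mul, zero_mul, mul_zero, add_zero]
    field_simp [zpow_ne_zero (v.ord z) ht0]
  rw [hq]
  exact dd_div_unit_mem p hA hN hw hvw

/-- A logarithmic derivative in `L (regDiv)` has all orders divisible by `p`. -/
theorem dvd_ord_of_mem_regDiv {z : KM A N} (hz : z ≠ 0)
    (hmem : dd (K := Res A) (jK A N) z / z ∈ riemannRochSpace (regDiv hN))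
    (v : Place (Res A) (KM A N)) : (p : ℤ) ∣ v.ord z := by
  have hJ : Transcendental (Res A) (jK A N) := jK_transcendental A N
  have hJ0 : jK A N ≠ 0 := fun h => hJ (h ▸ isAlgebraic_zero)
  have hv := FF.mem_riemannRochSpace'.mp hmem v
  set m := v.ord z with hm
  rw [← CharP.intCast_eq_zero_iff (Res A) p m]
  by_contra hne
  have hmF : (m : KM A N) ≠ 0 := by
    rw [← map_intCast (algebraMap (Res A) (KM A N))]
    exact (map_ne_zero _).mpr hne
  have hmv : v.ord (m : KM A N) = 0 := by
    rw [← map_intCast (algebraMap (Res A) (KM A N)), FF.ord_algebraMap]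
  rcases lt_or_ge (v.ord (jK A N)) 0 with hpole | hfin
  · set s := -v.ord (jK A N) with hs
    set f := z ^ s * jK A N ^ m with hf
    have hf0 : f ≠ 0 := mul_ne_zero (zpow_ne_zero _ hz) (zpow_ne_zero _ hJ0)
    have hfv : v.ord f = 0 := by
      rw [hf, v.ord_mul (zpow_ne_zero _ hz) (zpow_ne_zero _ hJ0), v.ord_zpow, v.ord_zpow, ← hm, hs]
      ring
    have e : dd (K := Res A) (jK A N) f / f =
        (s : KM A N) * (dd (K := Res A) (jK A N) z / z) + (m : KM A N) * (jK A N)⁻¹ := by
      rw [hf, dd_mul hJ, dd_zpow hJ, dd_zpow hJ, dd_self hJ, zpow_sub_one₀ hz, zpow_sub_one₀ hJ0]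
      field_simp
      ring
    have hsm : (s : KM A N) ∈ FF.ordGe v 0 := by
      rw [← map_intCast (algebraMap (Res A) (KM A N))]
      exact (FF.mem_ordGe_zero v).mpr (v.algebraMap_mem' _)
    have h1 : (m : KM A N) * (jK A N)⁻¹ ∈ FF.ordGe v (-regDiv hN v) := by
      rw [eq_sub_of_add_eq' e.symm]
      refine sub_mem (dd_div_unit_mem p hA hN hf0 hfv) ?_
      simpa using FF.mul_mem_ordGe v hsm hv
    have h2 := FF.le_ord_of_mem_ordGe v (mul_ne_zero hmF (inv_ne_zero hJ0)) h1
    rw [v.ord_mul hmF (inv_ne_zero hJ0), hmv, v.ord_inv, regDiv_of_pole hN hpole] at h2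
    omega
  · obtain ⟨u, hu1, hdu, hord⟩ := exists_uniformiser_dd p hA hN hfin
    have hu0 : u ≠ 0 := fun h => by simp [h] at hu1
    set w := z / u ^ m with hwdef
    have hw : w ≠ 0 := div_ne_zero hz (zpow_ne_zero _ hu0)
    have hvw : v.ord w = 0 := by
      rw [hwdef, div_eq_mul_inv, v.ord_mul hz (inv_ne_zero (zpow_ne_zero _ hu0)), v.ord_inv,
        v.ord_zpow, hu1, ← hm]
      ring
    have hzw : z = u ^ m * w := by rw [hwdef, mul_div_cancel₀ _ (zpow_ne_zero _ hu0)]
    have e : dd (K := Res A) (jK A N) z / z =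
        (m : KM A N) * (dd (K := Res A) (jK A N) u / u) + dd (K := Res A) (jK A N) w / w := by
      conv_lhs => rw [hzw, dd_mul hJ, dd_zpow hJ, zpow_sub_one₀ hu0]
      field_simp
      ring
    have h1 : (m : KM A N) * (dd (K := Res A) (jK A N) u / u) ∈
        FF.ordGe v (-regDiv hN v) := by
      rw [eq_sub_of_add_eq e.symm]
      exact sub_mem hv (dd_div_unit_mem p hA hN hw hvw)
    have h2 := FF.le_ord_of_mem_ordGe v (mul_ne_zero hmF (div_ne_zero hdu hu0)) h1
    rw [v.ord_mul hmF (div_ne_zero hdu hu0), hmv, div_eq_mul_inv,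
      v.ord_mul hdu (inv_ne_zero hu0), v.ord_inv, hord, hu1] at h2
    omega

end Residue

/-- Exactness, once the reductions of cusp forms are regular for `regDiv`. -/
theorem dlogExactInput_of {A : ValuationSubring QBar} {p N : ℕ} [Fact p.Prime] [NeZero N]
    (hA : A.LiesOverPrime p) (hpN : ¬ p ∣ N)
    (hle : ∀ [FF.IsFunctionField (Res A) (KM A N)] [IsAlgClosed (Res A)]
      (hN : (N : Res A) ≠ 0),
      redLattice A N ≤ (riemannRochSpace (regDiv hN)).map (mulTheta A N)) :
    DlogExactInput A p N := by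
  intro z hz hz0 hdlog P
  have : CharP (Res A) p := Arith.residueField_charP hA Fact.out
  have := Arith.residueField_isAlgClosed A
  have hN : (N : Res A) ≠ 0 := fun h => hpN ((CharP.cast_eq_zero_iff (Res A) p N).mp h)
  have := isFunctionField_KM (A := A) hN
  have : FiniteDimensional (Res A)⟮jK A N⟯ (KM A N) :=
    RedTorsion.finiteDimensional_jF (K := Res A) (N := N) (F := KM A N) rfl hN
  have : Algebra.IsSeparable (Res A)⟮jK A N⟯ (KM A N) :=
    RedTorsion.isSeparable_jF (K := Res A) (N := N) (F := KM A N) rfl hN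
  obtain ⟨g, hg, hgz⟩ := hle hN hdlog
  set Z : KM A N := ⟨z, hz⟩
  have hg' : g = dd (K := Res A) (jK A N) Z / Z := by
    refine Subtype.ext (mul_right_cancel₀ (red_theta_jqModC_ne_zero (K := Res A)) ?_)
    rw [mulTheta_apply] at hgz
    rw [hgz]
    show theta (Res A) (Z : LaurentSeries (Res A)) / z = ((dd (K := Res A) (jK A N) Z : KM A N) :
      LaurentSeries (Res A)) / z * _
    rw [coe_dd_mul_theta (A := A) Z, div_mul_eq_mul_div]
  rw [hg'] at hg
  exact dvd_ord_of_mem_regDiv p hA hN (z := Z) (fun h => hz0 (congrArg Subtype.val h)) hg P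

end Fermat.Agent.RT.Lift.LowerPGen

end
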