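import Fermat.Agent.RT.Lift.LowerP.Main
import Fermat.Agent.RT.Mazur.OrdersBasic

/-!
# The supersingular case at any level prime to `p`

The genus does not drop in characteristic prime to the level, so moved classes are flat, inertia
acts by scalars on flat classes with trivial norms, and the supersingular case lowers `p` without
assuming `4 ∣ N`.
-/

set_option autoImplicit false
set_option synthInstance.maxHeartbeats 400000
set_option maxHeartbeats 1000000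
set_option linter.unusedSectionVars false

noncomputable section

namespace Fermat.Agent.RT.Lift.LowerPGen

open AlgebraicCurve ModularCurve Fermat.Agent.Semistable WeierstrassCurve
open Fermat.Agent.OrdinaryAtP
open Fermat.Agent.RT.MazurP (cls cls_mul cls_eq_zero_iff cls_congr smul_cls galF_ne_zero dvd_ord_galF
  valuation_inertia zeta_sub_one eigenPrimes CongrForm)
open Fermat.Agent.EC.Reduction Fermat.Agent.EC.Rep
open Fermat.Agent.EC.AtP (PointQBar)
open NewformLocal.Toric (normUp)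
open Arith (QBar GQ)
open RT.Lift.AtP (IsFlat)
open LowerP

section Classes

variable {A : ValuationSubring QBar} {M p : ℕ} [NeZero M] [hp : Fact p.Prime] {hpM : ¬ p ∣ M}

/-- An element of the moved group is flat modulo some power of `p`. -/
theorem exists_isFlat_of_moved (hA : A.LiesOverPrime p) {x : JZero (p * M)}
    (hx : x ∈ movedGroup A (p * M) p) :
    ∃ n : ℕ, haveI : NeZero (p ^ n) := ⟨pow_ne_zero n hp.out.ne_zero⟩
      IsFlat A M p hpM (p ^ n) x := by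
  have : CharP (Res A) p := Arith.residueField_charP hA hp.out
  have hM : (M : Res A) ≠ 0 := by rwa [Ne, CharP.cast_eq_zero_iff (Res A) p]
  have := isFunctionField_KM (A := A) hM
  have hS : Setup A M p := ⟨hA, hpM, hM, RT.Mazur.goodM_of_ne_zero hM⟩
  induction hx using AddSubgroup.closure_induction with
  | mem y hy =>
    obtain ⟨τ, hτ, z, n, hz, rfl⟩ := hy
    have : NeZero (p ^ n) := ⟨pow_ne_zero n hp.out.ne_zero⟩
    exact ⟨n, RT.Lift.AtP.isFlat_moved hS hτ hz⟩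
  | zero =>
    have : NeZero (p ^ 0) := ⟨pow_ne_zero 0 hp.out.ne_zero⟩
    exact ⟨0, RT.Lift.AtP.isFlat_zero hpM⟩
  | add a b _ _ ha hb =>
    obtain ⟨n₁, h₁⟩ := ha
    obtain ⟨n₂, h₂⟩ := hb
    have i₁ : NeZero (p ^ n₁) := ⟨pow_ne_zero _ hp.out.ne_zero⟩
    have i₂ : NeZero (p ^ n₂) := ⟨pow_ne_zero _ hp.out.ne_zero⟩
    have i : NeZero (p ^ (n₁ + n₂)) := ⟨pow_ne_zero _ hp.out.ne_zero⟩
    have i₁' : NeZero (p ^ n₁ * p ^ n₂) := ⟨mul_ne_zero i₁.out i₂.out⟩
    have i₂' : NeZero (p ^ n₂ * p ^ n₁) := ⟨mul_ne_zero i₂.out i₁.out⟩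
    have e₁ := OrdinaryAtP.isFlat_mul_right (k := p ^ n₂) h₁
    have e₂ := OrdinaryAtP.isFlat_mul_right (k := p ^ n₁) h₂
    refine ⟨n₁ + n₂, RT.Lift.AtP.IsFlat.add hpM ?_ ?_⟩
    · convert e₁ using 2
      exact pow_add p n₁ n₂
    · convert e₂ using 2
      rw [← pow_add, add_comm]
  | neg a _ ha =>
    obtain ⟨n, h⟩ := ha
    have : NeZero (p ^ n) := ⟨pow_ne_zero n hp.out.ne_zero⟩
    exact ⟨n, RT.Lift.AtP.IsFlat.neg hpM h⟩

/-- A moved class killed by `p` is flat. -/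
theorem isFlatClass_of_moved (hA : A.LiesOverPrime p) {x : JZero (p * M)}
    (hx : x ∈ movedGroup A (p * M) p) (hpx : p • x = 0) : IsFlatClass A M p hpM x := by
  obtain ⟨n, hn⟩ := exists_isFlat_of_moved (hpM := hpM) hA hx
  have : CharP (Res A) p := Arith.residueField_charP hA hp.out
  have : NeZero (p ^ n) := ⟨pow_ne_zero n hp.out.ne_zero⟩
  exact hn.isFlatClass hpM hA hpx

end Classes

section Scalars

variable {A : ValuationSubring QBar} {M p : ℕ} [NeZero M] [hp : Fact p.Prime]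

/-- **Inertia acts by scalars.** -/
theorem exists_smul_eq_of_flat (hA : A.LiesOverPrime p) (hpM : ¬ p ∣ M) {x : JZero (p * M)}
    (hx : IsFlatClass A M p hpM x)
    (hn : ∀ (g : FB (p * M)) (hg : g ≠ 0)
      (hd : ∀ v : Place QBar (FB (p * M)), (p : ℤ) ∣ v.ord g), cls p hg hd = x →
        (∃ G : FB M, G ≠ 0 ∧ normUp p M g = G ^ p) ∧
          ∃ G : FB M, G ≠ 0 ∧ normUp p M (wEquiv p M hpM g) = G ^ p)
    {τ : GQ} (hτ : τ ∈ A.inertiaSubgroupIn ℚ) : ∃ N : ℕ, τ • x = N • x := by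
  classical
  have hp' : p.Prime := hp.out
  have : CharP (Res A) p := Arith.residueField_charP hA hp'
  have hM : (M : Res A) ≠ 0 := by
    rw [Ne, CharP.cast_eq_zero_iff (Res A) p]
    exact hpM
  have := isFunctionField_KM A hM
  have h : Setup A M p := ⟨hA, hpM, hM, RT.Mazur.goodM_of_ne_zero hM⟩
  have hR := fun c hc => const_mem_loc2 (A := A) (M := M) (p := p) h (c := c) hc
  have hpx : p • x = 0 := smul_flat hx
  obtain ⟨f, hfx, hf1, hf2⟩ := hx
  obtain ⟨γ₀, hγ₀, hs₀⟩ := exists_small_of_red2_eq_zero hA (iota2_fracS M p hpM)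
    ((⟨_, hf1⟩ : loc2 A (iota2 M p hpM)) - 1) (by rw [map_sub, hf2, map_one, sub_self])
  have hdeep := fun γ (hγ : γ ≠ 0) => deepAt_all hpM hA hn hγ₀
    ⟨_, (f : (FB (p * M))ˣ).ne_zero, f.2, by
      rw [← hfx]
      exact congrArg (fun u : JacTorsion.divGrp QBar (FB (p * M)) p =>
        (JacTorsion.toTorsion (Additive.ofMul u) : JZero (p * M))) (Subtype.ext (Units.ext rfl)),
      hs₀⟩ hγ
  -- the scalar
  obtain ⟨ζ, hζ⟩ := HasEnoughRootsOfUnity.exists_primitiveRoot QBar p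
  obtain ⟨hlt, hpow, hdiv⟩ := zeta_sub_one hA hp' hζ
  set lam := ζ - 1 with hlamdef
  have hlam : lam ≠ 0 := sub_ne_zero.mpr (hζ.ne_one hp'.one_lt)
  obtain ⟨N, hN, hNζ⟩ := hζ.eq_pow_of_pow_eq_one
    (show τ ζ ^ p = 1 by rw [← map_pow, hζ.pow_eq_one, map_one])
  refine ⟨N, ?_⟩
  obtain ⟨k, hk⟩ : ∃ k, p = N + (k + 1) := ⟨p - N - 1, by omega⟩
  have hcA : τ lam / lam ∈ A := by
    rw [hlamdef, map_sub, map_one, ← hNζ]; exact (hdiv N).1
  have hcres : IsLocalRing.residue A ⟨_, hcA⟩ + ((k + 1 : ℕ) : Res A) = 0 := by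
    have e : τ lam / lam = (ζ ^ N - 1) / (ζ - 1) := by rw [hlamdef, map_sub, map_one, ← hNζ]
    have h1 : IsLocalRing.residue A ⟨_, hcA⟩ = (N : Res A) := by
      have h2 := (hdiv N).2
      rw [EC.Reduction.res_of_mem (hdiv N).1] at h2
      rw [← h2]
      exact congrArg _ (Subtype.ext e)
    rw [h1, ← Nat.cast_add, ← hk, CharP.cast_eq_zero]
  suffices hy : τ • x + (k + 1) • x = 0 by
    have h1 : N • x + (k + 1) • x = 0 := by rw [← add_nsmul, ← hk, hpx]
    exact add_right_cancel (hy.trans h1.symm)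
  -- degrees
  obtain ⟨n, hn₀⟩ := exists_goodDeg h
  have hnn : n ≤ n + (k + 1) * n := Nat.le_add_right _ _
  refine eq_zero_of_approx h (hn₀ _ hnn)
    (hn₀ _ (hnn.trans (Nat.le_mul_of_pos_left _ hp'.pos))).deg fun δ hδ hδn => ?_
  have hdeg := hn₀ n le_rfl
  set γ : QBar := (p : QBar) * lam * δ with hγ
  have hpne : (p : QBar) ≠ 0 := Nat.cast_ne_zero.mpr hp'.ne_zero
  have hγ0 : γ ≠ 0 := mul_ne_zero (mul_ne_zero hpne hlam) hδ
  have hδle : A.valuation δ ≤ 1 := (A.mem_nonunits_iff.mp hδn).le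
  have hγl : A.valuation γ ≤ A.valuation ((p : QBar) * lam) := by
    rw [hγ, map_mul]; exact mul_le_of_le_one_right' hδle
  have hγδ : A.valuation γ ≤ A.valuation δ := by
    rw [hγ, map_mul, map_mul]
    exact mul_le_of_le_one_left' (mul_le_one' (A.mem_nonunits_iff.mp hA).le hlt.le)
  have hγn : γ ∈ A.nonunits := A.mem_nonunits_iff.mpr
    (hγδ.trans_lt (A.mem_nonunits_iff.mp hδn))
  obtain ⟨g, hg, hd, hgx, hgs⟩ := hdeep γ hγ0
  set L := loc2 A (iota2 M p hpM)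
  have hgm : g ∈ L := by
    have := add_mem (hgs.mem (hR γ (Arith.mem_of_mem_nonunits hγn))) (one_mem L)
    rwa [sub_add_cancel] at this
  have hgU : HasUnitRed A M p hpM g :=
    ⟨hgm, (red2_sub_eq h (x := ⟨g, hgm⟩) (y := 1) hγn hgs).trans (map_one _)⟩
  obtain ⟨a₁, ha₁, hr₁⟩ := exists_isLat h hdeg hg hd hgU (h.one_mem_Bn n)
  obtain ⟨aJ, haJ, hrJ⟩ := exists_isLat h hdeg hg hd hgU (jvec_pow_mem_Bn h n)
  set gy := galF (p * M) τ g * g ^ (k + 1) with hgy
  have hgy0 : gy ≠ 0 := mul_ne_zero (galF_ne_zero τ hg) (pow_ne_zero _ hg)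
  have hdy : ∀ v : Place QBar (FB (p * M)), (p : ℤ) ∣ v.ord gy := fun v => by
    rw [hgy, v.ord_mul (galF_ne_zero τ hg) (pow_ne_zero _ hg)]
    exact dvd_add (dvd_ord_galF τ hd v) (dvd_ord_pow hd _ v)
  have hgys : Small L γ (gy - 1) := by
    rw [show gy - 1 = galF (p * M) τ g * (g ^ (k + 1) - 1 ^ (k + 1)) + galF (p * M) τ (g - 1) by
      rw [hgy, one_pow, map_sub, map_one]; ring]
    refine ((Small.pow_sub hgm (one_mem L) hgs _).mul_left
      ((resLift_of_inertia hτ).galF_mem_loc2 M p hpM ⟨g, hgm⟩).1).add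
      ((small_galF hτ hgs).mono hR ?_)
    rw [valuation_inertia hτ]
  have hgyU : HasUnitRed A M p hpM gy := by
    obtain ⟨hm, e⟩ := (resLift_of_inertia hτ).galF_mem_loc2 M p hpM ⟨g, hgm⟩
    refine HasUnitRed.mul hpM ⟨hm, funext fun s => (e s).trans ?_⟩ (hgU.pow hpM _)
    rw [hgU.2, coeffMap_id]
  refine ⟨gy, hgy0, hdy, ?_, hgys.mono hR hγδ, ?_⟩
  · rw [cls_congr hgy hgy0 (mul_ne_zero (galF_ne_zero τ hg) (pow_ne_zero _ hg)) hdy hdy,
      cls_mul (galF_ne_zero τ hg) (pow_ne_zero _ hg) (dvd_ord_galF τ hd) (dvd_ord_pow hd _) hdy,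
      ← smul_cls τ hg hd, cls_pow hg hd, hgx]
  -- the sections
  have sec : ∀ {a : FB (p * M)} (ha : IsLat A h.hqM n g a),
      ∃ (hy : IsLat A h.hqM (n + (k + 1) * n) gy (galF (p * M) τ a * a ^ (k + 1))),
        red2 A (iota2 M p h.hqM) ⟨_, hy.1⟩ =
            red2 A (iota2 M p h.hqM) ⟨a, ha.1⟩ ^ (k + 1 + 1) ∧
          ∃ ε, A.valuation ε < A.valuation lam ∧
            Approx h (n + (k + 1) * n) ε (galF (p * M) τ a * a ^ (k + 1)) := by
    intro a ha
    have hy : IsLat A h.hqM (n + (k + 1) * n) gy (galF (p * M) τ a * a ^ (k + 1)) :=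
      (ha.galF ⟨τ, hτ⟩).mul (isLat_pow ha (k + 1))
    refine ⟨hy, ?_, approx_twist h hτ hlam (A.mem_nonunits_iff.mpr hlt) hcA hcres
      (approx_lambda h hdeg hgU hpow hγl hgs ha)⟩
    obtain ⟨hm, e⟩ := (resLift_of_inertia hτ).galF_mem_loc2 M p h.hqM ⟨a, ha.1⟩
    have e1 : red2 A (iota2 M p h.hqM) ⟨_, hm⟩ = red2 A (iota2 M p h.hqM) ⟨a, ha.1⟩ :=
      funext fun s => (e s).trans (by rw [coeffMap_id])
    rw [show (⟨_, hy.1⟩ : loc2 A (iota2 M p h.hqM)) = ⟨_, hm⟩ * ⟨a, ha.1⟩ ^ (k + 1) from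
      Subtype.ext rfl, map_mul, map_pow, e1, ← pow_succ']
  obtain ⟨hy₁, hry₁, ε₁, hε₁, hap₁⟩ := sec ha₁
  obtain ⟨hyJ, hryJ, εJ, hεJ, hapJ⟩ := sec haJ
  rw [hr₁, one_pow] at hry₁
  rw [hrJ, ← pow_mul, show n * (k + 1 + 1) = n + (k + 1) * n by ring] at hryJ
  obtain ⟨ε, hεlt, hle₁, hleJ⟩ : ∃ ε, A.valuation ε < A.valuation lam ∧
      A.valuation ε₁ ≤ A.valuation ε ∧ A.valuation εJ ≤ A.valuation ε := by
    rcases le_total (A.valuation ε₁) (A.valuation εJ) with h' | h'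
    · exact ⟨εJ, hεJ, h', le_rfl⟩
    · exact ⟨ε₁, hε₁, le_rfl, h'⟩
  refine ⟨_, hy₁, hry₁, Approx.mono h (approx_deep h (hn₀ _ hnn) hgyU hpow hεlt hgys hy₁ hyJ
    hry₁ hryJ (Approx.mono h hap₁ hle₁) (Approx.mono h hapJ hleJ)).1 ?_⟩
  rw [hγ, mul_assoc, mul_div_cancel_left₀ _ hpne, map_mul]
  exact mul_le_of_le_one_left' hlt.le

end Scalars

section Main

variable {W : WeierstrassCurve ℤ} {p : ℕ} [Fact p.Prime] {N : ℕ} [NeZero N]

variable {A : ValuationSubring QBar} (hA : A.LiesOverPrime p) (hp2 : p ≠ 2)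
  (hgood : W.IsGoodPrimeFor p) (hirr : W.ModRepIsIrreducible p)
  (hmod : W.IsResiduallyModularOfLevel p (p * N))

include hA hp2 hgood hirr hmod in
/-- The supersingular case. -/
theorem lower_of_supersingular_gen
    (hall : ∀ x : PointQBar W, (p : ℤ) • x = 0 → InE1 A x) (hpN : ¬ p ∣ N) :
    W.IsResiduallyModularOfLevel p N := by
  by_contra hN
  have hp : p.Prime := Fact.out
  have hΔ := Δ_ne_zero_of_good hgood
  have : CharP (Res A) p := Arith.residueField_charP hA hp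
  obtain ⟨ι, hι, hιg, hιe⟩ := MazurP.exists_eigen_embedding (N := p * N) hΔ hp2 hirr hmod
  have : Nontrivial (residualRep W p hΔ).V :=
    Module.nontrivial_of_finrank_eq_succ (R := ZMod p) (residualRep W p hΔ).finrank_eq
  obtain ⟨v, hv⟩ := exists_ne (0 : (residualRep W p hΔ).V)
  obtain ⟨τ, hτ, hτv⟩ := exists_inertia_smul_ne hA hp2 hgood hall
    ((Submodule.mem_torsionBy_iff _ _).mp v.2) (fun h => hv (Subtype.ext h))
  set w := (residualRep W p hΔ).ρ τ v - v with hw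
  have hw0 : w ≠ 0 := fun h => hτv 1 (by
    rw [one_zsmul]; exact congrArg Subtype.val (sub_eq_zero.mp h))
  have hxm : ι w ∈ OrdinaryAtP.movedGroup A (p * N) p := by
    refine AddSubgroup.subset_closure ⟨τ, hτ, ι v, 1, ?_, ?_⟩
    · rw [pow_one]; exact (hιe v).1
    · rw [hw, map_sub, hιg]
  have hflat := isFlatClass_of_moved (hpM := hpN) hA hxm (hιe w).1
  have hn : ∀ (g : FB (p * N)) (hg : g ≠ 0)
      (hd : ∀ v : Place QBar (FB (p * N)), (p : ℤ) ∣ v.ord g), cls p hg hd = ι w →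
        (∃ G : FB N, G ≠ 0 ∧ normUp p N g = G ^ p) ∧
          ∃ G : FB N, G ≠ 0 ∧ normUp p N (wEquiv p N hpN g) = G ^ p := fun g hg hd hx => by
    refine (norms_or_modular hpN hg hd ?_).resolve_right hN
    rw [hx]
    exact fun l hl hG => (hιe w).2 l hl ⟨⟨hG.1, hG.2.1⟩, hG.2.2⟩
  obtain ⟨σ, hσ, hσw⟩ := exists_inertia_smul_ne hA hp2 hgood hall
    ((Submodule.mem_torsionBy_iff _ _).mp w.2) (fun h => hw0 (Subtype.ext h))
  have : NeZero p := ⟨hp.ne_zero⟩
  obtain ⟨k, hk⟩ := exists_smul_eq_of_flat hA hpN hflat hn hσ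
  rw [← hιg, ← map_nsmul] at hk
  refine hσw k ?_
  rw [natCast_zsmul]
  exact congrArg Subtype.val (hι hk)

end Main

end Fermat.Agent.RT.Lift.LowerPGen

end
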