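import Fermat.Agent.RT.Lift.LowerPGen.Descent
import Fermat.Agent.RT.Lift.LowerPGen.Supersingular

/-!
# Lowering at `p` to the level `M / p`, from three inputs

With the supersingular case and the descent of the orders in place, the inputs are the flat half,
the regular differentials modulo `p` and the wild places (`RT.Lift.LowerPGen.Main` proves them).
-/

set_option autoImplicit false
set_option synthInstance.maxHeartbeats 400000
set_option maxHeartbeats 1000000

noncomputable section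

namespace Fermat.Agent.RT.Lift.LowerPGen

open WeierstrassCurve Fermat.Agent.Semistable
open Arith (QBar)

variable {p N : ℕ} [Fact p.Prime] [NeZero N]

/-- The supersingular input holds. -/
theorem supersingularInput (hp2 : p ≠ 2) (hpN : ¬ p ∣ N) : SupersingularInput p N :=
  fun _ _ hA hgood hirr hmod hall => lower_of_supersingular_gen hA hp2 hgood hirr hmod hall hpN

/-- The three inputs at level `N`. -/
structure RemainingInputs (p N : ℕ) [Fact p.Prime] [NeZero N] (hpN : ¬ p ∣ N) : Prop where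
  ord : OrdinaryInput p N hpN
  reg : ∀ A : ValuationSubring QBar, A.LiesOverPrime p → DlogRegularInput A p N
  wild : ∀ A : ValuationSubring QBar, A.LiesOverPrime p → WildInput A p N hpN

theorem RemainingInputs.dichotomy {hpN : ¬ p ∣ N} (h : RemainingInputs p N hpN) (hp2 : p ≠ 2)
    (A : ValuationSubring QBar) (hA : A.LiesOverPrime p) : DichotomyInput A p N hpN :=
  dichotomyInput_of_inputs hA hp2 hpN (h.reg A hA) (descentInput hA hp2 hpN) (h.wild A hA)

/-- `M = p (M / p)` with `M / p` positive and prime to `p`. -/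
theorem div_facts {p M : ℕ} (_hp : p.Prime) (hM : 0 < M) (hpM : p ∣ M) (hp2M : ¬ p ^ 2 ∣ M) :
    p * (M / p) = M ∧ M / p ≠ 0 ∧ ¬ p ∣ M / p := by
  have e : p * (M / p) = M := Nat.mul_div_cancel' hpM
  refine ⟨e, fun h => ?_, fun h => hp2M ?_⟩
  · rw [h, mul_zero] at e; omega
  · rw [← e, pow_two]; exact mul_dvd_mul_left p h

variable {W : WeierstrassCurve ℤ}

/-- Lowering at a good `p` to the level `M / p`. -/
theorem lower_good_of_remaining {p : ℕ} (hp : p.Prime) (hp2 : p ≠ 2) (hgood : W.IsGoodPrimeFor p)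
    (hirr : W.ModRepIsIrreducible p) {M : ℕ} (hM : 0 < M) (hpM : p ∣ M) (hp2M : ¬ p ^ 2 ∣ M)
    (hinp : ∀ (N : ℕ) [Fact p.Prime] [NeZero N] (hpN : ¬ p ∣ N), RemainingInputs p N hpN)
    (hmod : W.IsResiduallyModularOfLevel p M) : W.IsResiduallyModularOfLevel p (M / p) := by
  obtain ⟨e, h0, hpN⟩ := div_facts hp hM hpM hp2M
  have : Fact p.Prime := ⟨hp⟩
  have : NeZero (M / p) := ⟨h0⟩
  rw [← e] at hmod
  exact isResiduallyModular_lower_good_of_inputs hp2 hpN (supersingularInput hp2 hpN)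
    (hinp _ hpN).ord ((hinp _ hpN).dichotomy hp2) hgood hirr hmod

/-- Lowering at a peu ramifié `p` to the level `M / p`. -/
theorem lower_peu_of_remaining {p : ℕ} (hp : p.Prime) (hp2 : p ≠ 2) (hΔ : W.Δ ≠ 0)
    (hsemi : (p : ℤ) ∣ W.Δ → ¬ (p : ℤ) ∣ W.c₄) (hirr : W.ModRepIsIrreducible p)
    (hfin : (W.map (Int.castRingHom ℚ)).IsPeuRamifieeAt p p)
    {M : ℕ} (hM : 0 < M) (hpM : p ∣ M) (hp2M : ¬ p ^ 2 ∣ M)
    (hinp : ∀ (N : ℕ) [Fact p.Prime] [NeZero N] (hpN : ¬ p ∣ N), RemainingInputs p N hpN)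
    (hmod : W.IsResiduallyModularOfLevel p M) : W.IsResiduallyModularOfLevel p (M / p) := by
  by_cases hdvd : (p : ℤ) ∣ W.Δ
  · obtain ⟨e, h0, hpN⟩ := div_facts hp hM hpM hp2M
    have : Fact p.Prime := ⟨hp⟩
    have : NeZero (M / p) := ⟨h0⟩
    rw [← e] at hmod
    exact isResiduallyModular_lower_mult_of_inputs hp2 hpN (hinp _ hpN).ord
      ((hinp _ hpN).dichotomy hp2) hΔ hdvd (hsemi hdvd) hfin hirr hmod
  · exact lower_good_of_remaining hp hp2 hdvd hirr hM hpM hp2M hinp hmod

end Fermat.Agent.RT.Lift.LowerPGen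

end
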