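import Fermat.Agent.RT.MazurP.Classes
import Fermat.Agent.RT.MazurP.Up
import Fermat.Agent.RT.Mazur.OrdersBasic
import Fermat.Agent.NewformLocal.Toric.NormRed
import Fermat.Agent.Genus.Counts

/-!
# Pullback from level `p M` to level `p (4 M)` is injective on classes

The degree is `4` or `6`. Where `p` is prime to it one takes norms. The remaining step is cubic: a
function of level `N`, odd, with orders divisible by `3` and a cube at level `2 N` is a cube at
level `N`, since otherwise every place of level `N` would have three places above it, while there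
are only twice as many cusps.
-/

set_option autoImplicit false
set_option synthInstance.maxHeartbeats 400000
set_option maxHeartbeats 800000
set_option linter.style.haveILetI false
set_option linter.unusedSectionVars false

noncomputable section

namespace Fermat.Agent.RT.Lift.LowerPGen

open AlgebraicCurve ModularCurve Fermat.Agent.Semistable Fermat.Agent.RT.MazurP
open Arith (QBar GQ)
open scoped IntermediateField

/-! ### Descending a power along a map of degree prime to the exponent -/

section General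

variable {K F F' : Type*} [Field K] [Field F] [Field F'] [Algebra K F] [Algebra K F']

/-- A function which becomes a constant times an `n`-th power after a finite map of degree prime
to `n` is one already. -/
theorem exists_pow_of_along (φ : F →ₐ[K] F') {n : ℕ}
    (hfin : letI := algebraAlong φ; Module.Finite F F')
    (hn : Nat.Coprime (finrankAlong K φ) n) {f : F} (hf : f ≠ 0)
    (h : ∃ c g, g ≠ 0 ∧ φ f = algebraMap K F' c * g ^ n) :
    ∃ c g, g ≠ 0 ∧ f = algebraMap K F c * g ^ n := by
  obtain ⟨c, g, hg, e⟩ := h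
  letI := algebraAlong φ
  haveI := isScalarTower_along φ
  haveI : Module.Finite F F' := hfin
  set d := Module.finrank F F' with hd
  set G := Algebra.norm F g with hG
  have hG0 : G ≠ 0 := Algebra.norm_ne_zero_iff.mpr hg
  have e' : f ^ d = algebraMap K F c ^ d * G ^ n := by
    have h1 := congrArg (Algebra.norm F) e
    rw [show φ f = algebraMap F F' f from rfl, Algebra.norm_algebraMap, map_mul, map_pow,
      IsScalarTower.algebraMap_apply K F F', Algebra.norm_algebraMap] at h1
    exact h1
  obtain ⟨x, y, hxy⟩ := (Int.isCoprime_iff_nat_coprime.mpr (by rw [Int.natAbs_natCast, Int.natAbs_natCast]; exact hn) :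
    IsCoprime (d : ℤ) (n : ℤ))
  refine ⟨c ^ ((d : ℤ) * x), G ^ x * f ^ y, mul_ne_zero (zpow_ne_zero _ hG0) (zpow_ne_zero _ hf), ?_⟩
  calc f = f ^ ((x * (d : ℤ)) + y * (n : ℤ)) := by rw [hxy, zpow_one]
    _ = (f ^ d) ^ x * (f ^ y) ^ n := by
      rw [zpow_add₀ hf, ← zpow_natCast f d, ← zpow_mul, mul_comm x (d : ℤ),
        ← zpow_natCast (f ^ y) n, ← zpow_mul]
    _ = _ := by
      rw [e', mul_zpow, ← zpow_natCast (algebraMap K F c) d, ← zpow_mul, ← map_zpow₀,
        mul_pow, ← zpow_natCast (G ^ x) n, ← zpow_natCast G n, ← zpow_mul, ← zpow_mul,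
        mul_comm x (n : ℤ), mul_assoc]

/-- The norm of `u - b` for a cube root `u` in a cubic extension. -/
theorem norm_cubeRoot_sub [Algebra F F'] [FiniteDimensional F F'] (h3 : Module.finrank F F' = 3)
    {u : F'} {U : F} (hu : u ^ 3 = algebraMap F F' U) (hnot : ∀ y : F, algebraMap F F' y ≠ u)
    (b : F) : Algebra.norm F (u - algebraMap F F' b) = U - b ^ 3 := by
  classical
  set x := u - algebraMap F F' b with hx
  have hint : IsIntegral F x := IsIntegral.of_finite F x
  have hx' : ∀ y : F, algebraMap F F' y ≠ x := fun y hy =>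
    hnot (y + b) (by rw [map_add, hy, hx, sub_add_cancel])
  have hdeg : (minpoly F x).natDegree = 3 := by
    rcases (Nat.dvd_prime Nat.prime_three).mp (h3 ▸ minpoly.degree_dvd hint) with h1 | h1
    · obtain ⟨y, hy⟩ := minpoly.natDegree_eq_one_iff.mp h1
      exact absurd hy (hx' y)
    · exact h1
  have hmin : minpoly F x = (Polynomial.X + Polynomial.C b) ^ 3 - Polynomial.C U := by
    have hmon : ((Polynomial.X + Polynomial.C b) ^ 3 - Polynomial.C U).Monic :=
      ((Polynomial.monic_X_add_C b).pow 3).sub_of_left (lt_of_le_of_lt Polynomial.degree_C_le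
        (by rw [Polynomial.degree_pow, Polynomial.degree_X_add_C]; decide))
    refine (Polynomial.eq_of_monic_of_dvd_of_natDegree_le (minpoly.monic hint) hmon
      (minpoly.dvd F x ?_) ?_).symm
    · simp [hx, hu]
    · rw [hdeg]
      exact (Polynomial.natDegree_sub_le _ _).trans (max_le (Polynomial.natDegree_pow_le.trans
        (by simp)) (by simp))
  have htop : Module.finrank F⟮x⟯ F' = 1 := by
    have h := Module.finrank_mul_finrank F F⟮x⟯ F'
    rw [IntermediateField.adjoin.finrank hint, hdeg, h3] at h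
    omega
  rw [Algebra.norm_eq_norm_adjoin F x, htop, pow_one,
    ← IntermediateField.adjoin.powerBasis_gen hint,
    Algebra.PowerBasis.norm_gen_eq_coeff_zero_minpoly,
    IntermediateField.adjoin.powerBasis_dim, hdeg, IntermediateField.adjoin.powerBasis_gen,
    IntermediateField.minpoly_gen, hmin, Polynomial.coeff_zero_eq_eval_zero]
  simp
  ring

variable [IsAlgClosed K] [CharZero K] [FF.IsFunctionField K F] [FF.IsFunctionField K F']

/-- In a cubic extension generated by a cube root of a function with orders divisible by `3`, every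
place has three places above it. -/
theorem three_le_card_fiber (φ : F →ₐ[K] F') (hd : finrankAlong K φ = 3) {f : F} (hf : f ≠ 0)
    (hdvd : ∀ v : Place K F, (3 : ℤ) ∣ v.ord f) {g : F'} (hg : g ^ 3 = φ f)
    (hnot : ∀ y : F, φ y ≠ g) (v : Place K F) :
    3 ≤ (Place.fiberAlong φ (FF.isIntegralAlong φ) v).card := by
  classical
  have hφ := FF.isIntegralAlong φ
  obtain ⟨m, hm⟩ := hdvd v
  obtain ⟨t, ht, hvt⟩ := FF.exists_ord_eq v m
  set U : F := f / t ^ 3 with hU
  have hU0 : U ≠ 0 := div_ne_zero hf (pow_ne_zero 3 ht)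
  have hvU : v.ord U = 0 := by
    rw [hU, div_eq_mul_inv, v.ord_mul hf (inv_ne_zero (pow_ne_zero 3 ht)), v.ord_inv, FF.ord_pow,
      hvt, hm]
    push_cast; ring
  obtain ⟨w, hw⟩ := RedTorsion.exists_sub_mem_ordGe_one (P := v) (f := U) (FF.mem_ordGe_of_le v hvU.ge)
  have hw0 : w ≠ 0 := by
    rintro rfl
    rw [map_zero, sub_zero] at hw
    have := FF.le_ord_of_mem_ordGe v hU0 hw
    omega
  set u : F' := g / φ t with hu_def
  have hu : u ^ 3 = φ U := by rw [hu_def, div_pow, hg, hU, map_div₀, map_pow]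
  have hunot : ∀ y : F, φ y ≠ u := fun y hy => hnot (y * t) (by
    rw [map_mul, hy, hu_def, div_mul_cancel₀]; exact (map_ne_zero φ).mpr ht)
  have : NeZero ((3 : ℕ) : K) := ⟨Nat.cast_ne_zero.mpr (by norm_num)⟩
  obtain ⟨ζ, hζ⟩ := HasEnoughRootsOfUnity.exists_primitiveRoot K 3
  obtain ⟨b₀, hb₀⟩ := IsAlgClosed.exists_pow_nat_eq w (by norm_num : 0 < 3)
  have hb0 : b₀ ≠ 0 := by
    rintro rfl
    exact hw0 (by rw [← hb₀, zero_pow (by norm_num)])
  have hpick : ∀ i : Fin 3, ∃ P ∈ Place.fiberAlong φ hφ v,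
      0 < P.ord (u - algebraMap K F' (ζ ^ (i : ℕ) * b₀)) := fun i => by
    set b := ζ ^ (i : ℕ) * b₀
    have hx0 : u - algebraMap K F' b ≠ 0 := fun h => hunot (algebraMap K F b) (by
      rw [φ.commutes, ← sub_eq_zero.mp h])
    by_contra hnone
    push Not at hnone
    have hpos : 0 < v.ord (letI := algebraAlong φ; Algebra.norm F (u - algebraMap K F' b)) := by
      letI := algebraAlong φ
      haveI := isScalarTower_along φ
      haveI : Module.Finite F F' := FF.finiteAlong φ
      rw [IsScalarTower.algebraMap_apply K F F', norm_cubeRoot_sub hd hu hunot,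
        ← map_pow, show b ^ 3 = w by
          rw [mul_pow, ← pow_mul, mul_comm (i : ℕ) 3, pow_mul, hζ.pow_eq_one, one_pow, one_mul,
            hb₀]]
      refine lt_of_lt_of_le one_pos (FF.le_ord_of_mem_ordGe v ?_ hw)
      intro h
      have hu' : u ^ 3 = algebraMap K F' b₀ ^ 3 := by
        rw [hu, sub_eq_zero.mp h, φ.commutes, ← map_pow, hb₀]
      have hb0' : algebraMap K F' b₀ ≠ 0 := (map_ne_zero _).mpr hb0
      obtain ⟨j, -, hj⟩ := (hζ.map_of_injective (algebraMap K F').injective).eq_pow_of_pow_eq_one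
        (ξ := u / algebraMap K F' b₀) (by rw [div_pow, hu', div_self (pow_ne_zero 3 hb0')])
      exact hunot (algebraMap K F (ζ ^ j * b₀)) (by
        rw [φ.commutes, map_mul, map_pow, hj, div_mul_cancel₀ _ hb0'])
    rw [FF.ord_norm_along φ hφ v hx0] at hpos
    exact absurd hpos (not_lt.mpr (Finset.sum_nonpos fun P hP =>
      mul_nonpos_of_nonpos_of_nonneg (hnone P hP) (Int.natCast_nonneg _)))
  choose P hP hPpos using hpick
  have hinj : Function.Injective P := by
    intro i k hik
    by_contra hne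
    have hne' : ζ ^ (k : ℕ) * b₀ - ζ ^ (i : ℕ) * b₀ ≠ 0 := fun h => by
      have h' := mul_right_cancel₀ hb0 (sub_eq_zero.mp h)
      exact hne (Fin.ext (hζ.pow_inj k.2 i.2 h').symm)
    have hne'' : algebraMap K F' (ζ ^ (k : ℕ) * b₀ - ζ ^ (i : ℕ) * b₀) ≠ 0 :=
      (map_ne_zero _).mpr hne'
    have h1 := FF.mem_ordGe_of_le (n := 1) (P i) (hPpos i)
    have h2 := FF.mem_ordGe_of_le (n := 1) (P i) (hik ▸ hPpos k)
    have h3 := FF.le_ord_of_mem_ordGe (P i) hne'' (by
      rw [map_sub, ← sub_sub_sub_cancel_left _ _ u]; exact sub_mem h1 h2)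
    rw [FF.ord_algebraMap] at h3
    omega
  calc 3 = (Finset.univ.image P).card := by
        rw [Finset.card_image_of_injective _ hinj, Finset.card_univ, Fintype.card_fin]
    _ ≤ _ := Finset.card_le_card fun Q hQ => by
        obtain ⟨i, -, rfl⟩ := Finset.mem_image.mp hQ
        exact hP i

end General

/-! ### The cubic step and the pullback -/

theorem cuspCount_pos (N : ℕ) [NeZero N] : 0 < cuspCount N := by
  rw [← Genus.card_zeros_inv, Finset.card_pos]
  obtain ⟨v, hv⟩ := FF.exists_ord_neg_of_transcendental (ModFun.transcendental_jBase N QBar)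
  exact ⟨v, Genus.mem_zerosFin N |>.mpr (by
    rw [Place.ord_inv]; change 0 < -v.ord (ModFun.jBase N QBar); omega)⟩

/-- The cubic step. -/
theorem exists_eq_of_cube_upF {N : ℕ} [NeZero N] (hN : ¬ 2 ∣ N) {f : FB N} (hf : f ≠ 0)
    (hdvd : ∀ v : Place QBar (FB N), (3 : ℤ) ∣ v.ord f) {g : FB (2 * N)}
    (hg : g ^ 3 = upF N 2 f) : ∃ y : FB N, upF N 2 y = g := by
  classical
  by_contra hnot
  push Not at hnot
  have hd : finrankAlong QBar (upF N 2) = 3 := NewformLocal.Toric.finrankAlong_upF 2 N hN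
  have hj : upF N 2 (Genus.jB N) = Genus.jB (2 * N) := Subtype.ext (by
    rw [coe_upF, ModFun.coe_jBase, ModFun.coe_jBase])
  have hφ := FF.isIntegralAlong (upF N 2)
  set S := Genus.zerosFin N (Genus.jB N)⁻¹ with hS
  have hsub : S.biUnion (fun v => Place.fiberAlong (upF N 2) hφ v) ⊆
      Genus.zerosFin (2 * N) (Genus.jB (2 * N))⁻¹ := fun Q hQ => by
    obtain ⟨v, hv, hQv⟩ := Finset.mem_biUnion.mp hQ
    rw [Genus.mem_zerosFin] at hv ⊢
    rw [← hj, ← map_inv₀, Place.ord_restrictAlong (upF N 2) hφ Q, Place.mem_fiberAlong.mp hQv]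
    refine mul_pos (Int.natCast_pos.mpr ?_) hv
    letI := algebraAlong (upF N 2)
    haveI := isScalarTower_along (upF N 2)
    haveI : Module.Finite (FB N) (FB (2 * N)) := FF.finiteAlong (upF N 2)
    exact Q.ramificationIndex_pos (F := FB N)
  have h1 : 3 * S.card ≤ (S.biUnion fun v => Place.fiberAlong (upF N 2) hφ v).card := by
    rw [Finset.card_biUnion]
    · calc 3 * S.card = ∑ v ∈ S, 3 := by simp [mul_comm]
        _ ≤ _ := Finset.sum_le_sum fun v _ => three_le_card_fiber _ hd hf hdvd hg hnot v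
    · intro v _ v' _ hvv'
      exact Finset.disjoint_left.mpr fun Q h h' =>
        hvv' ((Place.mem_fiberAlong.mp h).symm.trans (Place.mem_fiberAlong.mp h'))
  have h2 := h1.trans (Finset.card_le_card hsub)
  rw [hS, Genus.card_zeros_inv, Genus.card_zeros_inv,
    Mazur.cuspCount_prime_mul Nat.prime_two hN] at h2
  have := cuspCount_pos N
  omega

variable (p M : ℕ) [Fact p.Prime] [NeZero M]

theorem fb_two_le_four : FB (2 * (p * M)) ≤ FB (p * (4 * M)) := by
  rw [fb_eq_adjoin (2 * (p * M)), IntermediateField.adjoin_le_iff]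
  rintro _ ⟨d, rfl⟩
  exact gen_mem (p * (4 * M)) ⟨d.1, d.2.trans ⟨2, by ring⟩⟩

/-- The inclusion of level `2 p M` in level `p (4 M)`. -/
def upTwo : FB (2 * (p * M)) →ₐ[QBar] FB (p * (4 * M)) :=
  IntermediateField.inclusion (fb_two_le_four p M)

theorem upTwo_upF (x : FB (p * M)) : upTwo p M (upF (p * M) 2 x) = upInc p M x :=
  Subtype.ext (by
    rw [coe_upInc, upTwo, IntermediateField.coe_inclusion, coe_upF])

/-- Degrees of maps fixing `j` multiply the index. -/
theorem finrankAlong_mul_psi {a b : ℕ} [NeZero a] [NeZero b] (φ : FB a →ₐ[QBar] FB b)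
    (hφ : φ (ModFun.jBase a QBar) = ModFun.jBase b QBar) :
    dedekindPsi a * finrankAlong QBar φ = dedekindPsi b := by
  letI := algebraAlong φ
  haveI := isScalarTower_along φ
  haveI : Module.Finite (FB a) (FB b) := FF.finiteAlong φ
  have h := (FF.finite_and_finrank_adjoin_algebraMap (F' := FB b)
    (ModFun.transcendental_jBase a QBar)).2
  rw [show algebraMap (FB a) (FB b) (ModFun.jBase a QBar) = ModFun.jBase b QBar from hφ,
    (ModFun.finrank_baseChange b QBar).2, (ModFun.finrank_baseChange a QBar).2] at h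
  exact h.symm

theorem finrankAlong_upTwo : finrankAlong QBar (upTwo p M) = 2 := by
  have h := finrankAlong_mul_psi (upTwo p M) (Subtype.ext (by
    rw [upTwo, IntermediateField.coe_inclusion, ModFun.coe_jBase, ModFun.coe_jBase]))
  rw [show dedekindPsi (p * (4 * M)) = dedekindPsi (2 * (p * M)) * 2 by
    rw [show p * (4 * M) = 2 * (2 * (p * M)) by ring,
      Gamma0.dedekindPsi_mul_of_dvd Nat.prime_two (dvd_mul_right 2 _), mul_comm]] at h
  exact mul_left_cancel₀ (dedekindPsi_pos (2 * (p * M))).ne' h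

theorem finrankAlong_upInc_even (h2 : 2 ∣ p * M) : finrankAlong QBar (upInc p M) = 4 := by
  have h := finrankAlong_mul_psi (upInc p M) (Subtype.ext (by
    rw [coe_upInc, ModFun.coe_jBase, ModFun.coe_jBase]))
  rw [show dedekindPsi (p * (4 * M)) = dedekindPsi (p * M) * 4 by
    rw [show p * (4 * M) = 2 * (2 * (p * M)) by ring,
      Gamma0.dedekindPsi_mul_of_dvd Nat.prime_two (dvd_mul_right 2 _),
      Gamma0.dedekindPsi_mul_of_dvd Nat.prime_two h2]; ring] at h
  exact mul_left_cancel₀ (dedekindPsi_pos (p * M)).ne' h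

/-- A function with orders divisible by `p ≥ 3` which becomes a constant times a `p`-th power after
pullback is one already. -/
theorem exists_pow_of_upInc_gen (hp3 : 3 ≤ p) {f : FB (p * M)} (hf : f ≠ 0)
    (hdvd : ∀ v : Place QBar (FB (p * M)), (p : ℤ) ∣ v.ord f)
    (h : ∃ c g, g ≠ 0 ∧ upInc p M f = algebraMap QBar (FB (p * (4 * M))) c * g ^ p) :
    ∃ c g, g ≠ 0 ∧ f = algebraMap QBar (FB (p * M)) c * g ^ p := by
  have hp : p.Prime := Fact.out
  rcases Nat.lt_or_ge p 5 with hlt | hp5
  swap
  · exact exists_pow_of_upInc p M hp5 hf h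
  obtain rfl : p = 3 := by
    rcases (show p = 3 ∨ p = 4 by omega) with h | rfl
    · exact h
    · exact absurd hp (by decide)
  by_cases h2 : 2 ∣ 3 * M
  · refine exists_pow_of_along (upInc 3 M) (FF.finiteAlong _) ?_ hf h
    rw [finrankAlong_upInc_even 3 M h2]; decide
  obtain ⟨c, g, hg, e⟩ := h
  rw [← upTwo_upF] at e
  obtain ⟨c', g', hg', e'⟩ := exists_pow_of_along (upTwo 3 M) (FF.finiteAlong _)
    (by rw [finrankAlong_upTwo 3 M]; decide) ((map_ne_zero _).mpr hf) ⟨c, g, hg, e⟩
  obtain ⟨d, hd⟩ := IsAlgClosed.exists_pow_nat_eq c' (by norm_num : 0 < 3)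
  obtain ⟨y, hy⟩ := exists_eq_of_cube_upF h2 hf hdvd
    (g := algebraMap QBar _ d * g') (by rw [mul_pow, ← map_pow, hd, ← e'])
  refine ⟨1, y, ?_, ?_⟩
  · rintro rfl
    rw [map_zero, eq_comm, mul_eq_zero, map_eq_zero] at hy
    rcases hy with hy | hy
    · rw [← hd, hy, zero_pow (by norm_num), map_zero, zero_mul] at e'
      exact hf ((map_eq_zero _).mp e')
    · exact hg' hy
  · rw [map_one, one_mul]
    refine (upF (3 * M) 2).injective ?_
    show upF (3 * M) 2 f = upF (3 * M) 2 (y ^ 3)
    rw [map_pow, hy, mul_pow, ← map_pow, hd, e']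

/-- Pullback is injective on classes. -/
theorem cls_upInc_ne_zero_gen (hp3 : 3 ≤ p) {f : FB (p * M)} (hf : f ≠ 0)
    (hdvd : ∀ v : Place QBar (FB (p * M)), (p : ℤ) ∣ v.ord f) (hne : cls p hf hdvd ≠ 0) :
    cls p ((map_ne_zero (upInc p M)).mpr hf) (dvd_ord_upInc p M hdvd) ≠ 0 := by
  intro h
  obtain ⟨g, hg, e⟩ := (cls_eq_zero_iff _ _).mp h
  obtain ⟨c, g', hg', e'⟩ := exists_pow_of_upInc_gen p M hp3 hf hdvd
    ⟨1, g, hg, by rw [e, map_one, one_mul]⟩
  obtain ⟨d, hd⟩ := IsAlgClosed.exists_pow_nat_eq c (Fact.out : p.Prime).pos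
  refine hne ((cls_eq_zero_iff _ _).mpr ⟨algebraMap QBar (FB (p * M)) d * g', ?_, ?_⟩)
  · refine mul_ne_zero ((map_ne_zero _).mpr fun h0 => hf ?_) hg'
    rw [e', ← hd, h0, zero_pow (Fact.out : p.Prime).ne_zero, map_zero, zero_mul]
  · rw [mul_pow, ← map_pow, hd, e']

end Fermat.Agent.RT.Lift.LowerPGen

end
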