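import Fermat.Agent.RT.Lift.LowerPGen.Inputs
import Fermat.Agent.RT.Lift.LowerPGen.UpInj
import Fermat.Agent.RT.MazurP.Flat

/-!
# Ordinary classes of level `p N`, any level `N` prime to `p ≥ 3`

The eigen classes of level `p N` become classes of level `p (4 N)`, still not zero. There the
orders of the reductions are divisible by `p`, and either both reductions are `p`-th powers, so the
classes are flat, which is impossible, or a form of level `N` carries the eigenvalues. Hecke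
operators are used upstairs only at one prime not dividing `p (4 N)`.
-/

set_option autoImplicit false
set_option synthInstance.maxHeartbeats 400000
set_option maxHeartbeats 1000000
set_option linter.unusedSectionVars false

noncomputable section

namespace Fermat.Agent.RT.Lift.LowerPGen

open ModularCurve AlgebraicCurve CongruenceSubgroup Fermat.Agent.Semistable Fermat.Agent.Arith
open Fermat.Agent.RT.MazurP

section Flat

variable {A : ValuationSubring QBar} {p M : ℕ} [Fact p.Prime] [NeZero M]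
variable (hA : A.LiesOverPrime p) (hp3 : 3 ≤ p) (hpM : ¬ p ∣ M) (hpM4 : ¬ p ∣ 4 * M)
  (hdic : DichotomyInput A p M hpM)
  (G : ℕ → Prop) (a : ℕ → ℤ) (hG : ∀ l, l.Prime → G l → ¬ l ∣ p * M)
  (hne : ∃ l, l.Prime ∧ G l ∧ ¬ l ∣ p * (4 * M) ∧ ¬ (p : ℤ) ∣ a l - (1 + l))

/-- The eigen relation upstairs at a prime not dividing the level there. -/
theorem isNormEigen_upInc {f : FB (p * M)} (hf : EigenFun p M G a f) {l : ℕ} [NeZero l]
    (hl : l.Prime) (hGl : G l) (hl4 : ¬ l ∣ p * (4 * M)) :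
    IsNormEigen p (4 * M) l (a l) (MazurP.upInc p M f) := by
  obtain ⟨h, hh, e⟩ := hf l hl hGl
  refine ⟨1, MazurP.upInc p M h, one_ne_zero, (map_ne_zero _).mpr hh, ?_⟩
  rw [heckeNorm_upInc p M hl hl4, e, map_mul, map_pow, map_zpow₀, map_one, one_mul]

variable [CharP (Res A) p] [FF.IsFunctionField (Res A) (KM A (4 * M))]

include hA hp3 hdic hG hne in
/-- An eigen class with all orders divisible by `p` is flat upstairs, or there is a congruent form. -/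
theorem flat_or_congr_gen {C : CoefField A p} {f : FB (p * M)} (hf : f ≠ 0)
    (hdvd : ∀ v : Place QBar (FB (p * M)), (p : ℤ) ∣ v.ord f) (hEig : EigenFun p M G a f)
    (K : Kum hpM4 C) (hK : K.f = upInc p M f)
    (hord : ∀ P, (p : ℤ) ∣ K.s₀ P ∧ (p : ℤ) ∣ K.t₀ P)
    (V : VUnit A hpM4) (hV : V.Simple) :
    OrdinaryAtP.IsFlatClass A (4 * M) p hpM4
      (cls p ((map_ne_zero (upInc p M)).mpr hf) (dvd_ord_upInc p M hdvd)) ∨
      CongrForm M p G a := by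
  have hp : p.Prime := Fact.out
  have hM4 : ((4 * M : ℕ) : Res A) ≠ 0 := fun h =>
    hpM4 ((CharP.cast_eq_zero_iff (Res A) p _).mp h)
  have hred : ∀ (s : Fin 2) (z : LaurentSeries (Res A)), IsRed A (iota2 M p hpM s f) z →
      ∃ u : Res A, u ≠ 0 ∧ z = algebraMap (Res A) _ u * (K.fb s : LaurentSeries (Res A)) := by
    intro s z hz
    have h := K.isRed s
    rw [hK, iota2_upInc p M hpM hpM4] at h
    exact h.unique hz
  have hord' : ∀ (s : Fin 2) (z : LaurentSeries (Res A)), IsRed A (iota2 M p hpM s f) z →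
      ∀ (hz : z ∈ KM A (4 * M)) (P : Place (Res A) (KM A (4 * M))), (p : ℤ) ∣ P.ord ⟨z, hz⟩ := by
    intro s z hz hzm P
    obtain ⟨u, hu, e⟩ := hred s z hz
    rw [show (⟨z, hzm⟩ : KM A (4 * M)) = algebraMap (Res A) _ u * K.fb s from Subtype.ext e,
      P.ord_mul ((_root_.map_ne_zero _).mpr hu) (K.fb_ne s), FF.ord_algebraMap, zero_add]
    fin_cases s
    · exact (hord P).1
    · exact (hord P).2
  rcases hdic G a hG (by obtain ⟨l, hl, hGl, -, ha⟩ := hne; exact ⟨l, hl, hGl, ha⟩)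
      hEig hord' with hpow | hform
  · refine Or.inl ?_
    have hz : ∀ s, ∃ z : KM A (4 * M), z ^ p * K.fb s = 1 := by
      intro s
      have h := K.isRed s
      rw [hK, iota2_upInc p M hpM hpM4] at h
      obtain ⟨y, hy⟩ := hpow s _ h
      refine ⟨y⁻¹, ?_⟩
      rw [show K.fb s = y ^ p from Subtype.ext (hy.symm.trans (by push_cast; rfl)), inv_pow,
        inv_mul_cancel₀ (pow_ne_zero _ ?_)]
      rintro rfl
      exact K.fb_ne s (Subtype.ext (hy.symm.trans (by simp [zero_pow hp.ne_zero])))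
    choose z hz using hz
    obtain ⟨c, φ, hc, hφ, -, -, hr⟩ := K.exists_unit hA hM4 V hV z hz
      (K.dvd_δ hA hM4 V hV fun P => (hord P).1)
    rw [hK] at hr
    rw [← cls_const_mul_pow hc ((map_ne_zero (upInc p M)).mpr hf) hφ (dvd_ord_upInc p M hdvd)
      (mul_ne_zero (mul_ne_zero ((map_ne_zero _).mpr hc) ((map_ne_zero _).mpr hf))
        (pow_ne_zero _ hφ))]
    exact isFlatClass_of_unit hpM4 _ _ hr
  · exact Or.inr hform

include hA hp3 hdic hG hne in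
/-- The fixed case. -/
theorem fixed_flat_or_congr_gen
    {x : JZero (p * M)} (hx0 : x ≠ 0) (hxp : p • x = 0) (hxe : IsEigen (p * M) G a x)
    (hxf : ∀ τ ∈ A.inertiaSubgroupIn ℚ, τ • x = x) :
    (∃ y : JZero (p * (4 * M)), y ≠ 0 ∧ p • y = 0 ∧ OrdinaryAtP.IsFlatClass A (4 * M) p hpM4 y ∧
      ∀ τ ∈ A.inertiaSubgroupIn ℚ, τ • y = y) ∨ CongrForm M p G a := by
  have hp : p.Prime := Fact.out
  have hM4 : ((4 * M : ℕ) : Res A) ≠ 0 := fun h =>
    hpM4 ((CharP.cast_eq_zero_iff (Res A) p _).mp h)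
  obtain ⟨f, hf, hdvd, rfl, -, hfix⟩ := exists_cls_fixed (A.inertiaSubgroupIn ℚ) hxp hxf
  have hfix' : ∀ τ ∈ (unramField (p := p) hA).H,
      galF (p * (4 * M)) τ (upInc p M f) = upInc p M f := fun τ hτ => by
    rw [galF_upInc, hfix τ hτ]
  obtain ⟨V⟩ := exists_vUnit hA hM4 hpM4
  have hV := V.simple hA hM4 (dvd_mul_right 4 M)
  obtain ⟨K, hK⟩ := Kum.exists_of (hpM := hpM4) hA hM4 ((map_ne_zero (upInc p M)).mpr hf)
    (dvd_ord_upInc p M hdvd) hfix'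
  have hEig := eigenFun_of_cls G a hf hdvd hxe
  obtain ⟨l, hl, hGl, hl4, ha⟩ := id hne
  have : NeZero l := ⟨hl.ne_zero⟩
  have hord := K.dvd_ord_of_unramified (unramField_e hA) hA hM4 V hV hl hl4 ha
    (hK ▸ isNormEigen_upInc G a hEig hl hGl hl4)
  refine (flat_or_congr_gen hA hp3 hpM hpM4 hdic G a hG hne hf hdvd hEig K hK hord V hV).imp_left fun hflat => ?_
  refine ⟨_, cls_upInc_ne_zero_gen p M hp3 hf hdvd hx0, nsmul_cls _ _, hflat, fun τ hτ => ?_⟩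
  rw [smul_cls]
  exact cls_congr (hfix' τ hτ) _ _ _ _

include hA hp3 hdic hG hne in
/-- The wild case. -/
theorem wild_flat_or_congr_gen
    (W : Wild A p) {x₁ x₀ : JZero (p * M)} (hx0 : x₀ ≠ 0) (hp₁ : p • x₁ = 0) (hp₀ : p • x₀ = 0)
    (he₁ : IsEigen (p * M) G a x₁) (he₀ : IsEigen (p * M) G a x₀)
    (hf₁ : ∀ τ ∈ W.C.H, τ • x₁ = x₁) (hf₀ : ∀ τ ∈ W.C₁.H, τ • x₀ = x₀)
    (hσ : W.σ • x₁ = x₁ + x₀)
    (hI : ∀ τ ∈ A.inertiaSubgroupIn ℚ, ∃ n c : ℤ, τ • x₀ = n • x₀ ∧ τ • x₁ = x₁ + c • x₀) :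
    (∃ y₁ y₀ : JZero (p * (4 * M)), y₀ ≠ 0 ∧ p • y₁ = 0 ∧ p • y₀ = 0 ∧
      W.σ • y₁ = y₁ + y₀ ∧ W.σ • y₀ = y₀ ∧
      OrdinaryAtP.IsFlatClass A (4 * M) p hpM4 y₁ ∧ OrdinaryAtP.IsFlatClass A (4 * M) p hpM4 y₀ ∧
      ∀ τ ∈ A.inertiaSubgroupIn ℚ, ∃ n c : ℤ, τ • y₀ = n • y₀ ∧ τ • y₁ = y₁ + c • y₀) ∨
      CongrForm M p G a := by
  classical
  have hp : p.Prime := Fact.out
  have hM4 : ((4 * M : ℕ) : Res A) ≠ 0 := fun h =>
    hpM4 ((CharP.cast_eq_zero_iff (Res A) p _).mp h)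
  obtain ⟨f₁, h₁, d₁, rfl, l₁, fix₁⟩ := exists_cls_fixed W.C.H hp₁ hf₁
  obtain ⟨f₀, h₀, d₀, rfl, l₀, fix₀⟩ := exists_cls_fixed W.C₁.H hp₀ hf₀
  obtain ⟨q, hq, qfix, hrel⟩ := exists_multiplier W.C.H W.normal h₁ h₀ d₁ d₀ l₁ l₀ fix₁
    (fun τ hτ => fix₀ τ (W.le hτ)) hσ
  have hu : ∀ {x : FB (p * M)} (τ : GQ), galF (p * M) τ x = x →
      galF (p * (4 * M)) τ (upInc p M x) = upInc p M x := fun {x} τ h => by rw [galF_upInc, h]
  obtain ⟨V⟩ := exists_vUnit hA hM4 hpM4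
  have hV := V.simple hA hM4 (dvd_mul_right 4 M)
  have hu₁ := (map_ne_zero (upInc p M)).mpr h₁
  have hu₀ := (map_ne_zero (upInc p M)).mpr h₀
  obtain ⟨K, hK⟩ := Kum.exists_of (hpM := hpM4) (C := W.C) hA hM4 hu₁ (dvd_ord_upInc p M d₁)
    fun τ hτ => hu τ (fix₁ τ hτ)
  have hrel' : galF (p * (4 * M)) W.σ K.f =
      algebraMap QBar (FB (p * (4 * M))) 1 * K.f * upInc p M f₀ * upInc p M q ^ p := by
    rw [hK, galF_upInc, hrel, map_mul, map_mul, map_mul, map_pow, AlgHom.commutes]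
  obtain ⟨R, d, φ, hd, hφ, hR⟩ := exists_sigmaRel K hA hM4 V hV one_ne_zero hu₀
    (dvd_ord_upInc p M d₀) (fun τ hτ => hu τ (fix₀ τ hτ)) ((map_ne_zero (upInc p M)).mpr hq)
    (fun τ hτ => hu τ (qfix τ hτ)) hrel'
  have hE₁ := eigenFun_of_cls G a h₁ d₁ he₁
  have hE₀ := eigenFun_of_cls G a h₀ d₀ he₀
  obtain ⟨l, hl, hGl, hl4, ha⟩ := id hne
  have : NeZero l := ⟨hl.ne_zero⟩
  have hord := R.dvd_ord hA hM4 V hV hl hl4 ha
    (hK ▸ isNormEigen_upInc G a hE₁ hl hGl hl4)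
    (hR ▸ (isNormEigen_upInc G a hE₀ hl hGl hl4).mul_const_pow hl hl4 hd hφ)
  refine (flat_or_congr_gen hA hp3 hpM hpM4 hdic G a hG hne h₁ d₁ hE₁ K hK hord V hV).imp_left fun hflat => ?_
  set y₁ := cls p hu₁ (dvd_ord_upInc p M d₁) with hy₁
  set y₀ := cls p hu₀ (dvd_ord_upInc p M d₀) with hy₀
  have hflat₀ : OrdinaryAtP.IsFlatClass A (4 * M) p hpM4 y₀ := by
    have h := isFlatClass_of_unit hpM4 R.f₀_ne R.f₀_dvd R.f₀_red
    rw [cls_congr hR R.f₀_ne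
      (mul_ne_zero (mul_ne_zero ((map_ne_zero _).mpr hd) hu₀) (pow_ne_zero _ hφ)) R.f₀_dvd
      (dvd_ord_const_mul_pow hd hu₀ hφ (dvd_ord_upInc p M d₀))] at h
    rwa [cls_const_mul_pow hd hu₀ hφ] at h
  -- the relations pull back
  have key : ∀ {g g' : FB (p * M)} (hg : g ≠ 0) (hg' : g' ≠ 0)
      (dg : ∀ v : Place QBar (FB (p * M)), (p : ℤ) ∣ v.ord g)
      (dg' : ∀ v : Place QBar (FB (p * M)), (p : ℤ) ∣ v.ord g'), cls p hg dg = cls p hg' dg' →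
      cls p ((map_ne_zero (upInc p M)).mpr hg) (dvd_ord_upInc p M dg) =
        cls p ((map_ne_zero (upInc p M)).mpr hg') (dvd_ord_upInc p M dg') := by
    intro g g' hg hg' dg dg' h
    obtain ⟨r, hr, e⟩ := exists_eq_mul_pow hg hg' dg dg' h
    have e' : upInc p M g =
        algebraMap QBar (FB (p * (4 * M))) 1 * upInc p M g' * upInc p M r ^ p := by
      rw [e, map_mul, map_pow, map_one, one_mul]
    have hg'' := (map_ne_zero (upInc p M)).mpr hg'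
    have hr' := (map_ne_zero (upInc p M)).mpr hr
    rw [cls_congr e' ((map_ne_zero (upInc p M)).mpr hg)
      (mul_ne_zero (mul_ne_zero ((map_ne_zero _).mpr one_ne_zero) hg'') (pow_ne_zero _ hr'))
      (dvd_ord_upInc p M dg)
      (dvd_ord_const_mul_pow one_ne_zero hg'' hr' (dvd_ord_upInc p M dg'))]
    exact cls_const_mul_pow one_ne_zero hg'' hr' _ _
  have hsmul : ∀ (τ : GQ) {g : FB (p * M)} (hg : g ≠ 0)
      (dg : ∀ v : Place QBar (FB (p * M)), (p : ℤ) ∣ v.ord g),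
      τ • cls p ((map_ne_zero (upInc p M)).mpr hg) (dvd_ord_upInc p M dg) =
        cls p ((map_ne_zero (upInc p M)).mpr (galF_ne_zero τ hg))
          (dvd_ord_upInc p M (dvd_ord_galF τ dg)) := fun τ g hg dg => by
    rw [smul_cls]
    exact cls_congr (galF_upInc p M τ g) _ _ _ _
  have hlin : ∀ (τ : GQ) {g : FB (p * M)} (hg : g ≠ 0)
      (dg : ∀ v : Place QBar (FB (p * M)), (p : ℤ) ∣ v.ord g) (i j : ℤ),
      τ • cls p hg dg = i • cls p h₁ d₁ + j • cls p h₀ d₀ →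
      τ • cls p ((map_ne_zero (upInc p M)).mpr hg) (dvd_ord_upInc p M dg) = i • y₁ + j • y₀ := by
    intro τ g hg dg i j h
    have di : ∀ v : Place QBar (FB (p * M)), (p : ℤ) ∣ v.ord (f₁ ^ i) := fun v => by
      rw [v.ord_zpow]; exact dvd_mul_of_dvd_right (d₁ v) _
    have dj : ∀ v : Place QBar (FB (p * M)), (p : ℤ) ∣ v.ord (f₀ ^ j) := fun v => by
      rw [v.ord_zpow]; exact dvd_mul_of_dvd_right (d₀ v) _
    have dij : ∀ v : Place QBar (FB (p * M)), (p : ℤ) ∣ v.ord (f₁ ^ i * f₀ ^ j) := fun v => by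
      rw [v.ord_mul (zpow_ne_zero _ h₁) (zpow_ne_zero _ h₀)]; exact dvd_add (di v) (dj v)
    rw [smul_cls, ← cls_zpow h₁ d₁ i di, ← cls_zpow h₀ d₀ j dj,
      ← cls_mul (zpow_ne_zero _ h₁) (zpow_ne_zero _ h₀) di dj dij] at h
    have ui : ∀ v : Place QBar (FB (p * (4 * M))), (p : ℤ) ∣ v.ord (upInc p M f₁ ^ i) := fun v => by
      rw [v.ord_zpow]; exact dvd_mul_of_dvd_right (dvd_ord_upInc p M d₁ v) _
    have uj : ∀ v : Place QBar (FB (p * (4 * M))), (p : ℤ) ∣ v.ord (upInc p M f₀ ^ j) := fun v => by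
      rw [v.ord_zpow]; exact dvd_mul_of_dvd_right (dvd_ord_upInc p M d₀ v) _
    have uij : ∀ v : Place QBar (FB (p * (4 * M))),
        (p : ℤ) ∣ v.ord (upInc p M f₁ ^ i * upInc p M f₀ ^ j) := fun v => by
      rw [v.ord_mul (zpow_ne_zero _ hu₁) (zpow_ne_zero _ hu₀)]; exact dvd_add (ui v) (uj v)
    rw [hsmul τ hg dg, key _ _ _ _ h, hy₁, hy₀, ← cls_zpow hu₁ _ i ui, ← cls_zpow hu₀ _ j uj,
      ← cls_mul (zpow_ne_zero _ hu₁) (zpow_ne_zero _ hu₀) ui uj uij]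
    exact cls_congr (by rw [map_mul, map_zpow₀, map_zpow₀]) _ _ _ _
  refine ⟨y₁, y₀, cls_upInc_ne_zero_gen p M hp3 h₀ d₀ hx0, nsmul_cls _ _, nsmul_cls _ _, ?_, ?_, hflat,
    hflat₀, fun τ hτ => ?_⟩
  · have h := hlin W.σ h₁ d₁ 1 1 (by rw [one_zsmul, one_zsmul, hσ])
    rwa [one_zsmul, one_zsmul] at h
  · have h := hlin W.σ h₀ d₀ 0 1 (by rw [zero_zsmul, one_zsmul, zero_add, hf₀ _ W.σ_mem])
    rwa [zero_zsmul, one_zsmul, zero_add] at h
  · obtain ⟨n, c, e0, e1⟩ := hI τ hτ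
    refine ⟨n, c, ?_, ?_⟩
    · have h := hlin τ h₀ d₀ 0 n (by rw [zero_zsmul, zero_add, e0])
      rwa [zero_zsmul, zero_add] at h
    · have h := hlin τ h₁ d₁ 1 c (by rw [one_zsmul, e1])
      rwa [one_zsmul] at h

end Flat

section Main

variable {p N : ℕ} [Fact p.Prime] [NeZero N]

/-- The ordinary case at a level prime to `p`, given the dichotomy. -/
theorem congrForm_of_fixedOrWild_gen {A : ValuationSubring QBar} (hA : A.LiesOverPrime p)
    (hp3 : 3 ≤ p) (hpN : ¬ p ∣ N) (hd : DichotomyInput A p N hpN) {W : WeierstrassCurve ℤ}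
    (hΔ : W.Δ ≠ 0) (hirr : W.ModRepIsIrreducible p) (hFW : FixedOrWild W p (p * N) A) :
    CongrForm N p (eigenPrimes W p (p * N)) W.apOfModel := by
  have hp : p.Prime := Fact.out
  have hpN4 : ¬ p ∣ 4 * N := fun h => by
    rcases hp.dvd_mul.mp h with h | h
    · have h2 := Nat.le_of_dvd two_pos (hp.dvd_of_dvd_pow (show p ∣ 2 ^ 2 from h))
      omega
    · exact hpN h
  have : CharP (Res A) p := residueField_charP hA hp
  have := isFunctionField_KM (A := A) (M := 4 * N) fun h =>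
    hpN4 ((CharP.cast_eq_zero_iff (Res A) p _).mp h)
  have hG : ∀ l, l.Prime → eigenPrimes W p (p * N) l → ¬ l ∣ p * N := fun l _ h => h.2
  have hne : ∃ l, l.Prime ∧ eigenPrimes W p (p * N) l ∧ ¬ l ∣ p * (4 * N) ∧
      ¬ (p : ℤ) ∣ W.apOfModel l - (1 + l) := by
    obtain ⟨l, hl, hE, ha⟩ :=
      exists_eigenPrimes_ne (N := p * (4 * N)) hΔ (by omega : p ≠ 2) hirr
    exact ⟨l, hl, ⟨hE.1, fun h => hE.2 (h.trans (mul_dvd_mul_left p (dvd_mul_left N 4)))⟩,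
      hE.2, ha⟩
  have hGeo : NoFlatQuotient A (4 * N) p hpN4 := fun H hflat hstab π hinv =>
    OrdinaryAtP.eq_zero_of_invariant_of_flat (hpM := hpN4) hA hp3 (dvd_mul_right 4 N) H hflat
      hstab π hinv
  rcases hFW with ⟨x, hx0, hxp, hxe, hxf⟩ |
    ⟨Wd, x₁, x₀, hx0, hp₁, hp₀, he₁, he₀, hf₁, hf₀, hσ, hI⟩
  · refine (fixed_flat_or_congr_gen hA hp3 hpN hpN4 hd _ _ hG hne hx0 hxp hxe hxf).resolve_left ?_
    rintro ⟨y, hy, hpy, hflat, hfix⟩
    exact hGeo.false_of_fixed hy hpy hflat hfix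
  · refine (wild_flat_or_congr_gen hA hp3 hpN hpN4 hd _ _ hG hne Wd hx0 hp₁ hp₀ he₁ he₀ hf₁ hf₀
      hσ hI).resolve_left ?_
    rintro ⟨y₁, y₀, hy₀, -, hpy₀, h1, h0, hfl₁, hfl₀, hI'⟩
    exact hGeo.false_of_plane hy₀ hpy₀ h1 h0 hfl₁ hfl₀ hI'

/-- The ordinary input. -/
theorem ordinaryInput (hp3 : 3 ≤ p) (hpN : ¬ p ∣ N) : OrdinaryInput p N hpN :=
  fun _ _ hA hΔ hirr hd hFW => congrForm_of_fixedOrWild_gen hA hp3 hpN hd hΔ hirr hFW

end Main

end Fermat.Agent.RT.Lift.LowerPGen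

end
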