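import Fermat.Agent.RT.Lift.LowerPGen.Exact
import Fermat.Agent.RT.Lift.LowerP.Regular6

/-!
# The reductions of cusp forms are the differentials regular for `regDiv`

An integral cusp form `f` gives `f / θ j` with divisor at least `- jDiv` in characteristic zero,
hence at least `- regDiv` after reduction; equality of the spaces follows from the dimensions.
-/

set_option autoImplicit false
set_option synthInstance.maxHeartbeats 400000
set_option maxHeartbeats 1000000
set_option linter.unusedSectionVars false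

noncomputable section

open AlgebraicCurve CongruenceSubgroup
open ModularCurve (jqModC coeffMap)
open scoped IntermediateField Classical

namespace Fermat.Agent.RT.Lift.LowerPGen

open Fermat.Agent.Semistable Fermat.Agent.RT.MazurP
open Fermat.Agent.RT.Lift.LowerP (six0 jM' form0 coe_form0 ord_six0 ord_jM'_of_pole
  six0_form_pow_mul_mem)
open Arith (QBar)

attribute [local instance] finiteDimensional_jM isSeparable_jM

variable {N : ℕ} [NeZero N]

/-- In characteristic zero `f / θ j` has divisor at least `- jDiv`. -/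
theorem neg_jDiv_le_ord_form0 {φ : PowerSeries ℤ} {f : CuspForm (Gamma0 N) 2}
    (hφ : ∀ n, ModularFormClass.qCoeff f n = ((φ.coeff n : ℤ) : ℂ)) (h0 : form0 hφ ≠ 0)
    (v : Place QBar (FB N)) : -jDiv N v ≤ v.ord (form0 hφ) := by
  set r := form0 hφ
  have hJ : Transcendental QBar (jM N) := transcendental_jM N
  have hJ0 : jM N ≠ 0 := fun h => hJ (h ▸ isAlgebraic_zero)
  have h6 : six0 N r ≠ 0 :=
    mul_ne_zero (mul_ne_zero (pow_ne_zero 6 h0) (pow_ne_zero 4 hJ0))
      (pow_ne_zero 3 (jM_sub_ne_zero 1728))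
  set k : ℕ := N + (v.ord (jM N)).natAbs + 1
  have h := FF.le_ord_of_mem_ordGe v (mul_ne_zero (pow_ne_zero k h6) hJ0)
    (RedTorsion.mem_polesSpace.mp (six0_form_pow_mul_mem hφ (k := k) (by omega)) v)
  rw [v.ord_mul (pow_ne_zero k h6) hJ0, FF.ord_pow, FF.poles_apply] at h
  obtain ⟨e6, -⟩ := ord_six0 v h0
  rcases lt_or_ge (v.ord (jM N)) 0 with hpole | hfin
  · rw [max_eq_right (by omega)] at h
    have hkJ : -v.ord (jM N) < (k : ℤ) := by omega
    have h1 : v.ord (jM N) + 1 ≤ v.ord (six0 N r) := by
      by_contra hlt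
      nlinarith [not_le.mp hlt]
    rw [e6, ord_jM'_of_pole v hpole] at h1
    rw [jDiv_of_pole hpole]
    omega
  · rw [max_eq_left (by omega), mul_zero, neg_zero] at h
    have hkJ : v.ord (jM N) < (k : ℤ) := by omega
    have h1 : 0 ≤ v.ord (six0 N r) := by
      by_contra hlt
      nlinarith [not_le.mp hlt]
    rw [e6] at h1
    have hJ'v : 0 ≤ v.ord (jM' N) := FF.ord_nonneg v (sub_mem
      ((FF.mem_iff v).mpr (Or.inr hfin)) (v.algebraMap_mem' _))
    have hjB : Genus.jB N = jM N := Subtype.ext ((ModFun.coe_jBase N _).trans (coe_jM N).symm)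
    have hB0 : v.ord (jM N) ≤ 3 := hjB ▸ Genus.ord_jB_le N v
    have hB1 : v.ord (jM' N) ≤ 2 := by
      have := Genus.ord_jB_sub_1728_le N v
      rwa [hjB] at this
    have he := RedTorsion.ram_pos (K := QBar) (x := jM N) v
    rw [jDiv_of_finite hfin]
    rcases lt_or_eq_of_le hfin with hpos | hzero
    · have e1 : (v.ramificationIndex QBar⟮jM N⟯ : ℤ) = v.ord (jM N) := by
        have h := RedTorsion.ram_of_zero hJ v (a := 0) (FF.mem_ordGe_of_le v (by
          rw [map_zero, sub_zero]; omega))
        rwa [map_zero, sub_zero] at h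
      have e2 : v.ord (jM' N) = 0 := by
        have h' := (FF.ord_add_eq_left v (f := -algebraMap QBar (FB N) 1728) (g := jM N)
          (neg_ne_zero.mpr ((map_ne_zero _).mpr (by norm_num))) (Or.inr (by
            rw [FF.ord_neg, FF.ord_algebraMap]; exact hpos))).2
        rwa [FF.ord_neg, FF.ord_algebraMap, neg_add_eq_sub] at h'
      omega
    · rcases lt_or_eq_of_le hJ'v with hpos' | hzero'
      · have e1 : (v.ramificationIndex QBar⟮jM N⟯ : ℤ) = v.ord (jM' N) :=
          RedTorsion.ram_of_zero hJ v (a := 1728) (FF.mem_ordGe_of_le v hpos')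
        omega
      · omega

section Residue

variable {A : ValuationSubring QBar} [FF.IsFunctionField (Res A) (KM A N)] [IsAlgClosed (Res A)]
  (hN : (N : Res A) ≠ 0)

include hN

/-- The reductions of integral cusp forms are regular for `regDiv`. -/
theorem redLattice_le_regDiv :
    redLattice A N ≤ (riemannRochSpace (regDiv hN)).map (mulTheta A N) := by
  refine Submodule.span_le.mpr (Set.image_subset_iff.mpr fun φ hφ => ?_)
  obtain ⟨f, hf⟩ := hφ
  have hzi : zSer QBar φ ∈ locS A := intS_le_locS (by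
    rw [← coeffMap_zSer (Int.castRingHom QBar)]; exact coeffMap_intCast_mem_intS _)
  obtain ⟨hθj, eθj⟩ := theta_mem_intS (A := A) jqModC_mem_intS
  rw [red_jqModC] at eθj
  have hne : redL A ⟨_, intS_le_locS hθj⟩ ≠ 0 := by
    rw [redL_of_mem_intS ⟨_, hθj⟩, eθj]; exact red_theta_jqModC_ne_zero
  obtain ⟨hinv, einv⟩ := inv_mem_locS (intS_le_locS hθj) hne
  have hde : (form0 hf : LSer) = zSer QBar φ * (theta QBar (jqModC QBar))⁻¹ := by
    rw [coe_form0, ← serR_mul_theta φ, mul_inv_cancel_right₀ red_theta_jqModC_ne_zero]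
  have hdm : form0 hf ∈ loc2 A (iota1 N) := (mem_loc1 N).mpr (by rw [hde]; exact mul_mem hzi hinv)
  set r : KM A N := ⟨red1 A N ⟨_, hdm⟩, red1_mem_KM N hN _⟩ with hr
  have hrser : (r : LaurentSeries (Res A)) * theta (Res A) (jqModC (Res A)) = zSer (Res A) φ := by
    show red1 A N ⟨_, hdm⟩ * _ = _
    rw [red1_eq, redL_congr _ (mul_mem hzi hinv) hde,
      show (⟨_, mul_mem hzi hinv⟩ : locS A) = ⟨_, hzi⟩ * ⟨_, hinv⟩ from rfl, map_mul, einv,
      redL_of_mem_intS ⟨_, hθj⟩, eθj, inv_mul_cancel_right₀ red_theta_jqModC_ne_zero,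
      ← coeffMap_zSer (Int.castRingHom (Res A))]
    have hi := coeffMap_intCast_mem_intS (A := A) (zSer ℤ φ)
    rw [← red_coeffMap_intCast (A := A), ← redL_of_mem_intS ⟨_, hi⟩]
    exact redL_congr _ _ (coeffMap_zSer (Int.castRingHom QBar) φ).symm
  refine ⟨r, FF.mem_riemannRochSpace'.mpr fun Q => ?_, hrser⟩
  rcases eq_or_ne r 0 with h0 | h0
  · rw [h0]; exact zero_mem _
  have hf0 : form0 hf ≠ 0 := fun h => h0 (Subtype.ext (by
    show red1 A N ⟨_, hdm⟩ = 0
    rw [show (⟨form0 hf, hdm⟩ : loc2 A (iota1 N)) = 0 from Subtype.ext h, map_zero]))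
  refine FF.mem_ordGe_of_le Q ?_
  rw [regDiv, ← Finsupp.neg_apply, ← map_neg]
  refine le_ord_red hN (x := ⟨_, hdm⟩) h0 rfl fun P _ => ?_
  rw [Finsupp.neg_apply]
  exact neg_jDiv_le_ord_form0 hf hf0 P

variable (p : ℕ) [Fact p.Prime] [CharP (Res A) p]
  [FiniteDimensional (Res A)⟮jK A N⟯ (KM A N)] [Algebra.IsSeparable (Res A)⟮jK A N⟯ (KM A N)]

include p

/-- The differentials regular for `regDiv` are the reductions of integral cusp forms. -/
theorem regDiv_map_eq_redLattice :
    (riemannRochSpace (regDiv hN)).map (mulTheta A N) = redLattice A N := by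
  have h := ell_le_genus (degree_regDiv (A := A) hN)
  have h1 := Submodule.finrank_map_le (mulTheta A N) (riemannRochSpace (regDiv hN))
  have hle : Module.finrank (Res A) ((riemannRochSpace (regDiv hN)).map (mulTheta A N)) ≤
      genusFF (Res A) (KM A N) := by
    refine h1.trans ?_
    unfold FF.ell at h
    exact_mod_cast h
  have : Module.Finite (Res A) ((riemannRochSpace (regDiv hN)).map (mulTheta A N)) :=
    Module.Finite.map _ _
  have h2 := redLattice_le_regDiv (A := A) hN
  have : Module.Finite (Res A) (redLattice A N) := Submodule.finiteDimensional_of_le h2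
  have h3 := finrank_cuspForm_le_redLattice (A := A) (M := N) p Fact.out
  have hg : genusFF QBar (FB N) = Module.finrank ℂ (CuspForm (Gamma0 N) 2) := by
    have h := Genus.genus_eq_genusFormula N
    rw [FF.genus_eq_genusFF, ← S20.result N] at h
    exact_mod_cast h
  have hg' : genusFF (Res A) (KM A N) = genusFF QBar (FB N) := FiniteFlat.genusFF_residue_eq hN
  exact (Submodule.eq_of_le_of_finrank_le h2 (by omega)).symm

end Residue

/-- Logarithmic derivatives of functions with orders divisible by `p` are regular. -/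
theorem dlogRegularInput {A : ValuationSubring QBar} {p N : ℕ} [Fact p.Prime] [NeZero N]
    (hA : A.LiesOverPrime p) (hpN : ¬ p ∣ N) : DlogRegularInput A p N := by
  intro z hz hz0 hord
  have : CharP (Res A) p := Arith.residueField_charP hA Fact.out
  have := Arith.residueField_isAlgClosed A
  have hN : (N : Res A) ≠ 0 := fun h => hpN ((CharP.cast_eq_zero_iff (Res A) p N).mp h)
  have := isFunctionField_KM (A := A) hN
  have : FiniteDimensional (Res A)⟮jK A N⟯ (KM A N) :=
    RedTorsion.finiteDimensional_jF (K := Res A) (N := N) (F := KM A N) rfl hN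
  have : Algebra.IsSeparable (Res A)⟮jK A N⟯ (KM A N) :=
    RedTorsion.isSeparable_jF (K := Res A) (N := N) (F := KM A N) rfl hN
  set Z : KM A N := ⟨z, hz⟩
  rw [← regDiv_map_eq_redLattice hN p]
  refine ⟨dd (K := Res A) (jK A N) Z / Z,
    dlog_mem_regDiv p hA hN (z := Z) (fun h => hz0 (congrArg Subtype.val h)) hord, ?_⟩
  show ((dd (K := Res A) (jK A N) Z : KM A N) : LaurentSeries (Res A)) / z * _ =
    theta (Res A) z / z
  rw [show theta (Res A) z = theta (Res A) (Z : LaurentSeries (Res A)) from rfl,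
    coe_dd_mul_theta (A := A) Z, div_mul_eq_mul_div]

/-- A regular logarithmic derivative comes from orders divisible by `p`. -/
theorem dlogExactInput {A : ValuationSubring QBar} {p N : ℕ} [Fact p.Prime] [NeZero N]
    (hA : A.LiesOverPrime p) (hpN : ¬ p ∣ N) : DlogExactInput A p N :=
  dlogExactInput_of hA hpN fun hN => redLattice_le_regDiv hN

end Fermat.Agent.RT.Lift.LowerPGen

end
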