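import Fermat.Agent.RT.Lift.LowerPGen.Inputs
import Fermat.Agent.RT.Mazur.HeckeRed
import Fermat.Agent.RT.MazurP.Eigen
import Fermat.Agent.EichlerShimura.Congruence
import Fermat.Agent.EichlerShimura.RamBounds
import Fermat.Agent.FiniteFlat.Fixed

/-!
# The wild points

Let `z` be a residual function of level `M` which is an eigen function of `T_l` with eigenvalue
`a` prime to `p` different from `1 + l`. If every place where the order of `z` is prime to `p` is
the reduction of a place on which `T_l` is `1 + l` modulo `p`, then all orders of `z` are divisible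
by `p`: the orders lift to a principal divisor, and the correction has an exact logarithmic
derivative in the lattice of reduced cusp forms, which is stable under `T_l`.
-/

set_option autoImplicit false
set_option linter.unusedSectionVars false

noncomputable section

namespace Fermat.Agent.RT.Lift.LowerPGen

open AlgebraicCurve ModularCurve CongruenceSubgroup
open Fermat.Agent.Semistable Fermat.Agent.RT.MazurP
open Arith (QBar)
-- `IntermediateField.algebra'` never applies to `FB M`; trying it costs a quarter second a search.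
attribute [-instance] IntermediateField.algebra'

variable {A : ValuationSubring QBar} {M : ℕ} [NeZero M]

/-! ### Reduced cusp forms are stable under `T_l` -/

/-- The coefficient operator of `T_l` preserves the reduced lattice. -/
theorem heckeCoeff_mem_redLattice {l : ℕ} (hl : l.Prime) (hlM : ¬ l ∣ M)
    {η η' : LaurentSeries (Res A)} (hη : η ∈ redLattice A M)
    (h : ∀ n : ℤ, η'.coeff n = η.coeff ((l : ℤ) * n) +
      if (l : ℤ) ∣ n then (l : Res A) * η.coeff (n / l) else 0) :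
    η' ∈ redLattice A M := by
  have key : ∀ η ∈ redLattice A M, ∃ θ ∈ redLattice A M, ∀ n : ℤ,
      θ.coeff n = η.coeff ((l : ℤ) * n) +
        if (l : ℤ) ∣ n then (l : Res A) * η.coeff (n / l) else 0 := by
    intro η hη
    induction hη using Submodule.span_induction with
    | zero => exact ⟨0, zero_mem _, fun n => by simp⟩
    | add x y _ _ hx hy =>
      obtain ⟨θ, hθ, e⟩ := hx
      obtain ⟨θ', hθ', e'⟩ := hy
      refine ⟨θ + θ', add_mem hθ hθ', fun n => ?_⟩
      simp only [HahnSeries.coeff_add, e, e']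
      split_ifs <;> ring
    | smul c x _ hx =>
      obtain ⟨θ, hθ, e⟩ := hx
      refine ⟨c • θ, Submodule.smul_mem _ c hθ, fun n => ?_⟩
      simp only [← HahnSeries.C_mul_eq_smul, coeff_C_mul, e]
      split_ifs <;> ring
    | mem x hx =>
      obtain ⟨φ, ⟨f, hf⟩, rfl⟩ := hx
      have hfm : f ∈ CuspForm.intLattice M 2 :=
        (HeckeDuality.mem_intLattice_iff f).mpr fun n => ⟨_, hf n⟩
      set g := CuspForm.latticeActionHom M ∅ (HeckeDuality.heckeOp M 2 l hl) ⟨f, hfm⟩
      obtain ⟨ψ, hψ⟩ := exists_series g.2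
      have hco : ∀ n : ℕ, ψ.coeff n =
          φ.coeff (n * l) + if l ∣ n then (l : ℤ) * φ.coeff (n / l) else 0 := by
        intro n
        refine Int.cast_injective (α := ℂ) ?_
        rw [← hψ, Int.cast_add, apply_ite (Int.cast : ℤ → ℂ), Int.cast_mul, Int.cast_natCast,
          Int.cast_zero, ← hf, ← hf]
        refine (HeckeDuality.coeff_heckeOp hl _ n).trans ?_
        rw [HeckeDuality.eulerWeight, if_neg hlM]
        rfl
      refine ⟨zSer (Res A) ψ, Submodule.subset_span ⟨ψ, ⟨_, hψ⟩, rfl⟩, fun k => ?_⟩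
      rcases lt_or_ge k 0 with hk | hk
      · have hl0 : (0 : ℤ) < l := by exact_mod_cast hl.pos
        simp only [zSer]
        rw [ofPowerSeries_coeff_of_neg _ hk, ofPowerSeries_coeff_of_neg _ (by nlinarith),
          zero_add]
        split_ifs with hd
        · rw [ofPowerSeries_coeff_of_neg _ (Int.ediv_neg_of_neg_of_pos hk hl0), mul_zero]
        · rfl
      obtain ⟨n, rfl⟩ := Int.eq_ofNat_of_zero_le hk
      simp only [← Nat.cast_mul, Int.natCast_dvd_natCast, ← Int.natCast_ediv]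
      simp only [zSer, HahnSeries.ofPowerSeries_apply_coeff, PowerSeries.coeff_map, eq_intCast,
        hco, mul_comm l n]
      push_cast [apply_ite (Int.cast : ℤ → Res A)]
      rfl
  obtain ⟨θ, hθ, e⟩ := key η hη
  convert hθ using 1
  ext n
  rw [h, e]

/-! ### Reductions of divisors -/

variable [FF.IsFunctionField QBar (FB M)] [FF.IsFunctionField (Res A) (KM A M)]
  [IsAlgClosed (Res A)] (hM : (M : Res A) ≠ 0)

/-- The divisor of a function reduces to the divisor of its reduction. -/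
theorem redDiv_div_of_isRed {x : FB M} {z : LaurentSeries (Res A)} (h : IsRed A (x : LSer) z)
    (hz : z ∈ KM A M) :
    FiniteFlat.redDiv (FiniteFlat.goodRed (A := A) (N := M) hM) (FF.div QBar x) =
      FF.div (Res A) (⟨z, hz⟩ : KM A M) := by
  obtain ⟨hz0, c, hc, hcx, e⟩ := h
  obtain ⟨a, b, hb, hab⟩ := id hcx
  have hmul := redL_mul_red ⟨_, hcx⟩ hb hab
  rw [e] at hmul
  set y : FB M := algebraMap QBar (FB M) c * x with hy
  have hsa : ∀ s : intS A, coeffMap A.subtype (toA A s) = (s : LSer) := fun s => by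
    ext n; rfl
  let ser : intS A → RedTorsion.serInt A := fun s => ⟨(s : LSer), ⟨_, hsa s⟩⟩
  have hser : ∀ s, RedTorsion.serRed A (ser s) = red A s := fun s => by
    rw [show ser s = ⟨_, ⟨toA A s, rfl⟩⟩ from Subtype.ext (hsa s).symm]
    exact RedTorsion.serRed_coeffMap (toA A s) ⟨_, rfl⟩
  have hd : RedTorsion.serRed A (ser b) ≠ 0 := by rw [hser]; exact hb
  obtain ⟨hm, hr⟩ := RedTorsion.mem_model_S_of_mul_eq (F := FB M) (EichlerShimura.hFb (N := M)) hM (y := y)
    (d := ser b) (p := ser a) hd hab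
  have e' : FiniteFlat.redF (FiniteFlat.goodRed (A := A) (N := M) hM).toRedLattice ⟨y, hm⟩ =
      (⟨z, hz⟩ : KM A M) := by
    refine Subtype.ext (mul_right_cancel₀ hd ?_)
    refine hr.trans ?_
    rw [hser, hser]
    exact hmul.symm
  have h2 := FiniteFlat.redDiv_div (FiniteFlat.goodRed (A := A) (N := M) hM) ⟨y, hm⟩ (by
    rw [e']; exact fun h0 => hz0 (congrArg Subtype.val h0))
  refine (congrArg _ ?_).trans (h2.trans (congrArg _ e'))
  have hx0 : x ≠ 0 := fun h0 => hz0 (by
    rw [← e, show (⟨_, hcx⟩ : locS A) = 0 from Subtype.ext (by simp [h0]), map_zero])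
  ext v
  show v.ord x = v.ord y
  rw [hy, v.ord_mul ((map_ne_zero _).mpr hc) hx0, FF.ord_algebraMap, zero_add]

/-- A place where the order of `j` is prime to three lifts to one where it is one. -/
theorem exists_lift_ord_jM_eq_one {Q : Place (Res A) (KM A M)} (hQ : 0 < Q.ord (jK A M))
    (h3 : ¬ (3 : ℤ) ∣ Q.ord (jK A M)) :
    ∃ P : Place QBar (FB M), FiniteFlat.redPlace (FiniteFlat.goodRed (A := A) (N := M) hM) P = Q ∧
      P.ord (jM M) = 1 := by
  classical
  by_contra hno
  push Not at hno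
  have hjB : Genus.jB M = jM M := Subtype.ext ((ModFun.coe_jBase M _).trans (coe_jM M).symm)
  have hdiv : ∀ {K F : Type} [Field K] [Field F] [Algebra K F] [FF.IsFunctionField K F] (f : F),
      FF.div K f = FF.poles K f⁻¹ - FF.poles K f := by
    intro K F _ _ _ _ f
    ext v
    rw [Finsupp.sub_apply, FF.div_apply, FF.poles_apply, FF.poles_apply, v.ord_inv, neg_neg]
    omega
  have hj : IsRed A (jM M : LSer) (jqModC (Res A)) := by
    have h := IsRed.of_locS (A := A) ((mem_loc2 _).mp (jM_mem M) ()) (by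
      show red1 A M ⟨jM M, jM_mem M⟩ ≠ 0
      rw [red1_jM]; exact jqModC_ne_zero_of_nontrivial _)
    have e : redL A ⟨_, (mem_loc2 _).mp (jM_mem M) ()⟩ = jqModC (Res A) := red1_jM M
    rwa [e] at h
  have h1 := redDiv_div_of_isRed hM hj (jqModC_mem_full (Res A) M)
  have h2 : FiniteFlat.redDiv (FiniteFlat.goodRed (A := A) (N := M) hM) (FF.poles QBar (jM M)) =
      FF.poles (Res A) (jK A M) := by
    convert FiniteFlat.redDiv_poleDiv (A := A) (N := M) hM using 2
    · rw [FiniteFlat.poleDiv]; exact congrArg _ (Subtype.ext (coe_jM M))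
    all_goals rfl
  rw [hdiv, map_sub, h2, hdiv (⟨jqModC (Res A), _⟩ : KM A M)] at h1
  have h1' :
      FiniteFlat.redDiv (FiniteFlat.goodRed (A := A) (N := M) hM) (FF.poles QBar (jM M)⁻¹) =
      FF.poles (Res A) (jK A M)⁻¹ := sub_left_injective h1
  have h := congrArg (fun D : Divisor (Res A) (KM A M) => D Q) h1'
  simp only [FiniteFlat.redDiv_apply, Finsupp.mapDomain, Finsupp.sum_apply, FF.poles_apply,
    Q.ord_inv, neg_neg, max_eq_right hQ.le] at h
  refine h3 (h ▸ Finset.dvd_sum fun P _ => ?_)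
  simp only [Finsupp.single_apply]
  split_ifs with hPQ
  · rw [FF.poles_apply, P.ord_inv, neg_neg]
    rcases lt_or_ge 0 (P.ord (jM M)) with hpos | hneg
    · rw [max_eq_right hpos.le]
      have h4 : P.ord (jM M) ∣ 3 := by
        have := EichlerShimura.ord_jB_dvd_three M P (by rw [hjB]; exact hpos)
        rwa [hjB] at this
      have hle : P.ord (jM M) ≤ 3 := Int.le_of_dvd (by norm_num) h4
      have h5 : P.ord (jM M) ≠ 2 := fun h => by rw [h] at h4; norm_num at h4
      have h6 := hno P hPQ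
      omega
    · rw [max_eq_left hneg]; exact dvd_zero _
  · exact dvd_zero _

/-! ### The argument -/

/-- The Hecke correspondence on divisors. -/
abbrev corrT (M l : ℕ) [NeZero M] [NeZero l] [FF.IsFunctionField QBar (FB M)]
    [FF.IsFunctionField QBar (FB (M * l))] : Divisor QBar (FB M) →+ Divisor QBar (FB M) :=
  Divisor.correspondence (heckeBetaBar QBar M l) (heckeAlphaBar QBar M l)
    (FF.isIntegralAlong _) (FF.isIntegralAlong _)

theorem exists_eq_smul_of_dvd {α : Type*} {p : ℤ} (D : α →₀ ℤ) (h : ∀ v, p ∣ D v) :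
    ∃ G : α →₀ ℤ, D = p • G :=
  ⟨D.mapRange (· / p) (Int.zero_ediv p), Finsupp.ext fun v => by
    rw [Finsupp.smul_apply, Finsupp.mapRange_apply, smul_eq_mul, Int.mul_ediv_cancel' (h v)]⟩

/-- The combinatorics of `exists_principal_lift`, for any reduction and correspondence. -/
private theorem exists_lift_core {α β : Type*} (R : (α →₀ ℤ) →+ (β →₀ ℤ))
    (T : (α →₀ ℤ) →+ (α →₀ ℤ)) (π : α → β)
    (hR : ∀ P n, R (Finsupp.single P n) = Finsupp.single (π P) n) (S : β →₀ ℤ) {p c : ℤ}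
    {E : α → Prop}
    (hT : ∀ P, E P → ∀ v, p ∣ (T (Finsupp.single P 1) - c • Finsupp.single P 1 : α →₀ ℤ) v)
    (hwild : ∀ Q, p ∣ S Q ∨ ∃ P, π P = Q ∧ E P) :
    ∃ D : α →₀ ℤ, ∃ G₂, R D = S + p • G₂ ∧
      ∀ G₃, (∃ G, R (D + p • G₃) = S + p • G) ∧ ∃ G, R (T (D + p • G₃)) = c • S + p • G := by
  classical
  choose P hP hEP using fun Q : {Q : β // ¬ p ∣ S Q} => (hwild Q.1).resolve_left Q.2
  let D : α →₀ ℤ := ∑ Q ∈ S.support,
    if hQ : p ∣ S Q then 0 else Finsupp.single (P ⟨Q, hQ⟩) (S Q)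
  obtain ⟨G₁, hG₁⟩ : ∃ G, T D - c • D = p • G := by
    refine exists_eq_smul_of_dvd _ fun v => ?_
    simp only [D, map_sum, Finset.smul_sum, ← Finset.sum_sub_distrib, Finsupp.finsetSum_apply]
    refine Finset.dvd_sum fun Q _ => ?_
    split_ifs with hQ
    · simp
    · have e : Finsupp.single (P ⟨Q, hQ⟩) (S Q) = S Q • Finsupp.single (P ⟨Q, hQ⟩) (1 : ℤ) :=
        (Finsupp.smul_single_one _ _).symm
      rw [e, map_zsmul, smul_comm c (S Q), ← smul_sub, Finsupp.smul_apply, smul_eq_mul]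
      exact dvd_mul_of_dvd_right (hT _ (hEP _) v) _
  obtain ⟨G₂, hG₂⟩ : ∃ G, R D - S = p • G := by
    refine exists_eq_smul_of_dvd _ fun v => ?_
    have e : S = ∑ Q ∈ S.support, Finsupp.single Q (S Q) := (Finsupp.sum_single S).symm
    rw [Finsupp.sub_apply]
    conv =>
      arg 2
      arg 2
      rw [e]
    simp only [D, map_sum, Finsupp.finsetSum_apply, ← Finset.sum_sub_distrib]
    refine Finset.dvd_sum fun Q _ => ?_
    split_ifs with hQ
    · rw [map_zero, Finsupp.zero_apply, zero_sub, dvd_neg, Finsupp.single_apply]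
      split_ifs
      · exact hQ
      · exact dvd_zero _
    · rw [hR, hP, sub_self]; exact dvd_zero _
  have hD : R D = S + p • G₂ := by rw [← hG₂, add_sub_cancel]
  refine ⟨D, G₂, hD, fun G₃ => ⟨⟨G₂ + R G₃, ?_⟩, R G₁ + c • G₂ + R (T G₃), ?_⟩⟩
  · rw [map_add, map_zsmul, hD, smul_add, add_assoc]
  · rw [map_add T, map_zsmul T, map_add, map_zsmul,
      show T D = c • D + p • G₁ by rw [← hG₁, add_sub_cancel],
      map_add, map_zsmul, map_zsmul, hD, smul_add, smul_add, smul_add, smul_comm p]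
    abel

variable {p : ℕ} [Fact p.Prime] [CharP (Res A) p]

omit [CharP (Res A) p] in
/-- A divisor of degree divisible by `p` is principal modulo `p`. -/
private theorem exists_div_eq_add_smul (hp : 0 < p) {D : Divisor QBar (FB M)} {d : ℤ}
    (hdeg : Divisor.degree D = (p : ℤ) * d) :
    ∃ F : FB M, F ≠ 0 ∧ ∃ G, FF.div QBar F = D + (p : ℤ) • G := by
  obtain ⟨B⟩ := FF.exists_place (K := QBar) (F := FB M)
  set D₀ := D - (p : ℤ) • Finsupp.single B d with hD₀
  have hD₀0 : D₀ ∈ Divisor.degZero (K := QBar) (F := FB M) := by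
    show Divisor.degree D₀ = 0
    rw [hD₀, map_sub, map_zsmul, hdeg, FiniteFlat.degree_single_one, smul_eq_mul, sub_self]
  obtain ⟨y, hy⟩ := EichlerShimura.exists_nsmul_eq_JZero p hp (Pic0.mk ⟨D₀, hD₀0⟩)
  obtain ⟨E₁, rfl⟩ := Pic0.mk_surjective y
  have hmem : (⟨D₀, hD₀0⟩ : Divisor.degZero (K := QBar) (F := FB M)) - p • E₁ ∈
      (Divisor.principal (K := QBar) (F := FB M)).addSubgroupOf
        (Divisor.degZero (K := QBar) (F := FB M)) := by
    rw [← QuotientAddGroup.eq_iff_sub_mem, QuotientAddGroup.mk_nsmul]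
    exact hy.symm
  rw [AddSubgroup.mem_addSubgroupOf, AddSubgroupClass.coe_sub, AddSubgroupClass.coe_nsmul,
    Divisor.mem_principal] at hmem
  obtain ⟨F, hF0, hF⟩ := hmem
  exact ⟨F, hF0, -(Finsupp.single B d + E₁.1), by
      ext v
      rw [FF.div_apply, ← hF v]
      show ((D₀ : Place QBar (FB M) →₀ ℤ) - p • (E₁.1 : Place QBar (FB M) →₀ ℤ)) v = _
      simp only [hD₀]
      simp only [Finsupp.sub_apply, Finsupp.add_apply, Finsupp.neg_apply, Finsupp.smul_apply,
        nsmul_eq_mul, smul_eq_mul]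
      ring⟩

/-- The degree of a multiple added to a divisor of degree zero. -/
private theorem degree_add_smul {K L : Type} [Field K] [Field L] [Algebra K L]
    {S G : Divisor K L} (hS : Divisor.degree S = 0) (c : ℤ) :
    Divisor.degree (S + c • G) = c * Divisor.degree G := by
  rw [map_add, map_zsmul, hS, zero_add, smul_eq_mul]

/-- A divisor of degree zero supported, modulo `p`, on reductions of places where `T_l` is `1 + l`
is the reduction of a principal divisor with the same property, modulo `p`. -/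
theorem exists_principal_lift (S : Divisor (Res A) (KM A M)) (hS : Divisor.degree S = 0) (hp : 0 < p)
    {l : ℕ} [NeZero l] [FF.IsFunctionField QBar (FB (M * l))] {E : Place QBar (FB M) → Prop}
    (hT : ∀ P, E P → ∀ v : Place QBar (FB M), (p : ℤ) ∣
      (corrT M l (Finsupp.single P 1) - (1 + (l : ℤ)) • Finsupp.single P 1 :
        Place QBar (FB M) →₀ ℤ) v)
    (hwild : ∀ Q, (p : ℤ) ∣ S Q ∨
      ∃ P, FiniteFlat.redPlace (FiniteFlat.goodRed (A := A) (N := M) hM) P = Q ∧ E P) :
    ∃ F : FB M, F ≠ 0 ∧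
      (∃ G, FiniteFlat.redDiv (FiniteFlat.goodRed (A := A) (N := M) hM) (FF.div QBar F) =
        S + (p : ℤ) • G) ∧
      ∃ G, FiniteFlat.redDiv (FiniteFlat.goodRed (A := A) (N := M) hM) (corrT M l (FF.div QBar F)) =
        (1 + (l : ℤ)) • S + (p : ℤ) • G := by
  obtain ⟨D, G₂, hG₂, hlift⟩ := exists_lift_core
    (FiniteFlat.redDiv (FiniteFlat.goodRed (A := A) (N := M) hM)) (corrT M l)
    (FiniteFlat.redPlace (FiniteFlat.goodRed (A := A) (N := M) hM))
    (FiniteFlat.redDiv_single _) S hT hwild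
  obtain ⟨F, hF0, G₃, hG₃⟩ := exists_div_eq_add_smul hp
    ((FiniteFlat.degree_redDiv _ D).symm.trans
      ((congrArg Divisor.degree hG₂).trans (degree_add_smul hS _)))
  exact ⟨F, hF0, (hlift G₃).1.imp fun G hG => (congrArg _ hG₃).trans hG,
    (hlift G₃).2.imp fun G hG =>
      (congrArg (fun X => FiniteFlat.redDiv _ (corrT M l X)) hG₃).trans hG⟩

/-- Orders from an equation of divisors. -/
private theorem ord_eq_of_div_eq {K L : Type} [Field K] [Field L] [Algebra K L]
    [FF.IsFunctionField K L] {f g : L} {c q : ℤ} {G : Divisor K L}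
    (h : FF.div K f = c • FF.div K g + q • G) (v : Place K L) :
    v.ord f = c * v.ord g + q * G v := by
  simpa [FF.div_apply] using DFunLike.congr_fun h v

/-- Orders of the quotient by the expected Hecke image. -/
private theorem ord_mul_inv_image {K L : Type} [Field K] [Field L] [Algebra K L]
    (v : Place K L) {x z w : L} (hx : x ≠ 0) (hz : z ≠ 0) (hw : w ≠ 0) {u : K} (hu : u ≠ 0)
    (a : ℤ) (n : ℕ) :
    v.ord (x * (algebraMap K L u * (z ^ a * w ^ n))⁻¹) =
      v.ord x - (a * v.ord z + n * v.ord w) := by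
  have h := mul_ne_zero (zpow_ne_zero a hz) (pow_ne_zero n hw)
  have hu' : algebraMap K L u ≠ 0 := (map_ne_zero _).mpr hu
  rw [v.ord_mul hx (inv_ne_zero (mul_ne_zero hu' h)), v.ord_inv, v.ord_mul hu' h,
    FF.ord_algebraMap, v.ord_mul (zpow_ne_zero _ hz) (pow_ne_zero _ hw), v.ord_zpow, FF.ord_pow]
  ring

/-- **The orders at the wild points are divisible by `p`.** -/
theorem dvd_ord_of_wild (hA : A.LiesOverPrime p)
    (hlog : ∀ (z : LaurentSeries (Res A)) (hz : z ∈ KM A M), z ≠ 0 →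
      (∀ Q : Place (Res A) (KM A M), (p : ℤ) ∣ Q.ord ⟨z, hz⟩) → dlog z ∈ redLattice A M)
    (hexact : ∀ (z : LaurentSeries (Res A)) (hz : z ∈ KM A M), z ≠ 0 → dlog z ∈ redLattice A M →
      ∀ Q : Place (Res A) (KM A M), (p : ℤ) ∣ Q.ord ⟨z, hz⟩)
    {l : ℕ} [NeZero l] [FF.IsFunctionField QBar (FB (M * l))] (hl : l.Prime) (hlM : ¬ l ∣ M)
    (hlp : ¬ p ∣ l) {E : Place QBar (FB M) → Prop}
    (hT : ∀ P, E P → ∀ v : Place QBar (FB M), (p : ℤ) ∣
      (corrT M l (Finsupp.single P 1) - (1 + (l : ℤ)) • Finsupp.single P 1 :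
        Place QBar (FB M) →₀ ℤ) v)
    {z w : LaurentSeries (Res A)} (hz : z ∈ KM A M) (hz0 : z ≠ 0) (hw : w ∈ KM A M) (hw0 : w ≠ 0)
    {u : Res A} (hu : u ≠ 0) {a : ℤ} (ha : ¬ (p : ℤ) ∣ a - (1 + l))
    (heig : IsHeckeImage l z (algebraMap (Res A) (LaurentSeries (Res A)) u * (z ^ a * w ^ p)))
    (hwild : ∀ Q : Place (Res A) (KM A M), (p : ℤ) ∣ Q.ord ⟨z, hz⟩ ∨
      ∃ P, FiniteFlat.redPlace (FiniteFlat.goodRed (A := A) (N := M) hM) P = Q ∧ E P) :
    ∀ Q : Place (Res A) (KM A M), (p : ℤ) ∣ Q.ord ⟨z, hz⟩ := by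
  have hp : p.Prime := Fact.out
  let Z : KM A M := ⟨z, hz⟩
  let W : KM A M := ⟨w, hw⟩
  have hZ0 : Z ≠ 0 := fun e => hz0 (congrArg Subtype.val e)
  have hW0 : W ≠ 0 := fun e => hw0 (congrArg Subtype.val e)
  obtain ⟨F, hF0, ⟨G₁, hG₁⟩, G₂, hG₂⟩ := exists_principal_lift hM (FF.div (Res A) Z)
    (FF.degree_div _) hp.pos hT (fun Q => by rw [FF.div_apply]; exact hwild Q)
  obtain ⟨zF, hzF⟩ := IsRed.exists_of_ne_zero hA hp (mem_fracS_of_mem (A := A) F)
    (show (F : LSer) ≠ 0 from fun e => hF0 (Subtype.ext e))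
  have hzFm := Mazur.isRed_mem_level hM hzF
  let ZF : KM A M := ⟨zF, hzFm⟩
  have hZF0 : ZF ≠ 0 := fun e => hzF.1 (congrArg Subtype.val e)
  obtain ⟨XF, hXF, himgF⟩ := exists_isRed_heckeImage hA hp hlp
    (mem_fracS_of_mem (heckeNorm M l F)) (fun ζ hζ => qExpand_heckeNorm hl hlM hζ F) hzF
  have hXFm := Mazur.isRed_mem_level hM hXF
  let X : KM A M := ⟨XF, hXFm⟩
  have hX0 : X ≠ 0 := fun e => hXF.1 (congrArg Subtype.val e)
  have e₁ : ∀ Q : Place (Res A) (KM A M), Q.ord ZF = (1 : ℤ) * Q.ord Z + (p : ℤ) * G₁ Q :=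
    ord_eq_of_div_eq (((redDiv_div_of_isRed hM hzF hzFm).symm.trans hG₁).trans
      (by rw [one_smul]))
  have e₂ : ∀ Q : Place (Res A) (KM A M),
      Q.ord X = (1 + (l : ℤ)) * Q.ord Z + (p : ℤ) * G₂ Q :=
    ord_eq_of_div_eq (((congrArg (FiniteFlat.redDiv (FiniteFlat.goodRed (A := A) (N := M) hM))
      (show corrT M l (FF.div QBar F) = FF.div QBar (heckeNorm M l F) from
        EichlerShimura.heckeDivBar_div F hF0)).trans
      (redDiv_div_of_isRed hM hXF hXFm)).symm.trans hG₂)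
  let Xz : KM A M := algebraMap (Res A) (KM A M) u * (Z ^ a * W ^ p)
  have hXz : (Xz : LaurentSeries (Res A)) =
      algebraMap (Res A) (LaurentSeries (Res A)) u * (z ^ a * w ^ p) := rfl
  have hXz0 : Xz ≠ 0 :=
    mul_ne_zero ((map_ne_zero _).mpr hu) (mul_ne_zero (zpow_ne_zero _ hZ0) (pow_ne_zero _ hW0))
  have hz'0 : zF * z⁻¹ ≠ 0 := mul_ne_zero hzF.1 (inv_ne_zero hz0)
  have hlat₁ : dlog (zF * z⁻¹) ∈ redLattice A M := hlog _ (mul_mem hzFm (inv_mem hz)) hz'0 fun Q => by
    rw [show (⟨zF * z⁻¹, _⟩ : KM A M) = ZF * Z⁻¹ from rfl, Q.ord_mul hZF0 (inv_ne_zero hZ0),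
      Q.ord_inv, e₁, one_mul, add_neg_cancel_comm]
    exact dvd_mul_right _ _
  have himg' : IsHeckeImage l (zF * z⁻¹) (XF * (Xz : LaurentSeries (Res A))⁻¹) := fun η hη => by
    have e : heckeProd l η (zF * z⁻¹) * heckeProd l η z = heckeProd l η zF := by
      rw [← map_mul, inv_mul_cancel_right₀ hz0]
    rw [map_mul, map_inv₀, hXz, himgF η hη, heig η hη, ← e,
      mul_inv_cancel_right₀ (heckeProd_ne_zero l η hz0)]
  have hl0 : (l : Res A) ≠ 0 := fun e => hlp ((CharP.cast_eq_zero_iff (Res A) p l).mp e)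
  obtain ⟨ζ, hζ⟩ := exists_primitive (N := M) hl hlM
  have hlat₂ : dlog (XF * (Xz : LaurentSeries (Res A))⁻¹) ∈ redLattice A M :=
    heckeCoeff_mem_redLattice hl hlM hlat₁ fun n =>
      himg'.coeff_dlog hl0 (resRoot_primitive hA hp hlp hζ) hz'0 n
  intro Q
  have e₃ := hexact _ (mul_mem hXFm (inv_mem Xz.2))
    (mul_ne_zero hXF.1 (inv_ne_zero fun e => hXz0 (Subtype.ext e))) hlat₂ Q
  have e₄ : (p : ℤ) ∣ Q.ord (X * (algebraMap (Res A) (KM A M) u * (Z ^ a * W ^ p))⁻¹) := e₃
  rw [ord_mul_inv_image Q hX0 hZ0 hW0 hu, e₂] at e₄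
  refine (Int.Prime.dvd_mul' hp ?_).resolve_left ha
  obtain ⟨k, hk⟩ := e₄
  exact ⟨G₂ Q - k - Q.ord W, by linarith⟩

/-- Piece E: one eigenvalue other than `1 + l` kills the residues at the wild places. -/
theorem wildInput {p N : ℕ} [Fact p.Prime] [NeZero N] {A : ValuationSubring QBar}
    (hA : A.LiesOverPrime p) (hpN : ¬ p ∣ N) (hReg : DlogRegularInput A p N)
    (hExact : DlogExactInput A p N) (hEll : EllipticCorrInput N) : WildInput A p N hpN := by
  intro h3 f l _ a hl hlN ha hEig s z hz hred hwild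
  have hp : p.Prime := Fact.out
  have : CharP (Res A) p := Arith.residueField_charP hA hp
  have := Arith.residueField_isAlgClosed A
  have hN : (N : Res A) ≠ 0 := fun h => hpN ((CharP.cast_eq_zero_iff (Res A) p N).mp h)
  have := isFunctionField_KM (A := A) hN
  have := EichlerShimura.isFunctionField_bar (N := N)
  have : NeZero (N * l) := ⟨mul_ne_zero (NeZero.ne N) hl.ne_zero⟩
  have := EichlerShimura.isFunctionField_bar (N := N * l)
  obtain ⟨h, hh, heq⟩ := hEig
  obtain ⟨w, hw, hw0, u, hu, himg⟩ :=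
    Mazur.exists_eigen_reduction hA hN hpN hl hlN hh heq s hred
  refine dvd_ord_of_wild hN hA (fun z hz => hReg hz) (fun z hz => hExact hz) hl
    (fun h => hlN (dvd_mul_of_dvd_right h p))
    (fun h => hlN ((Nat.prime_dvd_prime_iff_eq hp hl).mp h ▸ dvd_mul_right p N))
    (E := fun P => P.ord (jM N) = 1) (fun P hP v => ?_) hz hred.1 hw hw0 hu ha himg fun Q => ?_
  · obtain ⟨D, hD⟩ := hEll l hl (fun h => hlN (dvd_mul_of_dvd_right h p)) P hP
    rw [hD, Finsupp.smul_single, smul_eq_mul, mul_one, add_comm (1 : ℤ) (l : ℤ), add_sub_cancel_left,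
      Finsupp.smul_apply, nsmul_eq_mul, h3]
    exact dvd_mul_right _ _
  · refine (hwild Q).imp_right fun hQ => exists_lift_ord_jM_eq_one hN hQ.1 ?_
    have := hQ.2
    rwa [h3] at this

end Fermat.Agent.RT.Lift.LowerPGen

end
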