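import Fermat.Agent.RT.Lift.LowerPGen.Lower
import Fermat.Agent.RT.Lift.LowerPGen.Wild
import Fermat.Agent.RT.Lift.LowerPGen.RegForms
import Fermat.Agent.RT.Lift.LowerPGen.Ordinary
import Fermat.Agent.RT.Lift.LowerPGen.EllipticPoint

/-!
# The inputs for lowering at `p` hold at every level prime to `p`
-/

set_option autoImplicit false

noncomputable section

namespace Fermat.Agent.RT.Lift.LowerPGen

/-- All inputs hold. -/
theorem remainingInputs (p N : ℕ) [Fact p.Prime] [NeZero N] (hp2 : p ≠ 2) (hpN : ¬ p ∣ N) :
    RemainingInputs p N hpN where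
  ord := ordinaryInput (by have := (Fact.out : p.Prime).two_le; omega) hpN
  reg _ hA := dlogRegularInput hA hpN
  wild _ hA := wildInput hA hpN (dlogRegularInput hA hpN) (dlogExactInput hA hpN) (ellipticCorrInput N)

end Fermat.Agent.RT.Lift.LowerPGen

end
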