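import Fermat.Agent.RT.MazurP.Regular
import Fermat.Agent.RT.Mazur.OrdersBasic
import Fermat.Agent.FiniteFlat.Fixed

/-!
# The reduction of the divisor of `dj`

The divisor `regDiv` is the reduction of `(e - 1) - 2 (j)_∞` from characteristic zero. Functions
of level `N` with primitive series reduce compatibly with divisors, and a place over a finite one
is finite.
-/

set_option autoImplicit false
set_option synthInstance.maxHeartbeats 400000
set_option maxHeartbeats 1000000
set_option linter.unusedSectionVars false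

noncomputable section

open AlgebraicCurve
open ModularCurve (jqModC modularFunctionFieldBar modularFunctionFieldFullC)
open scoped IntermediateField Classical

namespace Fermat.Agent.RT.Lift.LowerPGen

open Fermat.Agent.Semistable Fermat.Agent.RT.MazurP
open FiniteFlat (redDiv redPlace goodRed redF)
open Arith (QBar)

-- the algebra structures are found much faster this way, and unchanged
attribute [local instance 2000] SubalgebraClass.toAlgebra HahnSeries.powerSeriesAlgebra
attribute [local instance 10000] instAlgebraKM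

variable {N : ℕ} [NeZero N]

theorem finiteDimensional_jM : FiniteDimensional QBar⟮jM N⟯ (FB N) := (finrank_jM N).1

theorem isSeparable_jM : Algebra.IsSeparable QBar⟮jM N⟯ (FB N) :=
  FF.isSeparable_adjoin (K := QBar) (transcendental_jM N)

attribute [local instance] finiteDimensional_jM isSeparable_jM

variable (N) in
/-- `(e - 1) - 2 (j)_∞` in characteristic zero. -/
def jDiv : Divisor QBar (FB N) := djDiv (transcendental_jM N)

theorem jDiv_of_pole {P : Place QBar (FB N)} (hP : P.ord (jM N) < 0) :
    jDiv N P = P.ord (jM N) - 1 :=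
  djDiv_of_pole (transcendental_jM N) hP

theorem jDiv_of_finite {P : Place QBar (FB N)} (hP : 0 ≤ P.ord (jM N)) :
    jDiv N P = (P.ramificationIndex QBar⟮jM N⟯ : ℤ) - 1 :=
  djDiv_of_finite (transcendental_jM N) hP

/-- At a finite place the derivative of an integral function has order at least `- jDiv`, with
equality for a uniformiser. -/
theorem ord_dd_of_finite (P : Place QBar (FB N)) (hP : 0 ≤ P.ord (jM N)) {y : FB N} :
    (y ∈ P.toValuationSubring → dd (K := QBar) (jM N) y ∈ FF.ordGe P (-jDiv N P)) ∧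
      (P.ord y = 1 → dd (K := QBar) (jM N) y ≠ 0 ∧
        P.ord (dd (K := QBar) (jM N) y) = -jDiv N P) := by
  have hJ : Transcendental QBar (jM N) := transcendental_jM N
  obtain ⟨t, -, ht⟩ := FF.exists_uniformizer (v := P)
  have htt : Transcendental QBar t := FF.transcendental_of_ord_pos P (by omega)
  obtain ⟨c, hc⟩ := FF.exists_ord_sub_pos P hJ hP
  obtain ⟨hJ0, hJt⟩ := FF.ord_ddx_of_ord_ne_zero P ht (ne_of_gt hc)
  rw [FF.ddx_sub htt, FF.ddx_algebraMap htt, sub_zero] at hJ0 hJt
  have he : (P.ramificationIndex QBar⟮jM N⟯ : ℤ) = P.ord (jM N - algebraMap QBar (FB N) c) :=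
    RedTorsion.ram_of_zero hJ P (a := c) (FF.mem_ordGe_of_le P hc)
  rw [← he] at hJt
  have hchain : FF.ddx (K := QBar) t y =
      dd (K := QBar) (jM N) y * FF.ddx (K := QBar) t (jM N) := by
    rw [dd_eq_ddx]; exact FF.ddx_chain hJ htt y
  rw [jDiv_of_finite hP]
  refine ⟨fun hy => ?_, fun hy => ?_⟩
  · rcases eq_or_ne (dd (K := QBar) (jM N) y) 0 with h0 | h0
    · rw [h0]; exact zero_mem _
    refine FF.mem_ordGe_of_le P ?_
    have h := FF.le_ord_of_mem_ordGe P (by rw [hchain]; exact mul_ne_zero h0 hJ0)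
      (FF.ddx_mem P ht hy)
    rw [hchain, P.ord_mul h0 hJ0, hJt] at h
    omega
  · obtain ⟨h0, h⟩ := FF.ord_ddx_of_ord_ne_zero P ht (show P.ord y ≠ 0 by omega)
    rw [hchain] at h0 h
    have h0' := left_ne_zero_of_mul h0
    rw [P.ord_mul h0' hJ0, hJt, hy] at h
    exact ⟨h0', by omega⟩

section Residue

variable {A : ValuationSubring QBar} [FF.IsFunctionField (Res A) (KM A N)] [IsAlgClosed (Res A)]
  (hN : (N : Res A) ≠ 0)

-- the reduction maps of level `N`, with the function fields given explicitly (much faster)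
local notation:max "redDivN" hN:max => @redDiv A (modularFunctionFieldBar N) _ _
  (modularFunctionFieldFullC (IsLocalRing.ResidueField A) N) _ _ _ _ (goodRed hN)
local notation:max "redPlaceN" hN:max => @redPlace A (modularFunctionFieldBar N) _ _
  (modularFunctionFieldFullC (IsLocalRing.ResidueField A) N) _ _ _ _ (goodRed hN)

/-- `jDiv` reduced. -/
def regDiv : Divisor (Res A) (KM A N) := redDivN hN (jDiv N)

/-- The coefficient of a reduced divisor is the sum over the places reducing to it. -/
theorem redDiv_apply_eq_sum (D : Divisor QBar (FB N)) (Q : Place (Res A) (KM A N)) :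
    redDivN hN D Q =
      D.sum fun P n => if redPlaceN hN P = Q then n else 0 := by
  classical
  rw [FiniteFlat.redDiv_apply, Finsupp.mapDomain, Finsupp.sum_apply]
  exact Finsupp.sum_congr fun P _ => Finsupp.single_apply

theorem redDiv_apply_nonneg {D : Divisor QBar (FB N)} {Q : Place (Res A) (KM A N)}
    (h : ∀ P, redPlaceN hN P = Q → 0 ≤ D P) : 0 ≤ redDivN hN D Q := by
  rw [redDiv_apply_eq_sum]
  refine Finset.sum_nonneg fun P _ => ?_
  simp only
  split_ifs with hP
  exacts [h P hP, le_rfl]

theorem redDiv_apply_mono {D E : Divisor QBar (FB N)} {Q : Place (Res A) (KM A N)}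
    (h : ∀ P, redPlaceN hN P = Q → D P ≤ E P) :
    redDivN hN D Q ≤ redDivN hN E Q := by
  have := redDiv_apply_nonneg hN (D := E - D) (Q := Q)
    fun P hP => by rw [Finsupp.sub_apply]; linarith [h P hP]
  rw [map_sub, Finsupp.sub_apply] at this
  linarith

theorem redDiv_apply_congr {D E : Divisor QBar (FB N)} {Q : Place (Res A) (KM A N)}
    (h : ∀ P, redPlaceN hN P = Q → D P = E P) :
    redDivN hN D Q = redDivN hN E Q :=
  le_antisymm (redDiv_apply_mono hN fun P hP => (h P hP).le)
    (redDiv_apply_mono hN fun P hP => (h P hP).ge)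

theorem le_redDiv_apply {D : Divisor QBar (FB N)} {P : Place QBar (FB N)}
    (h : ∀ P', redPlaceN hN P' = redPlaceN hN P → 0 ≤ D P') :
    D P ≤ redDivN hN D (redPlaceN hN P) := by
  classical
  have := redDiv_apply_mono hN (D := Finsupp.single P (D P)) (E := D) fun P' hP' => by
    rcases eq_or_ne P' P with rfl | hne
    · rw [Finsupp.single_eq_same]
    · rw [Finsupp.single_eq_of_ne hne]; exact h P' hP'
  rwa [FiniteFlat.redDiv_single, Finsupp.single_eq_same] at this

theorem redDiv_poles_jM :
    redDivN hN (FF.poles QBar (jM N)) = FF.poles (Res A) (jK A N) := by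
  have e : jM N = RedTorsion.jF (F := FB N) EichlerShimura.hFb :=
    Subtype.ext ((coe_jM N).trans (RedTorsion.coe_jF _).symm)
  have h := FiniteFlat.redDiv_poleDiv (A := A) (N := N) hN
  rw [FiniteFlat.poleDiv, ← e] at h
  exact h

/-- Every place reducing to a finite one is finite. -/
theorem finite_of_redPlace {P : Place QBar (FB N)}
    (hQ : 0 ≤ (redPlaceN hN P).ord (jK A N)) : 0 ≤ P.ord (jM N) := by
  have h := le_redDiv_apply hN (D := FF.poles QBar (jM N)) (P := P)
    fun P' _ => Finsupp.le_def.mp (FF.poles_nonneg _) P'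
  rw [redDiv_poles_jM, FF.poles_apply, FF.poles_apply] at h
  omega

/-- A primitive series reduces compatibly with divisors. -/
theorem redDiv_div_loc {x : loc2 A (iota1 N)} {r : KM A N} (hr0 : r ≠ 0)
    (hr : red1 A N x = (r : LaurentSeries (Res A))) :
    redDivN hN (FF.div QBar (x : FB N)) = FF.div (Res A) r := by
  obtain ⟨a, b, hb, hab⟩ := (mem_loc1 N).mp x.2
  set d : RedTorsion.serInt A := ⟨(b : LSer), RedTorsion.mem_serInt.mpr (coeff_mem A b)⟩
  set e : RedTorsion.serInt A := ⟨(a : LSer), RedTorsion.mem_serInt.mpr (coeff_mem A a)⟩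
  have hd : RedTorsion.serRed A d = red A b :=
    HahnSeries.ext (funext fun n => (RedTorsion.coeff_serRed d n).trans (coeff_red A b n).symm)
  have he : RedTorsion.serRed A e = red A a :=
    HahnSeries.ext (funext fun n => (RedTorsion.coeff_serRed e n).trans (coeff_red A a n).symm)
  obtain ⟨hm, hred⟩ := RedTorsion.mem_model_S_of_mul_eq (F := FB N) EichlerShimura.hFb hN
    (y := (x : FB N)) (d := d) (p := e) (by rwa [hd]) hab
  rw [hd, he] at hred
  set g : (goodRed hN).S := ⟨(x : FB N), hm⟩
  have hg : redF (goodRed hN).toRedLattice g = r := Subtype.ext (by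
    rw [← hr, red1_eq, redL_eq ⟨_, _⟩ hb hab]
    exact eq_div_of_mul_eq hb hred)
  have h := FiniteFlat.redDiv_div (goodRed hN) g (by rw [hg]; exact hr0)
  rwa [hg] at h

/-- The order of a reduction is at least a bound valid at all places above. -/
theorem le_ord_red {x : loc2 A (iota1 N)} {r : KM A N} (hr0 : r ≠ 0)
    (hr : red1 A N x = (r : LaurentSeries (Res A))) {D : Divisor QBar (FB N)}
    {Q : Place (Res A) (KM A N)}
    (h : ∀ P, redPlaceN hN P = Q → D P ≤ P.ord (x : FB N)) :
    redDivN hN D Q ≤ Q.ord r := by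
  rw [← FF.div_apply (K := Res A) r Q, ← redDiv_div_loc hN hr0 hr]
  exact redDiv_apply_mono hN fun P hP => h P hP

variable (p : ℕ) [Fact p.Prime] [CharP (Res A) p]
  [FiniteDimensional (Res A)⟮jK A N⟯ (KM A N)] [Algebra.IsSeparable (Res A)⟮jK A N⟯ (KM A N)]

/-- Derivatives with respect to `j` commute with reduction. -/
theorem exists_red_dd {x : loc2 A (iota1 N)} {r : KM A N}
    (hr : red1 A N x = (r : LaurentSeries (Res A))) :
    ∃ d : loc2 A (iota1 N), (d : FB N) = dd (K := QBar) (jM N) (x : FB N) ∧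
      red1 A N d = ((dd (K := Res A) (jK A N) r : KM A N) : LaurentSeries (Res A)) := by
  obtain ⟨hθ, eθ⟩ := theta_mem_locS ((mem_loc1 N).mp x.2)
  rw [red1_eq] at hr
  rw [hr] at eθ
  obtain ⟨hθj, eθj⟩ := theta_mem_intS (A := A) jqModC_mem_intS
  rw [red_jqModC] at eθj
  have hne : redL A ⟨_, intS_le_locS hθj⟩ ≠ 0 := by
    rw [redL_of_mem_intS ⟨_, hθj⟩, eθj]; exact red_theta_jqModC_ne_zero
  obtain ⟨hinv, einv⟩ := inv_mem_locS (intS_le_locS hθj) hne
  have hde : ((dd (K := QBar) (jM N) (x : FB N) : FB N) : LSer) =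
      theta QBar ((x : FB N) : LSer) * (theta QBar (jqModC QBar))⁻¹ := by
    have h : theta QBar ((x : FB N) : LSer) = ((dd (K := QBar) (jM N) (x : FB N) : FB N) : LSer) *
        theta QBar ((jM N : FB N) : LSer) :=
      theta_algHom (transcendental_jM N) (FB N).val (x : FB N)
    rw [coe_jM] at h
    rw [h, mul_inv_cancel_right₀ red_theta_jqModC_ne_zero]
  have hdm : dd (K := QBar) (jM N) (x : FB N) ∈ loc2 A (iota1 N) :=
    (mem_loc1 N).mpr (by rw [hde]; exact mul_mem hθ hinv)
  refine ⟨⟨_, hdm⟩, rfl, ?_⟩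
  rw [red1_eq, redL_congr _ (mul_mem hθ hinv) hde,
    show (⟨_, mul_mem hθ hinv⟩ : locS A) = ⟨_, hθ⟩ * ⟨_, hinv⟩ from rfl, map_mul, eθ, einv,
    redL_of_mem_intS ⟨_, hθj⟩, eθj, coe_dd_mul_theta,
    mul_inv_cancel_right₀ red_theta_jqModC_ne_zero]

end Residue

end Fermat.Agent.RT.Lift.LowerPGen

end
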